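import Mathlib

/-!
# P3 / CFT: the class-module predicate shared by Triv (L3), Formation (L4), Local (L5), Global (L9)

`IsClassAt C σ f` : the class-module axioms for a `G`-module `C` with a 2-cocycle `σ`, tested on
`f : H →* G` (in practice `f` injective), in *cocycle form* (text of helper37, board row 1101):

* `h1`  : `H¹(H, C) = 0`;
* `gen` : the restriction of `σ` generates `H²(H, C)`;
* `ord` : the restriction of `σ` has order (at least) `|H|` in `H²(H, C)`.

`IsPClassModule p C σ` : these axioms at every `p`-subgroup (every injective `f : H →* G` from a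
finite `p`-group).  This is what the arithmetic layers provide for a finite Galois group that is
NOT a `p`-group, and what Formation consumes.
-/

set_option autoImplicit false

open CategoryTheory groupCohomology

namespace Fermat.Agent.CFT.Triv

variable {G : Type} [Group G]

/-- Class-module axioms for `(C, σ)` at `f : H →* G`, in cocycle form. -/
structure IsClassAt (C : Rep.{0} ℤ G) (σ : cocycles₂ C) {H : Type} [Group H] (f : H →* G) : Prop where
  /-- `H¹(H, C) = 0` -/
  h1 : ∀ c : cocycles₁ (Rep.res f C), ⇑c ∈ coboundaries₁ (Rep.res f C)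
  /-- `res σ` generates `H²(H, C)` -/
  gen : ∀ τ : cocycles₂ (Rep.res f C), ∃ (k : ℤ) (b : H → C),
    ⇑τ = k • (⇑σ ∘ Prod.map f f) + (d₁₂ (Rep.res f C)).hom b
  /-- `res σ` has order at least `|H|` in `H²(H, C)` -/
  ord : ∀ k : ℤ, (∃ b : H → C, k • (⇑σ ∘ Prod.map f f) = (d₁₂ (Rep.res f C)).hom b) →
    (Nat.card H : ℤ) ∣ k

/-- `(C, σ)` is a `p`-class module: the class-module axioms hold at every `p`-subgroup. -/
def IsPClassModule (p : ℕ) (C : Rep.{0} ℤ G) (σ : cocycles₂ C) : Prop :=
  ∀ (H : Type) [Group H] [Finite H] (f : H →* G), Function.Injective f → IsPGroup p H →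
    IsClassAt C σ f

end Fermat.Agent.CFT.Triv
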