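import Fermat.Agent.CFT.Triv.Sylow

/-!
# P3 / Triv layer: `Hom(Λ, B)` is cohomologically trivial for a lattice `Λ` and
a cohomologically trivial `B`

(Serre, *Local Fields*, IX §5 Thm 9, proved without projective dimension.)

Main results (all unconditional; `Λ` is `ℤ`-free and finitely generated):

* `cohTriv_hom_of_pGroup` : `P` a finite `p`-group, `B` cohomologically trivial ⇒
  `Hom_ℤ(Λ, B)` (= `Rep.of (Representation.linHom ρ σ)`) is cohomologically trivial.
* `isZero_tate_res_linHom`, `isZero_tate_res_ihom`, `isZero_tate_res_homRep` : the same on a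
  `p`-subgroup `f : H →* G` of an arbitrary group `G`, for the three models of the internal Hom
  (`Rep.of (linHom ρ σ)`, Mathlib's `(Rep.ihom Λ).obj B`, and `Triv.homRep Λ B` on additive maps);
  `…_of_pTrivial` : assuming only that `B` is cohomologically trivial on `p`-subgroups.
* `cohTriv_linHom`, `isCohTrivial_ihom`, `isCohTrivial_homRep` : `B` cohomologically trivial ⇒
  `Hom(Λ, B)` cohomologically trivial, any group `G` (Sylow criterion of `Triv/Sylow`).

Proof for a `p`-group `P`.  (1) *Filtration*: if `V` is finite and killed by `p`, and `W` is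
killed by `p` and cohomologically trivial, then `Hom(V, W)` is cohomologically trivial: a
nonzero `P`-fixed vector `v ∈ V` gives `0 → ℤ/p → V → V/⟨v⟩ → 0`, split over `ℤ`, and
`Hom(ℤ/p, W) ≅ W`; induct on `|V|`.  (2) *Reduction mod `p`*: if `Z` has no `p`-torsion and is
cohomologically trivial, then so is `Z/p`, hence `Hom(Λ, Z/p) = Hom(Λ/p, Z/p)` by (1); the
sequence `0 → Hom(Λ, Z) → Hom(Λ, Z) → Hom(Λ, Z/p) → 0` shows that `p` is injective on all Tate
groups of `Hom(Λ, Z)`, which are killed by a power of `p`.  (3) *General `B`*: `B` is a quotient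
of the torsion-free cohomologically trivial module `Fun(P, ℤ[B])` (`Coh/TateInduced`), with
torsion-free cohomologically trivial kernel; apply (2) twice and two-out-of-three.

To avoid the `Module ℤ` instance diamond of an abstract `X : Rep ℤ G`, the working lemmas are
stated for `Rep.of ρ` with `ρ : Representation ℤ G V`, `[AddCommGroup V]`; `rep_induction`
transfers them to arbitrary objects of `Rep ℤ G`.
-/

set_option autoImplicit false

open CategoryTheory groupCohomology

namespace Fermat.Agent.CFT.Triv.HomTriv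

section RepLevel

variable {G : Type} [Group G]

/-- Every object of `Rep ℤ G` is of the form `Rep.of ρ` with the canonical `ℤ`-module
structure. -/
theorem rep_induction (P : Rep.{0} ℤ G → Prop)
    (h : ∀ (V : Type) [AddCommGroup V] (ρ : Representation ℤ G V), P (Rep.of ρ))
    (X : Rep.{0} ℤ G) : P X := by
  obtain ⟨V, ρ⟩ := X
  rename_i hV1 hV2
  obtain rfl : hV2 = AddCommGroup.toIntModule V := Subsingleton.elim _ _
  exact h V ρ

theorem cohTriv_of_iso {A B : Rep.{0} ℤ G} (e : A ≅ B) (hA : IsCohTrivial A) : IsCohTrivial B := by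
  intro H _ _ f hf n
  have e' : Rep.res f A ≅ Rep.res f B := (Rep.resFunctor f).mapIso e
  exact (hA H f hf n).of_iso ((tateCohomologyFunctor n).mapIso e').symm

theorem cohTriv_X₂ {S : ShortComplex (Rep.{0} ℤ G)} (hS : S.ShortExact)
    (h1 : IsCohTrivial S.X₁) (h3 : IsCohTrivial S.X₃) : IsCohTrivial S.X₂ := by
  intro H _ _ f hf n
  have hS' : (S.map (Rep.resFunctor f)).ShortExact := (Rep.shortExact_res f).2 hS
  have hex := (TateCohomology.map_tateComplexFunctor_shortExact hS').homology_exact₂ n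
  exact hex.isZero_X₂ ((h1 H f hf n).eq_of_src _ _) ((h3 H f hf n).eq_of_tgt _ _)

theorem cohTriv_X₃ {S : ShortComplex (Rep.{0} ℤ G)} (hS : S.ShortExact)
    (h1 : IsCohTrivial S.X₁) (h2 : IsCohTrivial S.X₂) : IsCohTrivial S.X₃ := by
  intro H _ _ f hf n
  have hS' : (S.map (Rep.resFunctor f)).ShortExact := (Rep.shortExact_res f).2 hS
  have hex := TateCohomology.exact₃ hS' n
  exact hex.isZero_X₂ ((h2 H f hf n).eq_of_src _ _) ((h1 H f hf (n + 1)).eq_of_tgt _ _)

theorem cohTriv_X₁ {S : ShortComplex (Rep.{0} ℤ G)} (hS : S.ShortExact)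
    (h2 : IsCohTrivial S.X₂) (h3 : IsCohTrivial S.X₃) : IsCohTrivial S.X₁ := by
  intro H _ _ f hf n
  obtain ⟨m, rfl⟩ : ∃ m, n = m + 1 := ⟨n - 1, by ring⟩
  have hS' : (S.map (Rep.resFunctor f)).ShortExact := (Rep.shortExact_res f).2 hS
  have hex := TateCohomology.exact₁ hS' m
  exact hex.isZero_X₂ ((h3 H f hf m).eq_of_src _ _) ((h2 H f hf (m + 1)).eq_of_tgt _ _)

/-- If the cokernel of a monomorphism `S.f` is cohomologically trivial, then `S.f` induces
injections on all Tate cohomology groups of all subgroups. -/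
theorem tate_map_injective {S : ShortComplex (Rep.{0} ℤ G)} (hS : S.ShortExact)
    (h3 : IsCohTrivial S.X₃) (H : Type) [Group H] [Fintype H] (f : H →* G)
    (hf : Function.Injective f) (n : ℤ) :
    Function.Injective ((tateCohomologyFunctor n).map ((Rep.resFunctor f).map S.f)).hom := by
  obtain ⟨m, rfl⟩ : ∃ m, n = m + 1 := ⟨n - 1, by ring⟩
  have hS' : (S.map (Rep.resFunctor f)).ShortExact := (Rep.shortExact_res f).2 hS
  have hex := TateCohomology.exact₁ hS' m
  have hmono := hex.mono_g ((h3 H f hf m).eq_of_src _ _)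
  exact (ModuleCat.mono_iff_injective _).1 hmono

end RepLevel

/-! ### Generic constructors (any coefficient ring, so that no instance diamond interferes) -/

section Generic

variable {k G : Type} [CommRing k] [Group G]
variable {V₁ V₂ V₃ : Type} [AddCommGroup V₁] [AddCommGroup V₂] [AddCommGroup V₃]
  [Module k V₁] [Module k V₂] [Module k V₃]
  {ρ₁ : Representation k G V₁} {ρ₂ : Representation k G V₂} {ρ₃ : Representation k G V₃}

/-- A morphism of representations from an equivariant linear map. -/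
noncomputable abbrev mkHomOf (f : V₁ →ₗ[k] V₂) (hf : ∀ g v, f (ρ₁ g v) = ρ₂ g (f v)) :
    Rep.of ρ₁ ⟶ Rep.of ρ₂ :=
  Rep.ofHom (f.intertwiningMap_of_isIntertwiningMap ρ₁ ρ₂ hf)

/-- A short exact sequence of representations from elementwise data. -/
theorem shortExact_mk (f : V₁ →ₗ[k] V₂) (g : V₂ →ₗ[k] V₃)
    (hf : ∀ s v, f (ρ₁ s v) = ρ₂ s (f v)) (hg : ∀ s v, g (ρ₂ s v) = ρ₃ s (g v))
    (hinj : Function.Injective f) (hsurj : Function.Surjective g)
    (h0 : ∀ a, g (f a) = 0) (hex : ∀ b, g b = 0 → ∃ a, f a = b) :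
    ∃ S : ShortComplex (Rep.{0} k G), S.ShortExact ∧ S.X₁ = Rep.of ρ₁ ∧ S.X₂ = Rep.of ρ₂ ∧
      S.X₃ = Rep.of ρ₃ := by
  have w : mkHomOf (ρ₁ := ρ₁) (ρ₂ := ρ₂) f hf ≫ mkHomOf (ρ₁ := ρ₂) (ρ₂ := ρ₃) g hg = 0 := by
    apply Rep.hom_ext
    apply Representation.IntertwiningMap.ext
    ext a
    exact h0 a
  refine ⟨ShortComplex.mk (mkHomOf f hf) (mkHomOf g hg) w, ?_, rfl, rfl, rfl⟩
  have hm : Mono (mkHomOf (ρ₁ := ρ₁) (ρ₂ := ρ₂) f hf) := (Rep.mono_iff_injective _).2 hinj
  have he : Epi (mkHomOf (ρ₁ := ρ₂) (ρ₂ := ρ₃) g hg) := (Rep.epi_iff_surjective _).2 hsurj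
  refine ShortComplex.ShortExact.mk ?_
  rw [← ShortComplex.exact_map_iff_of_faithful _ (forget₂ (Rep.{0} k G) (ModuleCat k))]
  rw [ShortComplex.moduleCat_exact_iff]
  intro b hb
  exact hex b hb

/-- The same, keeping the first map (needed to identify the induced map on cohomology). -/
theorem shortExact_mk' (f : V₁ →ₗ[k] V₂) (g : V₂ →ₗ[k] V₃)
    (hf : ∀ s v, f (ρ₁ s v) = ρ₂ s (f v)) (hg : ∀ s v, g (ρ₂ s v) = ρ₃ s (g v))
    (hinj : Function.Injective f) (hsurj : Function.Surjective g)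
    (h0 : ∀ a, g (f a) = 0) (hex : ∀ b, g b = 0 → ∃ a, f a = b) :
    ∃ (φ : Rep.of ρ₁ ⟶ Rep.of ρ₂) (ψ : Rep.of ρ₂ ⟶ Rep.of ρ₃) (w : φ ≫ ψ = 0),
      (ShortComplex.mk φ ψ w).ShortExact ∧ ∀ v, φ.hom v = f v := by
  have w : mkHomOf (ρ₁ := ρ₁) (ρ₂ := ρ₂) f hf ≫ mkHomOf (ρ₁ := ρ₂) (ρ₂ := ρ₃) g hg = 0 := by
    apply Rep.hom_ext
    apply Representation.IntertwiningMap.ext
    ext a
    exact h0 a
  refine ⟨mkHomOf f hf, mkHomOf g hg, w, ?_, fun _ => rfl⟩
  have hm : Mono (mkHomOf (ρ₁ := ρ₁) (ρ₂ := ρ₂) f hf) := (Rep.mono_iff_injective _).2 hinj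
  have he : Epi (mkHomOf (ρ₁ := ρ₂) (ρ₂ := ρ₃) g hg) := (Rep.epi_iff_surjective _).2 hsurj
  refine ShortComplex.ShortExact.mk ?_
  rw [← ShortComplex.exact_map_iff_of_faithful _ (forget₂ (Rep.{0} k G) (ModuleCat k))]
  rw [ShortComplex.moduleCat_exact_iff]
  intro b hb
  exact hex b hb

/-- An isomorphism of representations from an equivariant linear bijection. -/
theorem nonempty_iso_mk (f : V₁ →ₗ[k] V₂) (hf : ∀ s v, f (ρ₁ s v) = ρ₂ s (f v))
    (hbij : Function.Bijective f) : Nonempty (Rep.of ρ₁ ≅ Rep.of ρ₂) := by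
  have hm : Mono (mkHomOf (ρ₁ := ρ₁) (ρ₂ := ρ₂) f hf) := (Rep.mono_iff_injective _).2 hbij.1
  have he : Epi (mkHomOf (ρ₁ := ρ₁) (ρ₂ := ρ₂) f hf) := (Rep.epi_iff_surjective _).2 hbij.2
  have hiso : IsIso (mkHomOf (ρ₁ := ρ₁) (ρ₂ := ρ₂) f hf) := isIso_of_mono_of_epi _
  exact ⟨asIso (mkHomOf (ρ₁ := ρ₁) (ρ₂ := ρ₂) f hf)⟩

end Generic

/-! ### Two-out-of-three, unbundled -/

section Unbundled

variable {G : Type} [Group G]
variable {V₁ V₂ V₃ : Type} [AddCommGroup V₁] [AddCommGroup V₂] [AddCommGroup V₃]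
  {ρ₁ : Representation ℤ G V₁} {ρ₂ : Representation ℤ G V₂} {ρ₃ : Representation ℤ G V₃}

theorem cohTriv_mid (f : V₁ →ₗ[ℤ] V₂) (g : V₂ →ₗ[ℤ] V₃)
    (hf : ∀ s v, f (ρ₁ s v) = ρ₂ s (f v)) (hg : ∀ s v, g (ρ₂ s v) = ρ₃ s (g v))
    (hinj : Function.Injective f) (hsurj : Function.Surjective g)
    (h0 : ∀ a, g (f a) = 0) (hex : ∀ b, g b = 0 → ∃ a, f a = b)
    (h1 : IsCohTrivial (Rep.of ρ₁)) (h3 : IsCohTrivial (Rep.of ρ₃)) : IsCohTrivial (Rep.of ρ₂) := by
  obtain ⟨S, hS, e1, e2, e3⟩ :=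
    shortExact_mk (k := ℤ) (ρ₁ := ρ₁) (ρ₂ := ρ₂) (ρ₃ := ρ₃) f g hf hg hinj hsurj h0 hex
  rw [← e2]
  rw [← e1] at h1
  rw [← e3] at h3
  exact cohTriv_X₂ hS h1 h3

theorem cohTriv_right (f : V₁ →ₗ[ℤ] V₂) (g : V₂ →ₗ[ℤ] V₃)
    (hf : ∀ s v, f (ρ₁ s v) = ρ₂ s (f v)) (hg : ∀ s v, g (ρ₂ s v) = ρ₃ s (g v))
    (hinj : Function.Injective f) (hsurj : Function.Surjective g)
    (h0 : ∀ a, g (f a) = 0) (hex : ∀ b, g b = 0 → ∃ a, f a = b)
    (h1 : IsCohTrivial (Rep.of ρ₁)) (h2 : IsCohTrivial (Rep.of ρ₂)) : IsCohTrivial (Rep.of ρ₃) := by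
  obtain ⟨S, hS, e1, e2, e3⟩ :=
    shortExact_mk (k := ℤ) (ρ₁ := ρ₁) (ρ₂ := ρ₂) (ρ₃ := ρ₃) f g hf hg hinj hsurj h0 hex
  rw [← e3]
  rw [← e1] at h1
  rw [← e2] at h2
  exact cohTriv_X₃ hS h1 h2

theorem cohTriv_left (f : V₁ →ₗ[ℤ] V₂) (g : V₂ →ₗ[ℤ] V₃)
    (hf : ∀ s v, f (ρ₁ s v) = ρ₂ s (f v)) (hg : ∀ s v, g (ρ₂ s v) = ρ₃ s (g v))
    (hinj : Function.Injective f) (hsurj : Function.Surjective g)
    (h0 : ∀ a, g (f a) = 0) (hex : ∀ b, g b = 0 → ∃ a, f a = b)
    (h2 : IsCohTrivial (Rep.of ρ₂)) (h3 : IsCohTrivial (Rep.of ρ₃)) : IsCohTrivial (Rep.of ρ₁) := by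
  obtain ⟨S, hS, e1, e2, e3⟩ :=
    shortExact_mk (k := ℤ) (ρ₁ := ρ₁) (ρ₂ := ρ₂) (ρ₃ := ρ₃) f g hf hg hinj hsurj h0 hex
  rw [← e1]
  rw [← e2] at h2
  rw [← e3] at h3
  exact cohTriv_X₁ hS h2 h3

/-- Transport along an equivariant linear bijection. -/
theorem cohTriv_of_bijective (f : V₁ →ₗ[ℤ] V₂) (hf : ∀ s v, f (ρ₁ s v) = ρ₂ s (f v))
    (hbij : Function.Bijective f) (h1 : IsCohTrivial (Rep.of ρ₁)) : IsCohTrivial (Rep.of ρ₂) := by
  obtain ⟨e⟩ := nonempty_iso_mk (k := ℤ) (ρ₁ := ρ₁) (ρ₂ := ρ₂) f hf hbij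
  exact cohTriv_of_iso e h1

/-- A representation on a trivial group is cohomologically trivial. -/
theorem cohTriv_of_subsingleton [Subsingleton V₁] : IsCohTrivial (Rep.of ρ₁) := by
  intro H _ _ f hf n
  have hz : Limits.IsZero (Rep.res f (Rep.of ρ₁)) := by
    rw [Rep.isZero_iff]
    exact inferInstanceAs (Subsingleton V₁)
  have : (tateCohomologyFunctor (R := ℤ) (G := H) n).PreservesZeroMorphisms := by
    unfold tateCohomologyFunctor
    infer_instance
  exact Functor.map_isZero (tateCohomologyFunctor n) hz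

end Unbundled

/-! ### The `Hom` representation: functoriality and exactness -/

section HomRep

variable {G : Type} [Group G]
variable {Λ Λ' Λ'' W W₁ W₂ W₃ : Type} [AddCommGroup Λ] [AddCommGroup Λ'] [AddCommGroup Λ'']
  [AddCommGroup W] [AddCommGroup W₁] [AddCommGroup W₂] [AddCommGroup W₃]
  (ρ : Representation ℤ G Λ) (ρ' : Representation ℤ G Λ') (ρ'' : Representation ℤ G Λ'')
  (σ : Representation ℤ G W) (σ₁ : Representation ℤ G W₁) (σ₂ : Representation ℤ G W₂)
  (σ₃ : Representation ℤ G W₃)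

theorem compRight_equivariant (f : W₁ →ₗ[ℤ] W₂) (hf : ∀ s w, f (σ₁ s w) = σ₂ s (f w)) (s : G)
    (φ : Λ →ₗ[ℤ] W₁) :
    LinearMap.compRight ℤ f (Representation.linHom ρ σ₁ s φ) =
      Representation.linHom ρ σ₂ s (LinearMap.compRight ℤ f φ) := by
  ext x
  simp only [LinearMap.compRight_apply, Representation.linHom_apply, LinearMap.comp_apply, hf]

theorem lcomp_equivariant (f : Λ' →ₗ[ℤ] Λ) (hf : ∀ s v, f (ρ' s v) = ρ s (f v)) (s : G)
    (φ : Λ →ₗ[ℤ] W) :
    LinearMap.lcomp ℤ W f (Representation.linHom ρ σ s φ) =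
      Representation.linHom ρ' σ s (LinearMap.lcomp ℤ W f φ) := by
  ext x
  simp only [LinearMap.lcomp_apply, Representation.linHom_apply, LinearMap.comp_apply, hf]

/-- `Hom(Λ, -)` is exact on short exact sequences when `Λ` is projective over `ℤ`. -/
theorem compRight_exact [Module.Projective ℤ Λ] (f : W₁ →ₗ[ℤ] W₂) (g : W₂ →ₗ[ℤ] W₃)
    (hinj : Function.Injective f) (hsurj : Function.Surjective g)
    (h0 : ∀ a, g (f a) = 0) (hex : ∀ b, g b = 0 → ∃ a, f a = b) :
    Function.Injective (LinearMap.compRight (M := Λ) ℤ f) ∧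
      Function.Surjective (LinearMap.compRight (M := Λ) ℤ g) ∧
      (∀ a, LinearMap.compRight (M := Λ) ℤ g (LinearMap.compRight ℤ f a) = 0) ∧
      (∀ b, LinearMap.compRight (M := Λ) ℤ g b = 0 → ∃ a, LinearMap.compRight ℤ f a = b) := by
  refine ⟨?_, ?_, ?_, ?_⟩
  · intro φ φ' h
    ext x
    apply hinj
    have := congrArg (fun ψ : Λ →ₗ[ℤ] W₂ => ψ x) h
    simpa using this
  · intro ψ
    obtain ⟨h, hh⟩ := Module.projective_lifting_property g ψ hsurj
    exact ⟨h, hh⟩
  · intro a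
    ext x
    simp [h0]
  · intro b hb
    have hb' : ∀ x, b x ∈ LinearMap.range f := by
      intro x
      have := congrArg (fun ψ : Λ →ₗ[ℤ] W₃ => ψ x) hb
      obtain ⟨a, ha⟩ := hex (b x) (by simpa using this)
      exact ⟨a, ha⟩
    refine ⟨(LinearEquiv.ofInjective f hinj).symm.toLinearMap ∘ₗ b.codRestrict _ hb', ?_⟩
    ext x
    simp only [LinearMap.compRight_apply, LinearMap.comp_apply, LinearEquiv.coe_coe]
    have := (LinearEquiv.ofInjective f hinj).apply_symm_apply (b.codRestrict _ hb' x)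
    exact congrArg Subtype.val this

/-- Two-out-of-three for `Hom(Λ, -)`, right term. -/
theorem cohTriv_hom_right [Module.Projective ℤ Λ] (f : W₁ →ₗ[ℤ] W₂) (g : W₂ →ₗ[ℤ] W₃)
    (hf : ∀ s w, f (σ₁ s w) = σ₂ s (f w)) (hg : ∀ s w, g (σ₂ s w) = σ₃ s (g w))
    (hinj : Function.Injective f) (hsurj : Function.Surjective g)
    (h0 : ∀ a, g (f a) = 0) (hex : ∀ b, g b = 0 → ∃ a, f a = b)
    (h1 : IsCohTrivial (Rep.of (Representation.linHom ρ σ₁)))
    (h2 : IsCohTrivial (Rep.of (Representation.linHom ρ σ₂))) :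
    IsCohTrivial (Rep.of (Representation.linHom ρ σ₃)) := by
  obtain ⟨e1, e2, e3, e4⟩ := compRight_exact (Λ := Λ) f g hinj hsurj h0 hex
  exact cohTriv_right (LinearMap.compRight ℤ f) (LinearMap.compRight ℤ g)
    (compRight_equivariant ρ σ₁ σ₂ f hf) (compRight_equivariant ρ σ₂ σ₃ g hg) e1 e2 e3 e4 h1 h2

/-- `Hom(-, W)` on a short exact sequence `0 → Λ' → Λ → Λ'' → 0` for which every map
`Λ' → W` extends to `Λ`: two-out-of-three, middle term. -/
theorem cohTriv_hom_mid (i : Λ' →ₗ[ℤ] Λ) (π : Λ →ₗ[ℤ] Λ'')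
    (hi : ∀ s v, i (ρ' s v) = ρ s (i v)) (hπ : ∀ s v, π (ρ s v) = ρ'' s (π v))
    (hsurj : Function.Surjective π)
    (h0 : ∀ a, π (i a) = 0) (hex : ∀ b, π b = 0 → ∃ a, i a = b)
    (hext : ∀ φ' : Λ' →ₗ[ℤ] W, ∃ φ : Λ →ₗ[ℤ] W, φ ∘ₗ i = φ')
    (h1 : IsCohTrivial (Rep.of (Representation.linHom ρ'' σ)))
    (h3 : IsCohTrivial (Rep.of (Representation.linHom ρ' σ))) :
    IsCohTrivial (Rep.of (Representation.linHom ρ σ)) := by
  refine cohTriv_mid (LinearMap.lcomp ℤ W π) (LinearMap.lcomp ℤ W i)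
    (lcomp_equivariant ρ'' ρ σ π hπ) (lcomp_equivariant ρ ρ' σ i hi) ?_ ?_ ?_ ?_ h1 h3
  · intro φ φ' h
    ext y
    obtain ⟨x, rfl⟩ := hsurj y
    have := congrArg (fun ψ : Λ →ₗ[ℤ] W => ψ x) h
    simpa using this
  · intro φ'
    obtain ⟨φ, hφ⟩ := hext φ'
    exact ⟨φ, hφ⟩
  · intro a
    ext x
    simp [h0]
  · intro b hb
    have hker : LinearMap.ker π ≤ LinearMap.ker b := by
      intro x hx
      obtain ⟨a, rfl⟩ := hex x hx
      have := congrArg (fun ψ : Λ' →ₗ[ℤ] W => ψ a) hb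
      simpa using this
    refine ⟨(LinearMap.ker π).liftQ b hker ∘ₗ
      (LinearMap.quotKerEquivOfSurjective π hsurj).symm.toLinearMap, ?_⟩
    ext x
    simp only [LinearMap.lcomp_apply, LinearMap.comp_apply, LinearEquiv.coe_coe]
    have : (LinearMap.quotKerEquivOfSurjective π hsurj).symm (π x) =
        Submodule.Quotient.mk x := by
      rw [LinearEquiv.symm_apply_eq]
      rfl
    rw [this, Submodule.liftQ_apply]

end HomRep

section Restriction
variable {G H : Type} [Group G] [Group H]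

theorem cohTriv_res {A : Rep.{0} ℤ G} (hA : IsCohTrivial A) (f : H →* G)
    (hf : Function.Injective f) : IsCohTrivial (Rep.res f A) := by
  intro H' _ _ f' hf' n
  exact hA H' (f.comp f') (hf.comp hf') n

end Restriction

section Unbundled2

variable {G : Type} [Group G]
variable {V₁ V₂ : Type} [AddCommGroup V₁] [AddCommGroup V₂]
  {ρ₁ : Representation ℤ G V₁} {ρ₂ : Representation ℤ G V₂}

theorem cohTriv_of_bijective' (f : V₁ →ₗ[ℤ] V₂) (hf : ∀ s v, f (ρ₁ s v) = ρ₂ s (f v))
    (hbij : Function.Bijective f) (h2 : IsCohTrivial (Rep.of ρ₂)) : IsCohTrivial (Rep.of ρ₁) := by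
  obtain ⟨e⟩ := nonempty_iso_mk (k := ℤ) (ρ₁ := ρ₁) (ρ₂ := ρ₂) f hf hbij
  exact cohTriv_of_iso e.symm h2

end Unbundled2

section ZModHelpers

variable {p : ℕ} {W : Type} [AddCommGroup W]

/-- The `ℤ`-linear map `ZMod p → W` sending `1` to a `p`-torsion element `w`. -/
noncomputable def zmodHom (p : ℕ) (w : W) (hw : p • w = 0) : ZMod p →ₗ[ℤ] W :=
  (ZMod.lift p ⟨zmultiplesHom W w, by simpa using hw⟩).toIntLinearMap

theorem zmodHom_intCast (w : W) (hw : p • w = 0) (n : ℤ) :
    zmodHom p w hw (n : ZMod p) = n • w := by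
  simp [zmodHom]

theorem zmodHom_one (w : W) (hw : p • w = 0) : zmodHom p w hw 1 = w := by
  have := zmodHom_intCast w hw 1
  simpa using this

theorem zmod_linearMap_ext (f g : ZMod p →ₗ[ℤ] W) (h : f 1 = g 1) : f = g := by
  ext x
  obtain ⟨n, rfl⟩ := ZMod.intCast_surjective x
  have e : (n : ZMod p) = n • (1 : ZMod p) := by simp
  rw [e, map_zsmul, map_zsmul, h]

theorem exists_addMonoidHom_apply_eq_one [Fact p.Prime] {V : Type} [AddCommGroup V]
    [Module (ZMod p) V] (v : V) (hv : v ≠ 0) : ∃ l : V →+ ZMod p, l v = 1 := by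
  obtain ⟨l, hl⟩ : ∃ l : Module.Dual (ZMod p) V, l v ≠ 0 := by
    by_contra h
    push Not at h
    exact hv ((Module.forall_dual_apply_eq_zero_iff (ZMod p) v).1 h)
  exact ⟨((l v)⁻¹ • l).toAddMonoidHom, by simp [hl]⟩

theorem exists_linearMap_apply_eq [Fact p.Prime] {V : Type} [AddCommGroup V]
    (hV : ∀ v : V, p • v = 0) (v : V) (hv : v ≠ 0) (w : W) (hw : p • w = 0) :
    ∃ φ : V →ₗ[ℤ] W, φ v = w := by
  obtain ⟨l, hl⟩ :=
    @exists_addMonoidHom_apply_eq_one p _ V _ (AddCommGroup.zmodModule hV) v hv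
  refine ⟨(zmodHom p w hw).comp l.toIntLinearMap, ?_⟩
  simp [hl, zmodHom_one]

end ZModHelpers

section Filtration

variable {p : ℕ} [Fact p.Prime] {P : Type} [Group P]

/-- One step of the filtration: a fixed nonzero vector `v` splits off a trivial line. -/
theorem cohTriv_hom_step {V W : Type} [AddCommGroup V] [AddCommGroup W]
    (ρ : Representation ℤ P V) (σ : Representation ℤ P W)
    (hV : ∀ v : V, p • v = 0) (hW : ∀ w : W, p • w = 0) (hσ : IsCohTrivial (Rep.of σ))
    (v : V) (hv : v ≠ 0) (hfix : ∀ g, ρ g v = v)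
    (hS : ∀ g, Submodule.span ℤ {v} ≤ (Submodule.span ℤ {v}).comap (ρ g))
    (hq : IsCohTrivial
      (Rep.of (Representation.linHom (ρ.quotient (Submodule.span ℤ {v}) hS) σ))) :
    IsCohTrivial (Rep.of (Representation.linHom ρ σ)) := by
  have hpv : p • v = 0 := hV v
  have hi : ∀ s x, zmodHom p v hpv (Representation.trivial ℤ P (ZMod p) s x) =
      ρ s (zmodHom p v hpv x) := by
    intro s x
    obtain ⟨n, rfl⟩ := ZMod.intCast_surjective x
    simp only [Representation.trivial_apply, zmodHom_intCast, map_zsmul, hfix]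
  have hπ : ∀ s x, (Submodule.span ℤ {v}).mkQ (ρ s x) =
      ρ.quotient (Submodule.span ℤ {v}) hS s ((Submodule.span ℤ {v}).mkQ x) := fun s x => rfl
  have h0 : ∀ a, (Submodule.span ℤ {v}).mkQ (zmodHom p v hpv a) = 0 := by
    intro a
    obtain ⟨n, rfl⟩ := ZMod.intCast_surjective a
    rw [zmodHom_intCast, Submodule.mkQ_apply, Submodule.Quotient.mk_eq_zero]
    exact (Submodule.span ℤ {v}).smul_mem n (Submodule.mem_span_singleton_self v)
  have hex : ∀ b, (Submodule.span ℤ {v}).mkQ b = 0 → ∃ a, zmodHom p v hpv a = b := by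
    intro b hb
    rw [Submodule.mkQ_apply, Submodule.Quotient.mk_eq_zero, Submodule.mem_span_singleton] at hb
    obtain ⟨n, rfl⟩ := hb
    exact ⟨(n : ZMod p), zmodHom_intCast v hpv n⟩
  have hext : ∀ φ' : ZMod p →ₗ[ℤ] W, ∃ φ : V →ₗ[ℤ] W, φ ∘ₗ zmodHom p v hpv = φ' := by
    intro φ'
    obtain ⟨φ, hφ⟩ := exists_linearMap_apply_eq hV v hv (φ' 1) (hW _)
    refine ⟨φ, zmod_linearMap_ext _ _ ?_⟩
    simp [zmodHom_one, hφ]
  have h3 : IsCohTrivial
      (Rep.of (Representation.linHom (Representation.trivial ℤ P (ZMod p)) σ)) := by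
    refine cohTriv_of_bijective' (LinearMap.applyₗ (1 : ZMod p)) ?_ ?_ hσ
    · intro s φ
      simp [Representation.linHom_apply]
    · constructor
      · intro φ ψ h
        exact zmod_linearMap_ext _ _ h
      · intro w
        exact ⟨zmodHom p w (hW w), zmodHom_one w (hW w)⟩
  exact cohTriv_hom_mid ρ (Representation.trivial ℤ P (ZMod p))
    (ρ.quotient (Submodule.span ℤ {v}) hS) σ (zmodHom p v hpv) (Submodule.span ℤ {v}).mkQ hi hπ
    (Submodule.mkQ_surjective _) h0 hex hext hq h3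

theorem cohTriv_hom_of_finite_aux [Finite P]
    (hP : IsPGroup p P) {W : Type} [AddCommGroup W] (σ : Representation ℤ P W)
    (hW : ∀ w : W, p • w = 0) (hσ : IsCohTrivial (Rep.of σ)) (n : ℕ) :
    ∀ (V : Type) [AddCommGroup V] [Finite V] (ρ : Representation ℤ P V),
      (∀ v : V, p • v = 0) → Nat.card V ≤ n →
      IsCohTrivial (Rep.of (Representation.linHom ρ σ)) := by
  induction n with
  | zero =>
    intro V _ _ ρ hV hcard
    have : 0 < Nat.card V := Nat.card_pos
    omega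
  | succ n ih =>
    intro V _ _ ρ hV hcard
    by_cases hsub : Subsingleton V
    · have : Subsingleton (V →ₗ[ℤ] W) :=
        ⟨fun a b => LinearMap.ext fun x => by rw [Subsingleton.elim x 0]; simp⟩
      exact cohTriv_of_subsingleton
    · rw [not_subsingleton_iff_nontrivial] at hsub
      obtain ⟨v₀, hv₀⟩ := exists_ne (0 : V)
      have hdvd : p ∣ Nat.card V := by
        have h1 : addOrderOf v₀ = p := addOrderOf_eq_prime (hV v₀) hv₀
        rw [← h1]
        exact addOrderOf_dvd_natCard v₀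
      let _ : MulAction P V :=
        { smul := fun g v => ρ g v
          one_smul := fun v => by show ρ 1 v = v; simp
          mul_smul := fun g h v => by show ρ (g * h) v = ρ g (ρ h v); simp }
      have h0 : (0 : V) ∈ MulAction.fixedPoints P V := fun g => by show ρ g 0 = 0; simp
      obtain ⟨v, hvfix, hv⟩ := hP.exists_fixed_point_of_prime_dvd_card_of_fixed_point V hdvd h0
      have hfix : ∀ g, ρ g v = v := fun g => hvfix g
      have hS : ∀ g, Submodule.span ℤ {v} ≤ (Submodule.span ℤ {v}).comap (ρ g) := by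
        intro g
        rw [Submodule.span_le]
        rintro x rfl
        show ρ g x ∈ Submodule.span ℤ {x}
        rw [hfix]
        exact Submodule.mem_span_singleton_self x
      refine cohTriv_hom_step ρ σ hV hW hσ v hv.symm hfix hS ?_
      have hfin : Finite (V ⧸ Submodule.span ℤ {v}) :=
        Finite.of_surjective _ (Submodule.Quotient.mk_surjective _)
      refine ih (V ⧸ Submodule.span ℤ {v}) _ ?_ ?_
      · intro x
        obtain ⟨y, rfl⟩ := Submodule.Quotient.mk_surjective _ x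
        rw [← Submodule.Quotient.mk_smul, hV]
        rfl
      · have hc := Submodule.card_eq_card_quotient_mul_card (Submodule.span ℤ {v})
        have h2 : 2 ≤ Nat.card (Submodule.span ℤ {v}) := by
          have : Nontrivial (Submodule.span ℤ {v}) :=
            ⟨⟨⟨v, Submodule.mem_span_singleton_self v⟩, 0,
              fun h => hv.symm (congrArg Subtype.val h)⟩⟩
          exact Finite.one_lt_card
        have hpos : 0 < Nat.card (V ⧸ Submodule.span ℤ {v}) := Nat.card_pos
        nlinarith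

end Filtration

section ModP

variable {G : Type} [Group G]

/-- The submodule `pZ` of `Z`. -/
abbrev pRange (p : ℕ) (Z : Type) [AddCommGroup Z] : Submodule ℤ Z :=
  LinearMap.range (p • (LinearMap.id : Z →ₗ[ℤ] Z))

theorem pRange_le_comap (p : ℕ) {Z : Type} [AddCommGroup Z] (σ : Representation ℤ G Z) (g : G) :
    pRange p Z ≤ (pRange p Z).comap (σ g) := by
  rintro _ ⟨z, rfl⟩
  exact ⟨σ g z, by simp⟩

/-- The representation on `Z/pZ`. -/
abbrev modP (p : ℕ) {Z : Type} [AddCommGroup Z] (σ : Representation ℤ G Z) :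
    Representation ℤ G (Z ⧸ pRange p Z) :=
  σ.quotient (pRange p Z) (pRange_le_comap p σ)

theorem modP_killed (p : ℕ) {Z : Type} [AddCommGroup Z] (x : Z ⧸ pRange p Z) : p • x = 0 := by
  obtain ⟨z, rfl⟩ := Submodule.Quotient.mk_surjective _ x
  rw [← Submodule.Quotient.mk_smul, Submodule.Quotient.mk_eq_zero]
  exact ⟨z, by simp⟩

theorem finite_modP (p : ℕ) (hp : p ≠ 0) {Λ : Type} [AddCommGroup Λ] [Module.Finite ℤ Λ] :
    Finite (Λ ⧸ pRange p Λ) := by
  refine Module.finite_of_fg_torsion _ ?_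
  intro x
  refine ⟨⟨(p : ℤ), mem_nonZeroDivisors_of_ne_zero (by exact_mod_cast hp)⟩, ?_⟩
  show (p : ℤ) • x = 0
  rw [natCast_zsmul]
  exact modP_killed p x

theorem cohTriv_modP (p : ℕ) {Z : Type} [AddCommGroup Z] (σ : Representation ℤ G Z)
    (hZ : ∀ z : Z, p • z = 0 → z = 0) (hσ : IsCohTrivial (Rep.of σ)) :
    IsCohTrivial (Rep.of (modP p σ)) := by
  refine cohTriv_right (ρ₁ := σ) (ρ₂ := σ) (p • (LinearMap.id : Z →ₗ[ℤ] Z)) (pRange p Z).mkQ
    ?_ ?_ ?_ ?_ ?_ ?_ hσ hσ
  · intro s v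
    simp
  · intro s v
    rfl
  · intro a b h
    have h' : p • a = p • b := by simpa using h
    exact sub_eq_zero.1 (hZ (a - b) (by rw [smul_sub, h', sub_self]))
  · exact Submodule.mkQ_surjective _
  · intro a
    rw [Submodule.mkQ_apply, Submodule.Quotient.mk_eq_zero]
    exact ⟨a, rfl⟩
  · intro b hb
    rw [Submodule.mkQ_apply, Submodule.Quotient.mk_eq_zero] at hb
    exact hb

theorem cohTriv_hom_modP_left (p : ℕ) {Λ W : Type} [AddCommGroup Λ] [AddCommGroup W]
    (ρ : Representation ℤ G Λ) (σ : Representation ℤ G W) (hW : ∀ w : W, p • w = 0)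
    (h : IsCohTrivial (Rep.of (Representation.linHom (modP p ρ) σ))) :
    IsCohTrivial (Rep.of (Representation.linHom ρ σ)) := by
  refine cohTriv_of_bijective (LinearMap.lcomp ℤ W (pRange p Λ).mkQ)
    (lcomp_equivariant (modP p ρ) ρ σ (pRange p Λ).mkQ (fun s v => rfl)) ?_ h
  constructor
  · intro φ ψ hφψ
    exact Submodule.linearMap_qext _ hφψ
  · intro ψ
    have hker : pRange p Λ ≤ LinearMap.ker ψ := by
      rintro _ ⟨x, rfl⟩
      simp [hW]
    refine ⟨(pRange p Λ).liftQ ψ hker, ?_⟩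
    ext x
    simp

end ModP

section TorsionFree

variable {p : ℕ} [Fact p.Prime] {P : Type} [Group P]

theorem cohTriv_hom_of_torsionFree [Finite P] (hP : IsPGroup p P)
    {Λ Z : Type} [AddCommGroup Λ] [AddCommGroup Z] [Module.Free ℤ Λ] [Module.Finite ℤ Λ]
    (ρ : Representation ℤ P Λ) (σ : Representation ℤ P Z) (hZ : ∀ z : Z, p • z = 0 → z = 0)
    (hσ : IsCohTrivial (Rep.of σ)) : IsCohTrivial (Rep.of (Representation.linHom ρ σ)) := by
  have hp : p.Prime := Fact.out
  have hZp : IsCohTrivial (Rep.of (modP p σ)) := cohTriv_modP p σ hZ hσ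
  have hfin : Finite (Λ ⧸ pRange p Λ) := finite_modP p hp.ne_zero
  have h1 : IsCohTrivial (Rep.of (Representation.linHom (modP p ρ) (modP p σ))) :=
    cohTriv_hom_of_finite_aux hP (modP p σ) (modP_killed p) hZp _ _ (modP p ρ) (modP_killed p)
      le_rfl
  have h2 : IsCohTrivial (Rep.of (Representation.linHom ρ (modP p σ))) :=
    cohTriv_hom_modP_left p ρ (modP p σ) (modP_killed p) h1
  have hinj0 : Function.Injective (p • (LinearMap.id : Z →ₗ[ℤ] Z)) := by
    intro a b h
    have h' : p • a = p • b := by simpa using h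
    exact sub_eq_zero.1 (hZ (a - b) (by rw [smul_sub, h', sub_self]))
  obtain ⟨e1, e2, e3, e4⟩ := compRight_exact (Λ := Λ) (p • (LinearMap.id : Z →ₗ[ℤ] Z))
    (pRange p Z).mkQ hinj0 (Submodule.mkQ_surjective _)
    (fun a => by
      rw [Submodule.mkQ_apply, Submodule.Quotient.mk_eq_zero]
      exact ⟨a, rfl⟩)
    (fun b hb => by
      rw [Submodule.mkQ_apply, Submodule.Quotient.mk_eq_zero] at hb
      exact hb)
  obtain ⟨φ, ψ, w, hS, hφ⟩ := shortExact_mk' (k := ℤ) (ρ₁ := Representation.linHom ρ σ)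
    (ρ₂ := Representation.linHom ρ σ) (ρ₃ := Representation.linHom ρ (modP p σ))
    (LinearMap.compRight ℤ (p • (LinearMap.id : Z →ₗ[ℤ] Z)))
    (LinearMap.compRight ℤ (pRange p Z).mkQ)
    (compRight_equivariant ρ σ σ _ (fun s v => by simp))
    (compRight_equivariant ρ σ (modP p σ) _ (fun s v => rfl)) e1 e2 e3 e4
  intro H _ _ f hf n
  have hinj := tate_map_injective hS h2 H f hf n
  have hφ' : φ = p • 𝟙 _ := by
    apply Rep.hom_ext
    apply Representation.IntertwiningMap.ext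
    ext a x
    have h1 : (φ.hom a) x = p • a x := by
      have := congrArg (fun t : Λ →ₗ[ℤ] Z => t x) (hφ a)
      simpa using this
    exact h1
  have hadd : (tateCohomologyFunctor (R := ℤ) (G := H) n).Additive := by
    unfold tateCohomologyFunctor
    infer_instance
  have hmap : (tateCohomologyFunctor n).map ((Rep.resFunctor f).map φ) = p • 𝟙 _ := by
    rw [hφ', Functor.map_nsmul, CategoryTheory.Functor.map_id, Functor.map_nsmul,
      CategoryTheory.Functor.map_id]
  have hinj' : ∀ x : tateCohomology (Rep.res f (Rep.of (Representation.linHom ρ σ))) n,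
      p • x = 0 → x = 0 := by
    intro x hx
    apply hinj
    show ((tateCohomologyFunctor n).map ((Rep.resFunctor f).map φ)).hom x =
      ((tateCohomologyFunctor n).map ((Rep.resFunctor f).map φ)).hom 0
    rw [hmap, map_zero]
    simpa using hx
  have hpow : ∀ (k : ℕ) (x : tateCohomology (Rep.res f (Rep.of (Representation.linHom ρ σ))) n),
      p ^ k • x = 0 → x = 0 := by
    intro k
    induction k with
    | zero => intro x hx; simpa using hx
    | succ k ih =>
      intro x hx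
      apply ih
      apply hinj'
      rw [← mul_smul, ← pow_succ']
      exact hx
  obtain ⟨k, hk⟩ := IsPGroup.iff_card.1 (hP.of_injective f hf)
  have hall : ∀ x : tateCohomology (Rep.res f (Rep.of (Representation.linHom ρ σ))) n, x = 0 := by
    intro x
    apply hpow k
    have := card_nsmul_tate_eq_zero' (Rep.res f (Rep.of (Representation.linHom ρ σ))) n x
    rwa [← Nat.card_eq_fintype_card, hk] at this
  have : Subsingleton (tateCohomology (Rep.res f (Rep.of (Representation.linHom ρ σ))) n) :=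
    ⟨fun a b => by rw [hall a, hall b]⟩
  exact ModuleCat.isZero_of_subsingleton _

end TorsionFree

/-! ### A torsion-free cohomologically trivial cover -/

section Cover

open Fermat.Agent.CFT.TateInduced

variable {P : Type} [Group P]

theorem cohTriv_funRepr (F : Type) [AddCommGroup F] : IsCohTrivial (Rep.of (funRepr ℤ P F)) :=
  fun _ _ _ f hf n => isZero_tateCohomology_res_funRep ℤ F f hf n

variable [Fintype P] {F W : Type} [AddCommGroup F] [AddCommGroup W]
  (σ : Representation ℤ P W) (π₀ : F →ₗ[ℤ] W)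

/-- The equivariant map `Fun(P, F) → W`, `Φ ↦ ∑ x, x⁻¹ • π₀ (Φ x)`. -/
noncomputable def coverMap : (P → F) →ₗ[ℤ] W :=
  ∑ x : P, (σ x⁻¹) ∘ₗ π₀ ∘ₗ LinearMap.proj x

theorem coverMap_apply (Φ : P → F) : coverMap σ π₀ Φ = ∑ x : P, σ x⁻¹ (π₀ (Φ x)) := by
  simp [coverMap, LinearMap.sum_apply]

theorem coverMap_equivariant (h : P) (Φ : P → F) :
    coverMap σ π₀ (funRepr ℤ P F h Φ) = σ h (coverMap σ π₀ Φ) := by
  rw [coverMap_apply, coverMap_apply, map_sum]
  refine Fintype.sum_equiv (Equiv.mulRight h) _ _ (fun x => ?_)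
  simp only [funRepr_apply, Equiv.coe_mulRight]
  rw [← Module.End.mul_apply, ← map_mul]
  congr 2
  group

theorem coverMap_surjective (hπ₀ : Function.Surjective π₀) :
    Function.Surjective (coverMap σ π₀) := by
  classical
  intro w
  obtain ⟨f₀, rfl⟩ := hπ₀ w
  refine ⟨Pi.single 1 f₀, ?_⟩
  rw [coverMap_apply, Finset.sum_eq_single 1]
  · simp
  · intro x _ hx
    simp [Pi.single_eq_of_ne hx]
  · simp

end Cover

/-! ### The main theorem for `p`-groups -/

section PGroup

open Fermat.Agent.CFT.TateInduced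

variable {p : ℕ} [Fact p.Prime] {P : Type} [Group P]

/-- **`Hom(Λ, B)` is cohomologically trivial** for a finite `p`-group `P`, a `ℤ`-free finitely
generated `Λ` and a cohomologically trivial `B`. -/
theorem cohTriv_hom_of_pGroup [Fintype P] (hP : IsPGroup p P)
    {Λ W : Type} [AddCommGroup Λ] [AddCommGroup W] [Module.Free ℤ Λ] [Module.Finite ℤ Λ]
    (ρ : Representation ℤ P Λ) (σ : Representation ℤ P W)
    (hσ : IsCohTrivial (Rep.of σ)) : IsCohTrivial (Rep.of (Representation.linHom ρ σ)) := by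
  have hp : p.Prime := Fact.out
  have hπ₀ : Function.Surjective (Finsupp.linearCombination ℤ (id : W → W)) :=
    fun w => ⟨Finsupp.single w 1, by simp⟩
  have hτ : IsCohTrivial (Rep.of (funRepr ℤ P (W →₀ ℤ))) := cohTriv_funRepr _
  have hq : ∀ s Φ, coverMap σ (Finsupp.linearCombination ℤ (id : W → W))
      (funRepr ℤ P (W →₀ ℤ) s Φ) =
      σ s (coverMap σ (Finsupp.linearCombination ℤ (id : W → W)) Φ) :=
    coverMap_equivariant σ _
  have hqs := coverMap_surjective σ _ hπ₀
  have hKinv : ∀ g, LinearMap.ker (coverMap σ (Finsupp.linearCombination ℤ (id : W → W))) ≤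
      (LinearMap.ker (coverMap σ (Finsupp.linearCombination ℤ (id : W → W)))).comap
        (funRepr ℤ P (W →₀ ℤ) g) := by
    intro g Φ hΦ
    simp only [Submodule.mem_comap, LinearMap.mem_ker] at hΦ ⊢
    rw [hq, hΦ, map_zero]
  have hτK : IsCohTrivial (Rep.of ((funRepr ℤ P (W →₀ ℤ)).subrepresentation _ hKinv)) :=
    cohTriv_left (ρ₁ := (funRepr ℤ P (W →₀ ℤ)).subrepresentation _ hKinv)
      (ρ₂ := funRepr ℤ P (W →₀ ℤ)) (ρ₃ := σ)
      (LinearMap.ker (coverMap σ (Finsupp.linearCombination ℤ (id : W → W)))).subtype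
      (coverMap σ (Finsupp.linearCombination ℤ (id : W → W))) (fun s v => rfl) hq
      (Submodule.injective_subtype _) hqs (fun a => a.2) (fun b hb => ⟨⟨b, hb⟩, rfl⟩) hτ hσ
  have htf : ∀ Φ : P → (W →₀ ℤ), p • Φ = 0 → Φ = 0 := by
    intro Φ h
    funext x
    ext w
    have := congrArg (fun Ψ : P → (W →₀ ℤ) => Ψ x w) h
    simp only [Pi.smul_apply, Finsupp.smul_apply, Pi.zero_apply, Finsupp.zero_apply,
      nsmul_eq_mul, mul_eq_zero] at this
    rcases this with h | h
    · exact absurd (by exact_mod_cast h) hp.ne_zero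
    · exact h
  have htfK : ∀ Φ : LinearMap.ker (coverMap σ (Finsupp.linearCombination ℤ (id : W → W))),
      p • Φ = 0 → Φ = 0 := by
    intro Φ h
    apply Subtype.ext
    apply htf
    have := congrArg Subtype.val h
    simpa using this
  have h1 := cohTriv_hom_of_torsionFree hP ρ _ htfK hτK
  have h2 := cohTriv_hom_of_torsionFree hP ρ _ htf hτ
  exact cohTriv_hom_right ρ _ _ σ
    (LinearMap.ker (coverMap σ (Finsupp.linearCombination ℤ (id : W → W)))).subtype
    (coverMap σ (Finsupp.linearCombination ℤ (id : W → W))) (fun s v => rfl) hq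
    (Submodule.injective_subtype _) hqs (fun a => a.2) (fun b hb => ⟨⟨b, hb⟩, rfl⟩) h1 h2

end PGroup

/-! ### Final forms -/

section Final

variable {p : ℕ} [Fact p.Prime]

theorem linHom_comp {G H : Type} [Group G] [Group H] (f : H →* G) {Λ W : Type}
    [AddCommGroup Λ] [AddCommGroup W] (ρ : Representation ℤ G Λ) (σ : Representation ℤ G W) :
    (Representation.linHom ρ σ).comp f = Representation.linHom (ρ.comp f) (σ.comp f) := by
  ext h φ x
  simp [Representation.linHom_apply]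

/-- `p`-subgroup form: if `B` is cohomologically trivial on the `p`-group `H` (via `f`), so is
`Hom(Λ, B)`, for `Λ` a `ℤ`-lattice. -/
theorem isZero_tate_res_linHom {G H : Type} [Group G] [Group H] [Fintype H]
    (hH : IsPGroup p H) (f : H →* G)
    {Λ W : Type} [AddCommGroup Λ] [AddCommGroup W] [Module.Free ℤ Λ] [Module.Finite ℤ Λ]
    (ρ : Representation ℤ G Λ) (σ : Representation ℤ G W)
    (hσ : IsCohTrivial (Rep.res f (Rep.of σ))) (n : ℤ) :
    Limits.IsZero (tateCohomology (Rep.res f (Rep.of (Representation.linHom ρ σ))) n) := by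
  have h := cohTriv_hom_of_pGroup hH (ρ.comp f) (σ.comp f) hσ H (MonoidHom.id H)
    Function.injective_id n
  rw [← linHom_comp] at h
  exact h

/-- **`Hom(Λ, B)` is cohomologically trivial** for a finite group `G`, a `ℤ`-free finitely
generated `Λ` and a cohomologically trivial `B`. -/
theorem cohTriv_linHom {G : Type} [Group G]
    {Λ W : Type} [AddCommGroup Λ] [AddCommGroup W] [Module.Free ℤ Λ] [Module.Finite ℤ Λ]
    (ρ : Representation ℤ G Λ) (σ : Representation ℤ G W) (hσ : IsCohTrivial (Rep.of σ)) :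
    IsCohTrivial (Rep.of (Representation.linHom ρ σ)) := by
  refine isCohTrivial_of_forall_pGroup _ ?_
  intro p _ P _ _ f hf hP
  exact ⟨0, isZero_tate_res_linHom hP f ρ σ (cohTriv_res hσ f hf) 0,
    isZero_tate_res_linHom hP f ρ σ (cohTriv_res hσ f hf) (0 + 1)⟩

end Final

/-! ### Bundled forms, for arbitrary objects of `Rep ℤ G` -/

section Bundled

variable {p : ℕ} [Fact p.Prime]

/-- The additive-map model `homRep` of the internal Hom is isomorphic to the linear-map model. -/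
theorem nonempty_homRep_iso {G : Type} [Group G] {V W : Type} [AddCommGroup V] [AddCommGroup W]
    (ρ : Representation ℤ G V) (σ : Representation ℤ G W) :
    Nonempty (homRep (Rep.of ρ) (Rep.of σ) ≅ Rep.of (Representation.linHom ρ σ)) := by
  refine nonempty_iso_mk (k := ℤ) (ρ₁ := (homRep (Rep.of ρ) (Rep.of σ)).ρ)
    (ρ₂ := Representation.linHom ρ σ) (addMonoidHomLequivInt ℤ).toLinearMap ?_ ?_
  · intro s φ
    ext x
    rfl
  · exact (addMonoidHomLequivInt ℤ).bijective

/-- `Rep.ihom` form on a `p`-subgroup. -/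
theorem isZero_tate_res_ihom {G H : Type} [Group G] [Group H] [Fintype H]
    (hH : IsPGroup p H) (f : H →* G) (Λ B : Rep.{0} ℤ G)
    (hfree : Module.Free ℤ Λ.V) (hfin : Module.Finite ℤ Λ.V)
    (hB : IsCohTrivial (Rep.res f B)) (n : ℤ) :
    Limits.IsZero (tateCohomology (Rep.res f ((Rep.ihom Λ).obj B)) n) := by
  revert hfree hfin hB
  refine rep_induction (P := fun Λ => Module.Free ℤ Λ.V → Module.Finite ℤ Λ.V →
    IsCohTrivial (Rep.res f B) →
    Limits.IsZero (tateCohomology (Rep.res f ((Rep.ihom Λ).obj B)) n)) ?_ Λ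
  intro V _ ρ
  refine rep_induction (P := fun B => Module.Free ℤ V → Module.Finite ℤ V →
    IsCohTrivial (Rep.res f B) →
    Limits.IsZero (tateCohomology (Rep.res f ((Rep.ihom (Rep.of ρ)).obj B)) n)) ?_ B
  intro W _ σ hfree hfin hσ
  exact isZero_tate_res_linHom hH f ρ σ hσ n

/-- `homRep` form on a `p`-subgroup. -/
theorem isZero_tate_res_homRep {G H : Type} [Group G] [Group H] [Fintype H]
    (hH : IsPGroup p H) (f : H →* G) (Λ B : Rep.{0} ℤ G)
    (hfree : Module.Free ℤ Λ.V) (hfin : Module.Finite ℤ Λ.V)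
    (hB : IsCohTrivial (Rep.res f B)) (n : ℤ) :
    Limits.IsZero (tateCohomology (Rep.res f (homRep Λ B)) n) := by
  revert hfree hfin hB
  refine rep_induction (P := fun Λ => Module.Free ℤ Λ.V → Module.Finite ℤ Λ.V →
    IsCohTrivial (Rep.res f B) →
    Limits.IsZero (tateCohomology (Rep.res f (homRep Λ B)) n)) ?_ Λ
  intro V _ ρ
  refine rep_induction (P := fun B => Module.Free ℤ V → Module.Finite ℤ V →
    IsCohTrivial (Rep.res f B) →
    Limits.IsZero (tateCohomology (Rep.res f (homRep (Rep.of ρ) B)) n)) ?_ B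
  intro W _ σ hfree hfin hσ
  obtain ⟨e⟩ := nonempty_homRep_iso ρ σ
  exact (isZero_tate_res_linHom hH f ρ σ hσ n).of_iso
    ((tateCohomologyFunctor n).mapIso ((Rep.resFunctor f).mapIso e))

/-- `Rep.ihom` form on a `p`-subgroup, assuming only that `B` is cohomologically trivial on
`p`-subgroups. -/
theorem isZero_tate_res_ihom_of_pTrivial {G H : Type} [Group G] [Group H]
    [Fintype H] (hH : IsPGroup p H) (f : H →* G) (hf : Function.Injective f)
    (Λ B : Rep.{0} ℤ G) (hfree : Module.Free ℤ Λ.V) (hfin : Module.Finite ℤ Λ.V)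
    (hB : ∀ (H' : Type) [Group H'] [Fintype H'] (f' : H' →* G), Function.Injective f' →
      IsPGroup p H' → ∀ m : ℤ, Limits.IsZero (tateCohomology (Rep.res f' B) m)) (n : ℤ) :
    Limits.IsZero (tateCohomology (Rep.res f ((Rep.ihom Λ).obj B)) n) :=
  isZero_tate_res_ihom hH f Λ B hfree hfin
    (fun H' _ _ f' hf' m => hB H' (f.comp f') (hf.comp hf') (hH.of_injective f' hf') m) n

/-- `homRep` form on a `p`-subgroup, assuming only that `B` is cohomologically trivial on
`p`-subgroups. -/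
theorem isZero_tate_res_homRep_of_pTrivial {G H : Type} [Group G] [Group H]
    [Fintype H] (hH : IsPGroup p H) (f : H →* G) (hf : Function.Injective f)
    (Λ B : Rep.{0} ℤ G) (hfree : Module.Free ℤ Λ.V) (hfin : Module.Finite ℤ Λ.V)
    (hB : ∀ (H' : Type) [Group H'] [Fintype H'] (f' : H' →* G), Function.Injective f' →
      IsPGroup p H' → ∀ m : ℤ, Limits.IsZero (tateCohomology (Rep.res f' B) m)) (n : ℤ) :
    Limits.IsZero (tateCohomology (Rep.res f (homRep Λ B)) n) :=
  isZero_tate_res_homRep hH f Λ B hfree hfin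
    (fun H' _ _ f' hf' m => hB H' (f.comp f') (hf.comp hf') (hH.of_injective f' hf') m) n

/-- **`(Rep.ihom Λ).obj B` is cohomologically trivial** for `G` finite, `Λ` a `ℤ`-lattice and `B`
cohomologically trivial. -/
theorem isCohTrivial_ihom {G : Type} [Group G]
    (Λ B : Rep.{0} ℤ G) (hfree : Module.Free ℤ Λ.V) (hfin : Module.Finite ℤ Λ.V)
    (hB : IsCohTrivial B) : IsCohTrivial ((Rep.ihom Λ).obj B) := by
  refine isCohTrivial_of_forall_pGroup _ ?_
  intro q _ P _ _ f hf hP
  exact ⟨0, isZero_tate_res_ihom hP f Λ B hfree hfin (cohTriv_res hB f hf) 0,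
    isZero_tate_res_ihom hP f Λ B hfree hfin (cohTriv_res hB f hf) (0 + 1)⟩

/-- **`homRep Λ B` is cohomologically trivial** for `G` finite, `Λ` a `ℤ`-lattice and `B`
cohomologically trivial. -/
theorem isCohTrivial_homRep {G : Type} [Group G]
    (Λ B : Rep.{0} ℤ G) (hfree : Module.Free ℤ Λ.V) (hfin : Module.Finite ℤ Λ.V)
    (hB : IsCohTrivial B) : IsCohTrivial (homRep Λ B) := by
  refine isCohTrivial_of_forall_pGroup _ ?_
  intro q _ P _ _ f hf hP
  exact ⟨0, isZero_tate_res_homRep hP f Λ B hfree hfin (cohTriv_res hB f hf) 0,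
    isZero_tate_res_homRep hP f Λ B hfree hfin (cohTriv_res hB f hf) (0 + 1)⟩

end Bundled

end Fermat.Agent.CFT.Triv.HomTriv
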