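import Fermat.Agent.CFT.Triv.ClassAt

/-!
# CFT program, layer Triv (L3: cohomological triviality, Tate's theorem, Tate–Nakayama):
definitions

Base formalism (as in `Coh/Defs.lean`): Mathlib's `Rep ℤ G`, `groupCohomology`, `tateCohomology`,
everything in universe `0`.

WARNING (the `ℤ`-module diamond).  For `A : Rep ℤ G`, instance search for `Module ℤ A.V` finds
`AddCommGroup.toIntModule A.V`, NOT the field `A.hV2`; the two are equal (`Subsingleton.elim`) but
not definitionally.  So the type `A.V →ₗ[ℤ] B.V` written by hand is NOT the carrier of Mathlib's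
`Rep.ihom`, and `Rep.ofHom` does not elaborate against an abstract `A : Rep ℤ G`.
Convention of the layers Triv and Formation: "`ℤ`-linear map" is always stated as an ADDITIVE map
`A.V →+ B.V`; morphisms of representations are built with `mkHom`; hypotheses `Module.Free ℤ A.V`,
`Module.Finite ℤ A.V` are with respect to the instance found by instance search
(`AddCommGroup.toIntModule`).

* `IsCohTrivial A` : all Tate cohomology groups of `A` vanish on every subgroup (phrased with
  injective homomorphisms `H →* G`, so that it is stable under iterated restriction).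
* (`IsClassAt C σ f`, `IsPClassModule p C σ` : the class-module axioms, are in `Triv/ClassAt.lean`,
  imported here.)
* `mkHom f hf : A ⟶ B` : the morphism of representations given by an equivariant additive map.
* `homRep A B` : the internal Hom, with carrier the additive maps `A.V →+ B.V` and
  `g • φ = B.ρ g ∘ φ ∘ A.ρ g⁻¹`.
* `homMap A f : homRep A B ⟶ homRep A B'`, post-composition with `f : B ⟶ B'`.
* `coevalHom C φ hφ : C ⟶ homRep L C`, `c ↦ (l ↦ φ l • c)`, for a `G`-invariant `φ : L →+ ℤ`.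
* `evalHom C l hl : homRep L C ⟶ C`, evaluation at a `G`-invariant `l : L`.
* `normHom φ : A ⟶ B`, the norm `∑ g, B.ρ g ∘ φ ∘ A.ρ g⁻¹` of an additive map `φ`.
-/

set_option autoImplicit false

namespace Fermat.Agent.CFT.Triv

open CategoryTheory groupCohomology

/-- `A` is cohomologically trivial: for every finite group `H` and injective `f : H →* G`
(i.e. every subgroup, with any `Fintype` instance), all Tate cohomology groups of the restriction
of `A` vanish. -/
def IsCohTrivial {k G : Type} [CommRing k] [Group G] (A : Rep.{0} k G) : Prop :=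
  ∀ (H : Type) [Group H] [Fintype H] (f : H →* G), Function.Injective f →
    ∀ n : ℤ, Limits.IsZero (tateCohomology (Rep.res f A) n)

section Hom

variable {G : Type} [Group G]

/-- An additive map between the underlying groups of two representations over `ℤ`, as a linear
map for the module structures carried by the representations. -/
def linOfAdd {A B : Rep.{0} ℤ G} (f : A.V →+ B.V) :
    @LinearMap ℤ ℤ _ _ (RingHom.id ℤ) A.V B.V _ _ A.hV2 B.hV2 :=
  @LinearMap.mk ℤ ℤ _ _ (RingHom.id ℤ) A.V B.V _ _ A.hV2 B.hV2 ⟨f, map_add f⟩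
    (fun n x => by
      have h := @map_intCast_smul A.V B.V _ _ _ _ _ f ℤ ℤ _ _ A.hV2 B.hV2 n x
      simpa only [Int.cast_id, RingHom.id_apply] using h)

@[simp] lemma linOfAdd_apply {A B : Rep.{0} ℤ G} (f : A.V →+ B.V) (x : A.V) :
    linOfAdd f x = f x := rfl

/-- The morphism of representations over `ℤ` given by an equivariant additive map. -/
noncomputable def mkHom {A B : Rep.{0} ℤ G} (f : A.V →+ B.V)
    (hf : ∀ (g : G) (x : A.V), f (A.ρ g x) = B.ρ g (f x)) : A ⟶ B :=
  @Rep.ofHom ℤ G _ _ A.V B.V _ _ A.hV2 B.hV2 A.ρ B.ρ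
    (@Representation.IntertwiningMap.mk ℤ G A.V B.V _ _ _ _ A.hV2 B.hV2 A.ρ B.ρ (linOfAdd f)
      (fun g => @LinearMap.ext ℤ ℤ A.V B.V _ _ _ _ A.hV2 B.hV2 _ _ _ (fun x => hf g x)))

@[simp] lemma mkHom_hom_apply {A B : Rep.{0} ℤ G} (f : A.V →+ B.V)
    (hf : ∀ (g : G) (x : A.V), f (A.ρ g x) = B.ρ g (f x)) (x : A.V) :
    (mkHom f hf).hom x = f x := rfl

/-- The additive map underlying a morphism of representations. -/
def homAdd {A B : Rep.{0} ℤ G} (f : A ⟶ B) : A.V →+ B.V where
  toFun x := f.hom x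
  map_zero' := map_zero f.hom
  map_add' := map_add f.hom

@[simp] lemma homAdd_apply {A B : Rep.{0} ℤ G} (f : A ⟶ B) (x : A.V) : homAdd f x = f.hom x := rfl

/-- The internal Hom: additive maps `A.V →+ B.V` with `g • φ = B.ρ g ∘ φ ∘ A.ρ g⁻¹`. -/
noncomputable abbrev homRep (A B : Rep.{0} ℤ G) : Rep.{0} ℤ G :=
  @Rep.of ℤ G _ _ (A.V →+ B.V) _ (AddCommGroup.toIntModule _)
    { toFun := fun g => AddMonoidHom.toIntLinearMap
        { toFun := fun φ => (B.ρ g).toAddMonoidHom.comp (φ.comp (A.ρ g⁻¹).toAddMonoidHom)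
          map_zero' := by ext; simp
          map_add' := fun φ ψ => by ext; simp }
      map_one' := by ext; simp
      map_mul' := fun g h => by ext; simp [mul_inv_rev, map_mul] }

@[simp] lemma homRep_ρ_apply (A B : Rep.{0} ℤ G) (g : G) (φ : A.V →+ B.V) (x : A.V) :
    ((homRep A B).ρ g φ : A.V →+ B.V) x = B.ρ g (φ (A.ρ g⁻¹ x)) := rfl

/-- Post-composition `Hom(A, B) ⟶ Hom(A, B')` with a morphism `f : B ⟶ B'`. -/
noncomputable def homMap (A : Rep.{0} ℤ G) {B B' : Rep.{0} ℤ G} (f : B ⟶ B') :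
    homRep A B ⟶ homRep A B' :=
  mkHom (A := homRep A B) (B := homRep A B')
    { toFun := fun φ => (homAdd f).comp φ
      map_zero' := by ext; simp
      map_add' := fun φ ψ => by ext; simp }
    (fun g φ => by
      ext x
      exact (Rep.hom_comm_apply f g (φ (A.ρ g⁻¹ x))))

@[simp] lemma homMap_hom_apply (A : Rep.{0} ℤ G) {B B' : Rep.{0} ℤ G} (f : B ⟶ B')
    (φ : A.V →+ B.V) (x : A.V) : ((homMap A f).hom φ : A.V →+ B'.V) x = f.hom (φ x) := rfl

/-- For a `G`-invariant additive `φ : L →+ ℤ`, the morphism `C ⟶ Hom(L, C)`,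
`c ↦ (l ↦ φ l • c)`. -/
noncomputable def coevalHom {L : Rep.{0} ℤ G} (C : Rep.{0} ℤ G) (φ : L.V →+ ℤ)
    (hφ : ∀ (g : G) (l : L.V), φ (L.ρ g l) = φ l) : C ⟶ homRep L C :=
  mkHom (A := C) (B := homRep L C)
    { toFun := fun c => ((smulAddHom ℤ C.V).flip c).comp φ
      map_zero' := by ext; simp
      map_add' := fun c c' => by ext; simp }
    (fun g c => by
      ext l
      simp [hφ])

@[simp] lemma coevalHom_hom_apply {L : Rep.{0} ℤ G} (C : Rep.{0} ℤ G) (φ : L.V →+ ℤ)
    (hφ : ∀ (g : G) (l : L.V), φ (L.ρ g l) = φ l) (c : C.V) (l : L.V) :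
    ((coevalHom C φ hφ).hom c : L.V →+ C.V) l = φ l • c := rfl

/-- Evaluation at a `G`-invariant `l : L`, as a morphism `Hom(L, C) ⟶ C`. -/
noncomputable def evalHom {L : Rep.{0} ℤ G} (C : Rep.{0} ℤ G) (l : L.V)
    (hl : ∀ g : G, L.ρ g l = l) : homRep L C ⟶ C :=
  mkHom (A := homRep L C) (B := C) (AddMonoidHom.eval l)
    (fun g φ => by
      change ((homRep L C).ρ g φ : L.V →+ C.V) l = C.ρ g ((φ : L.V →+ C.V) l)
      simp [hl])

@[simp] lemma evalHom_hom_apply {L : Rep.{0} ℤ G} (C : Rep.{0} ℤ G) (l : L.V)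
    (hl : ∀ g : G, L.ρ g l = l) (φ : L.V →+ C.V) :
    (evalHom C l hl).hom φ = φ l := rfl

/-- The norm `∑ g, B.ρ g ∘ φ ∘ A.ρ g⁻¹` of an additive map, as a morphism of representations. -/
noncomputable def normHom [Fintype G] {A B : Rep.{0} ℤ G} (φ : A.V →+ B.V) : A ⟶ B :=
  mkHom (∑ g : G, (B.ρ g).toAddMonoidHom.comp (φ.comp (A.ρ g⁻¹).toAddMonoidHom))
    (fun h x => by
      simp only [AddMonoidHom.finsetSum_apply, AddMonoidHom.comp_apply,
        LinearMap.toAddMonoidHom_coe, map_sum]
      refine (Fintype.sum_equiv (Equiv.mulLeft h) _ _ fun g => ?_).symm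
      simp [mul_inv_rev, map_mul])

lemma normHom_hom_apply [Fintype G] {A B : Rep.{0} ℤ G} (φ : A.V →+ B.V) (x : A.V) :
    (normHom φ).hom x = ∑ g : G, B.ρ g (φ (A.ρ g⁻¹ x)) := by
  simp [normHom]

end Hom

end Fermat.Agent.CFT.Triv
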