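/-
# CFT program, layer Triv (L3): cohomological triviality for `p`-groups

Serre, *Local Fields*, IX §5, Thm 5, 6 and 8 for `p`-groups, on top of Mathlib's
`tateCohomology` and the dimension-shifting statement of `Coh/TateInduced.lean`.

Main results (`G` a finite `p`-group, `A : Rep ℤ G`):

* `isCohTrivial_of_pGroup_of_torsion` : `pA = 0` and `Ĥ^q(G, A) = 0` for ONE `q` ⇒ `A` is
  cohomologically trivial;
* `isCohTrivial_of_pGroup_of_torsionFree` : `A` without `p`-torsion and
  `Ĥ^q(G, A) = Ĥ^(q+1)(G, A) = 0` ⇒ cohomologically trivial;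
* `isCohTrivial_of_pGroup` : the same twin criterion for an ARBITRARY `A`.

All three are stated with the hypothesis `hS : ShiftStmt`; the primed versions are
unconditional (`shiftStmt : ShiftStmt` is proved from `TateInduced.shiftStmt_holds`).

By-products: two-out-of-three for `IsCohTrivial`, degree shifting (`IsShift`, `exists_shift`),
projective ⇒ cohomologically trivial, `card G` kills Tate cohomology, Nakayama's lemma for
`p`-groups.
-/
import Fermat.Agent.CFT.Triv.Defs
import Fermat.Agent.CFT.Coh.TateInduced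

set_option autoImplicit false
set_option linter.style.haveILetI false

open CategoryTheory Limits

namespace Fermat.Agent.CFT.Triv

/- For `A : Rep ℤ G` instance synthesis of `Module ℤ A` must find the structure field, not
`AddCommGroup.toIntModule` (they are only propositionally equal). -/
attribute [local instance 10000] Rep.hV2

/-- Dimension shifting: every `G`-module is a submodule and a quotient of a cohomologically
trivial one, with no new torsion exponents. -/
def ShiftStmt : Prop :=
  ∀ (G : Type) [Group G] [Fintype G] (A : Rep ℤ G),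
    ∃ (I : Rep ℤ G) (i : A ⟶ I) (π : I ⟶ A), Mono i ∧ Epi π ∧ IsCohTrivial I ∧
      ∀ m : ℕ, (∀ a : A, m • a = 0) → ∀ x : I, m • x = 0

/-- `ShiftStmt` holds (coinduced modules, `Coh/TateInduced.lean`). -/
theorem shiftStmt : ShiftStmt := TateInduced.shiftStmt_holds

section basic

variable {k G : Type} [CommRing k] [Group G]

lemma IsCohTrivial.res {A : Rep k G} (hA : IsCohTrivial A) {H : Type} [Group H] (f : H →* G)
    (hf : Function.Injective f) : IsCohTrivial (Rep.res f A) := by
  intro K _ _ g hg n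
  exact hA K (f.comp g) (hf.comp hg) n

lemma IsCohTrivial.of_iso {A B : Rep k G} (hA : IsCohTrivial A) (e : A ≅ B) :
    IsCohTrivial B := by
  intro H _ _ f hf n
  exact (hA H f hf n).of_iso
    ((tateCohomologyFunctor n).mapIso ((Rep.resFunctor f).mapIso e.symm))

lemma IsCohTrivial.of_retract {A B : Rep k G} (hA : IsCohTrivial A) (i : B ⟶ A) (r : A ⟶ B)
    (h : i ≫ r = 𝟙 B) : IsCohTrivial B := by
  intro H _ _ f hf n
  have hz := hA H f hf n
  rw [IsZero.iff_id_eq_zero]
  have h1 : (tateCohomologyFunctor n).map ((Rep.resFunctor f).map i) ≫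
      (tateCohomologyFunctor n).map ((Rep.resFunctor f).map r) = 𝟙 _ := by
    rw [← CategoryTheory.Functor.map_comp, ← CategoryTheory.Functor.map_comp, h,
      CategoryTheory.Functor.map_id, CategoryTheory.Functor.map_id]
  rw [← h1, hz.eq_of_tgt ((tateCohomologyFunctor n).map ((Rep.resFunctor f).map i)) 0,
    zero_comp]

end basic

section les

variable {k G : Type} [CommRing k] [Group G] [Fintype G]

/-- If the middle term of a short exact sequence has vanishing Tate cohomology in degrees
`n` and `n + 1`, the connecting map is an isomorphism. -/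
lemma nonempty_tate_iso_of_shortExact {S : ShortComplex (Rep k G)} (hS : S.ShortExact)
    (n n' : ℤ) (hn : n' = n + 1) (h0 : IsZero (tateCohomology S.X₂ n))
    (h1 : IsZero (tateCohomology S.X₂ n')) :
    Nonempty (tateCohomology S.X₃ n ≅ tateCohomology S.X₁ n') := by
  subst hn
  have hmono : Mono (TateCohomology.δ hS n) :=
    (TateCohomology.exact₃ hS n).mono_g (h0.eq_of_src _ _)
  have hepi : Epi (TateCohomology.δ hS n) :=
    (TateCohomology.exact₁ hS n).epi_f (h1.eq_of_tgt _ _)
  have : IsIso (TateCohomology.δ hS n) := isIso_of_mono_of_epi _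
  exact ⟨asIso (TateCohomology.δ hS n)⟩

lemma isZero_tate_X₂_of_shortExact {S : ShortComplex (Rep k G)} (hS : S.ShortExact)
    (n : ℤ) (h1 : IsZero (tateCohomology S.X₁ n)) (h3 : IsZero (tateCohomology S.X₃ n)) :
    IsZero (tateCohomology S.X₂ n) :=
  ((TateCohomology.map_tateComplexFunctor_shortExact hS).homology_exact₂ n).isZero_X₂
    (h1.eq_of_src _ _) (h3.eq_of_tgt _ _)

lemma isZero_tate_X₃_of_shortExact {S : ShortComplex (Rep k G)} (hS : S.ShortExact)
    (n : ℤ) (h2 : IsZero (tateCohomology S.X₂ n)) (h1 : IsZero (tateCohomology S.X₁ (n + 1))) :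
    IsZero (tateCohomology S.X₃ n) :=
  (TateCohomology.exact₃ hS n).isZero_X₂ (h2.eq_of_src _ _) (h1.eq_of_tgt _ _)

lemma isZero_tate_X₁_of_shortExact {S : ShortComplex (Rep k G)} (hS : S.ShortExact)
    (n : ℤ) (h3 : IsZero (tateCohomology S.X₃ n)) (h2 : IsZero (tateCohomology S.X₂ (n + 1))) :
    IsZero (tateCohomology S.X₁ (n + 1)) :=
  (TateCohomology.exact₁ hS n).isZero_X₂ (h3.eq_of_src _ _) (h2.eq_of_tgt _ _)

end les

section twoOfThree

variable {k G : Type} [CommRing k] [Group G]

lemma IsCohTrivial.X₂_of_shortExact {S : ShortComplex (Rep k G)} (hS : S.ShortExact)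
    (h1 : IsCohTrivial S.X₁) (h3 : IsCohTrivial S.X₃) : IsCohTrivial S.X₂ := by
  intro H _ _ f hf n
  have hS' : (S.map (Rep.resFunctor f)).ShortExact := (Rep.shortExact_res f).2 hS
  exact isZero_tate_X₂_of_shortExact hS' n (h1 H f hf n) (h3 H f hf n)

lemma IsCohTrivial.X₃_of_shortExact {S : ShortComplex (Rep k G)} (hS : S.ShortExact)
    (h1 : IsCohTrivial S.X₁) (h2 : IsCohTrivial S.X₂) : IsCohTrivial S.X₃ := by
  intro H _ _ f hf n
  have hS' : (S.map (Rep.resFunctor f)).ShortExact := (Rep.shortExact_res f).2 hS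
  exact isZero_tate_X₃_of_shortExact hS' n (h2 H f hf n) (h1 H f hf (n + 1))

lemma IsCohTrivial.X₁_of_shortExact {S : ShortComplex (Rep k G)} (hS : S.ShortExact)
    (h2 : IsCohTrivial S.X₂) (h3 : IsCohTrivial S.X₃) : IsCohTrivial S.X₁ := by
  intro H _ _ f hf n
  have hS' : (S.map (Rep.resFunctor f)).ShortExact := (Rep.shortExact_res f).2 hS
  have := isZero_tate_X₁_of_shortExact hS' (n - 1) (h3 H f hf (n - 1))
    (by rw [sub_add_cancel]; exact h2 H f hf n)
  rwa [sub_add_cancel] at this

end twoOfThree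

section shift

variable {G : Type} [Group G]

lemma PGroup.hom_nsmul {A B : Rep ℤ G} (f : A ⟶ B) (m : ℕ) (x : A) : f.hom (m • x) = m • f.hom x :=
  map_nsmul f.hom.toLinearMap m x

lemma PGroup.hom_zero {A B : Rep ℤ G} (f : A ⟶ B) : f.hom (0 : A) = 0 :=
  map_zero f.hom.toLinearMap

/-- The degree-shift relation between two `G`-modules: `Ĥⁿ(H, B) ≅ Ĥⁿ⁺ʳ(H, A)` for all
subgroups `H` and all `n`. -/
def IsShift (B A : Rep ℤ G) (r : ℤ) : Prop :=
  ∀ (H : Type) [Group H] [Fintype H] (f : H →* G), Function.Injective f → ∀ n n' : ℤ,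
    n' = n + r → Nonempty (tateCohomology (Rep.res f B) n ≅ tateCohomology (Rep.res f A) n')

lemma IsShift.refl (A : Rep ℤ G) : IsShift A A 0 := by
  intro H _ _ f _ n n' hn
  obtain rfl : n' = n := by simpa using hn
  exact ⟨Iso.refl _⟩

lemma IsShift.trans {C B A : Rep ℤ G} {r s : ℤ} (h1 : IsShift C B r) (h2 : IsShift B A s) :
    IsShift C A (r + s) := by
  intro H _ _ f hf n n' hn
  obtain ⟨e1⟩ := h1 H f hf n (n + r) rfl
  obtain ⟨e2⟩ := h2 H f hf (n + r) n' (by rw [hn]; ring)
  exact ⟨e1 ≪≫ e2⟩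

lemma IsShift.isCohTrivial {B A : Rep ℤ G} {r : ℤ} (h : IsShift B A r) (hB : IsCohTrivial B) :
    IsCohTrivial A := by
  intro H _ _ f hf n
  obtain ⟨e⟩ := h H f hf (n - r) n (by ring)
  exact (hB H f hf (n - r)).of_iso e.symm

lemma IsShift.of_shortExact {S : ShortComplex (Rep ℤ G)} (hS : S.ShortExact)
    (h2 : IsCohTrivial S.X₂) : IsShift S.X₃ S.X₁ 1 := by
  intro H _ _ f hf n n' hn
  have hS' : (S.map (Rep.resFunctor f)).ShortExact := (Rep.shortExact_res f).2 hS
  exact nonempty_tate_iso_of_shortExact hS' n n' hn (h2 H f hf n) (h2 H f hf n')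

lemma IsShift.of_shortExact' {S : ShortComplex (Rep ℤ G)} (hS : S.ShortExact)
    (h2 : IsCohTrivial S.X₂) : IsShift S.X₁ S.X₃ (-1) := by
  intro H _ _ f hf n n' hn
  obtain ⟨e⟩ := IsShift.of_shortExact hS h2 H f hf n' n (by rw [hn]; ring)
  exact ⟨e.symm⟩

variable [Fintype G]

lemma exists_shift_up (hS : ShiftStmt) (A : Rep ℤ G) (m : ℕ) (hm : ∀ a : A, m • a = 0) :
    ∃ B : Rep ℤ G, (∀ b : B, m • b = 0) ∧ IsShift B A 1 := by
  obtain ⟨I, i, π, hi, hπ, hI, htors⟩ := hS G A
  refine ⟨cokernel i, ?_, ?_⟩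
  · intro b
    obtain ⟨x, rfl⟩ := (Rep.epi_iff_surjective (cokernel.π i)).1 inferInstance b
    have h1 : (cokernel.π i).hom (m • x) = m • (cokernel.π i).hom x := PGroup.hom_nsmul _ m x
    have h2 : m • x = 0 := htors m hm x
    rw [← h1, h2]
    exact PGroup.hom_zero _
  · have hSE : (ShortComplex.mk i (cokernel.π i) (cokernel.condition i)).ShortExact :=
      { exact := ShortComplex.exact_cokernel i }
    have h3 := IsShift.of_shortExact hSE hI
    exact h3

lemma exists_shift_down (hS : ShiftStmt) (A : Rep ℤ G) (m : ℕ) (hm : ∀ a : A, m • a = 0) :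
    ∃ B : Rep ℤ G, (∀ b : B, m • b = 0) ∧ IsShift B A (-1) := by
  obtain ⟨I, i, π, hi, hπ, hI, htors⟩ := hS G A
  refine ⟨kernel π, ?_, ?_⟩
  · intro b
    apply (Rep.mono_iff_injective (kernel.ι π)).1 inferInstance
    have h1 : (kernel.ι π).hom (m • b) = m • (kernel.ι π).hom b := PGroup.hom_nsmul _ m b
    have h2 : m • (kernel.ι π).hom b = 0 := htors m hm _
    rw [h1, h2]
    exact (PGroup.hom_zero _).symm
  · have hSE : (ShortComplex.mk (kernel.ι π) π (kernel.condition π)).ShortExact :=
      { exact := ShortComplex.exact_kernel π }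
    have h3 := IsShift.of_shortExact' hSE hI
    exact h3

lemma exists_shift (hS : ShiftStmt) (A : Rep ℤ G) (m : ℕ) (hm : ∀ a : A, m • a = 0) (r : ℤ) :
    ∃ B : Rep ℤ G, (∀ b : B, m • b = 0) ∧ IsShift B A r := by
  induction r using Int.induction_on with
  | zero => exact ⟨A, hm, IsShift.refl A⟩
  | succ k ih =>
    obtain ⟨B, hB, hBA⟩ := ih
    obtain ⟨C, hC, hCB⟩ := exists_shift_up hS B m hB
    exact ⟨C, hC, by simpa [add_comm] using hCB.trans hBA⟩
  | pred k ih =>
    obtain ⟨B, hB, hBA⟩ := ih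
    obtain ⟨C, hC, hCB⟩ := exists_shift_down hS B m hB
    refine ⟨C, hC, ?_⟩
    have := hCB.trans hBA
    rwa [show (-1 : ℤ) + (-(k : ℤ)) = -(k : ℤ) - 1 by ring] at this

/-- Projective objects are cohomologically trivial (they are retracts of the shifting module). -/
lemma isCohTrivial_of_projective (hS : ShiftStmt) (P : Rep ℤ G) [Projective P] :
    IsCohTrivial P := by
  obtain ⟨I, i, π, hi, hπ, hI, -⟩ := hS G P
  exact hI.of_retract (Projective.factorThru (𝟙 P) π) π (Projective.factorThru_comp _ _)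

end shift

section card

variable {G : Type} [Group G] [Fintype G]

/-- `H¹(G, B)` is killed by the order of `G` (explicit cocycle computation). -/
lemma card_nsmul_H1_eq_zero (B : Rep ℤ G) (x : groupCohomology.H1 B) :
    Fintype.card G • x = 0 := by
  induction x using groupCohomology.H1_induction_on with
  | h c =>
    rw [← map_nsmul, groupCohomology.H1π_eq_zero_iff]
    refine ⟨-(∑ h : G, c.1 h), ?_⟩
    funext g
    have hc := (groupCohomology.mem_cocycles₁_iff c.1).1 c.2 g
    have h1 : ∑ h : G, c.1 (g * h) = ∑ h : G, c.1 h :=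
      Fintype.sum_equiv (Equiv.mulLeft g) _ _ (fun _ => rfl)
    have h2 : ∑ h : G, c.1 (g * h) = B.ρ g (∑ h : G, c.1 h) + Fintype.card G • c.1 g := by
      simp only [hc, Finset.sum_add_distrib, map_sum, Finset.sum_const, Finset.card_univ]
    rw [groupCohomology.d₀₁_hom_apply]
    have h3 : (Fintype.card G • c : groupCohomology.cocycles₁ B).1 g = Fintype.card G • c.1 g :=
      rfl
    change _ = (Fintype.card G • c : groupCohomology.cocycles₁ B).1 g
    rw [h3, map_neg]
    rw [h1] at h2
    have h4 : Fintype.card G • c.1 g = ∑ h : G, c.1 h - B.ρ g (∑ h : G, c.1 h) := by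
      rw [eq_sub_iff_add_eq']
      exact h2.symm
    rw [h4]
    abel

/-- Tate cohomology of a finite group is killed by the order of the group. -/
lemma card_nsmul_tate_eq_zero (hS : ShiftStmt) (A : Rep ℤ G) (n : ℤ) (x : tateCohomology A n) :
    Fintype.card G • x = 0 := by
  obtain ⟨B, -, hBA⟩ := exists_shift hS A 0 (fun a => zero_smul _ a) (n - 1)
  obtain ⟨e⟩ := hBA G (MonoidHom.id G) Function.injective_id 1 n (by ring)
  let e' : tateCohomology A n ≅ groupCohomology.H1 B :=
    e.symm ≪≫ (TateCohomology.isoGroupCohomology 1).app B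
  have h1 : e'.hom.hom (Fintype.card G • x) = 0 := by
    rw [map_nsmul]
    exact card_nsmul_H1_eq_zero B _
  have h2 : e'.inv.hom (e'.hom.hom (Fintype.card G • x)) = Fintype.card G • x := by
    simp
  rw [← h2, h1, map_zero]

end card

section nakayama

variable {p : ℕ} [Fact p.Prime] {G : Type} [Group G] [Finite G]

/-- A `p`-group acting linearly on a nonzero `𝔽_p`-vector space has a nonzero invariant
linear functional. -/
lemma exists_invariant_dual_ne_zero (hG : IsPGroup p G) {V : Type*} [AddCommGroup V]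
    [Module (ZMod p) V] (ρ : Representation (ZMod p) G V) (v₀ : V) (hv₀ : v₀ ≠ 0) :
    ∃ φ : Module.Dual (ZMod p) V, φ ≠ 0 ∧ ∀ g v, φ (ρ g v) = φ v := by
  obtain ⟨φ₀, hφ₀⟩ : ∃ φ₀ : Module.Dual (ZMod p) V, φ₀ v₀ ≠ 0 := by
    by_contra h
    exact hv₀ ((Module.forall_dual_apply_eq_zero_iff (ZMod p) v₀).1
      (fun φ => not_not.1 (fun hφ => h ⟨φ, hφ⟩)))
  let W : Submodule (ZMod p) (Module.Dual (ZMod p) V) :=
    Submodule.span (ZMod p) (Set.range fun g : G => ρ.dual g φ₀)
  have hstable : ∀ (g : G) (w : Module.Dual (ZMod p) V), w ∈ W → ρ.dual g w ∈ W := by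
    intro g w hw
    induction hw using Submodule.span_induction with
    | mem x hx =>
      obtain ⟨h, rfl⟩ := hx
      refine Submodule.subset_span ⟨g * h, ?_⟩
      change ρ.dual (g * h) φ₀ = ρ.dual g (ρ.dual h φ₀)
      rw [map_mul]
      rfl
    | zero => simp
    | add x y _ _ hx hy => rw [map_add]; exact W.add_mem hx hy
    | smul a x _ hx => rw [map_smul]; exact W.smul_mem a hx
  have hφ₀W : φ₀ ∈ W := Submodule.subset_span ⟨1, by
    change ρ.dual 1 φ₀ = φ₀
    rw [map_one]
    rfl⟩
  have : Module.Finite (ZMod p) W := Module.Finite.span_of_finite _ (Set.finite_range _)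
  have : Finite W := Module.finite_of_finite (ZMod p)
  have : Nontrivial W := ⟨⟨⟨φ₀, hφ₀W⟩, 0, fun h => hφ₀ (by
    have : φ₀ = 0 := congrArg Subtype.val h
    simp [this])⟩⟩
  have hcard : p ∣ Nat.card W := by
    rw [Module.natCard_eq_pow_finrank (K := ZMod p), Nat.card_zmod]
    exact dvd_pow_self p (Module.finrank_pos (R := ZMod p)).ne'
  let _ : MulAction G W :=
    { smul := fun g w => ⟨ρ.dual g w.1, hstable g w.1 w.2⟩
      one_smul := fun w => Subtype.ext (by
        change ρ.dual 1 w.1 = w.1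
        rw [map_one]
        rfl)
      mul_smul := fun g h w => Subtype.ext (by
        change ρ.dual (g * h) w.1 = ρ.dual g (ρ.dual h w.1)
        rw [map_mul]
        rfl) }
  have h0 : (0 : W) ∈ MulAction.fixedPoints G W := fun g => Subtype.ext (by
    change ρ.dual g 0 = 0
    simp)
  obtain ⟨b, hb, hb0⟩ := hG.exists_fixed_point_of_prime_dvd_card_of_fixed_point W hcard h0
  refine ⟨b.1, fun h => hb0 (Subtype.ext h.symm), fun g v => ?_⟩
  have h1 : ρ.dual g⁻¹ b.1 = b.1 := congrArg Subtype.val (hb g⁻¹)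
  have h2 : (ρ.dual g⁻¹ b.1) v = b.1 v := by rw [h1]
  rw [Representation.dual_apply, inv_inv] at h2
  exact h2

/-- Additive version of `exists_invariant_dual_ne_zero`, with the action given by additive
maps. -/
lemma exists_invariant_addHom_ne_zero (hG : IsPGroup p G) {V : Type*} [AddCommGroup V]
    [Module (ZMod p) V] (F : G → V →+ V) (hF1 : ∀ v, F 1 v = v)
    (hFm : ∀ g h v, F (g * h) v = F g (F h v)) (v₀ : V) (hv₀ : v₀ ≠ 0) :
    ∃ φ : V →+ ZMod p, φ ≠ 0 ∧ ∀ g v, φ (F g v) = φ v := by
  let ρ' : Representation (ZMod p) G V :=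
    MonoidHom.mk (M := G) (N := Module.End (ZMod p) V)
      ⟨fun g => (F g).toZModLinearMap p, LinearMap.ext fun v => hF1 v⟩
      (fun g h => LinearMap.ext fun v => hFm g h v)
  obtain ⟨φ, hφ, hinv⟩ := exists_invariant_dual_ne_zero hG ρ' v₀ hv₀
  refine ⟨φ.toAddMonoidHom, fun h => hφ (LinearMap.ext fun v => ?_), fun g v => hinv g v⟩
  exact congrArg (fun ψ : V →+ ZMod p => ψ v) h

/-- Nakayama's lemma for `p`-groups: a `G`-module killed by `p` with trivial coinvariants
is zero. -/
lemma eq_zero_of_forall_mem_coinvariantsKer (hG : IsPGroup p G) (B : Rep ℤ G)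
    (hpB : ∀ b : B, p • b = 0) (hB : ∀ b : B, b ∈ Representation.Coinvariants.ker B.ρ) :
    ∀ b : B, b = 0 := by
  intro b₀
  by_contra hb₀
  obtain ⟨φ, hφ, hinv⟩ := @exists_invariant_addHom_ne_zero p _ G _ _ hG B.V _
    (AddCommGroup.zmodModule hpB) (fun g => (B.ρ g).toAddMonoidHom)
    (fun v => by
      change B.ρ 1 v = v
      rw [map_one]
      rfl)
    (fun g h v => by
      change B.ρ (g * h) v = B.ρ g (B.ρ h v)
      rw [map_mul]
      rfl) b₀ hb₀
  apply hφ
  ext v
  have hv : v ∈ Representation.Coinvariants.ker B.ρ := hB v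
  change φ v = 0
  induction hv using Submodule.span_induction with
  | mem x hx =>
    obtain ⟨⟨g, y⟩, rfl⟩ := hx
    have := hinv g y
    change φ (B.ρ g y) = φ y at this
    change φ (B.ρ g y - y) = 0
    rw [map_sub, this, sub_self]
  | zero => exact map_zero φ
  | add x y _ _ hx hy => rw [map_add, hx, hy, add_zero]
  | smul a x _ hx =>
    have h3 : φ (B.hV2.smul a x) = 0 := by
      rw [int_smul_eq_zsmul B.hV2 a x, map_zsmul, hx, smul_zero]
    exact h3

end nakayama


section exactness

variable {G : Type} [Group G]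

/-- Short exactness in `Rep ℤ G` from function-level statements. -/
lemma shortExact_of_hom {S : ShortComplex (Rep ℤ G)}
    (h1 : Function.Injective S.f.hom) (h2 : ∀ x : S.X₂, S.g.hom x = 0 → ∃ y, S.f.hom y = x)
    (h3 : Function.Surjective S.g.hom) : S.ShortExact := by
  haveI : Mono S.f := (Rep.mono_iff_injective _).2 h1
  haveI : Epi S.g := (Rep.epi_iff_surjective _).2 h3
  refine ⟨?_⟩
  rw [← ShortComplex.exact_map_iff_of_faithful S (forget₂ (Rep ℤ G) (ModuleCat ℤ))]
  rw [ShortComplex.moduleCat_exact_iff]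
  intro x hx
  exact h2 x hx

/-- Function-level exactness from exactness in `Rep ℤ G`. -/
lemma exists_of_exact {S : ShortComplex (Rep ℤ G)} (hS : S.Exact) (x : S.X₂)
    (hx : S.g.hom x = 0) : ∃ y, S.f.hom y = x := by
  have := (ShortComplex.moduleCat_exact_iff _).1 (hS.map (forget₂ (Rep ℤ G) (ModuleCat ℤ)))
  exact this x hx

end exactness

section basisLift

/-- Lifting an `𝔽_p`-basis of a quotient: integral combinations of the lifts hit every class,
and a combination that dies in the quotient has all coefficients divisible by `p`. -/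
lemma PGroup.exists_lift_basis {p : ℕ} [Fact p.Prime] {Q : Type} [AddCommGroup Q] [Module (ZMod p) Q]
    {V : Type} [AddCommGroup V] (π : V →+ Q) (hπ : Function.Surjective π) :
    ∃ (ι : Type) (a : ι → V),
      (∀ x : V, ∃ c : ι →₀ ℤ, π x = π (c.sum fun i n => n • a i)) ∧
      (∀ c : ι →₀ ℤ, π (c.sum fun i n => n • a i) = 0 → ∀ i, (p : ℤ) ∣ c i) := by
  let b := Module.Basis.ofVectorSpace (ZMod p) Q
  choose a ha using fun i => hπ (b i)
  have key : ∀ c : (Module.Basis.ofVectorSpaceIndex (ZMod p) Q) →₀ ℤ,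
      π (c.sum fun i n => n • a i) =
        Finsupp.linearCombination (ZMod p) b (c.mapRange (Int.cast : ℤ → ZMod p) Int.cast_zero) := by
    intro c
    rw [map_finsuppSum, Finsupp.linearCombination_apply,
      Finsupp.sum_mapRange_index (by intro i; simp)]
    refine Finsupp.sum_congr (fun i _ => ?_)
    rw [map_zsmul, ha, Int.cast_smul_eq_zsmul]
  refine ⟨_, a, fun x => ?_, fun c hc i => ?_⟩
  · refine ⟨(b.repr (π x)).mapRange (fun z => (z.val : ℤ)) (by simp), ?_⟩
    rw [key]
    have : ((b.repr (π x)).mapRange (fun z => (z.val : ℤ)) (by simp)).mapRange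
        (Int.cast : ℤ → ZMod p) Int.cast_zero = b.repr (π x) := by
      ext i
      simp
    rw [this, Module.Basis.linearCombination_repr]
  · rw [key] at hc
    have h0 := linearIndependent_iff.1 b.linearIndependent _ hc
    have h1 : ((c i : ℤ) : ZMod p) = 0 := by
      have := congrArg (fun l => l i) h0
      simpa using this
    exact (ZMod.intCast_zmod_eq_zero_iff_dvd (c i) p).1 h1

end basisLift

section homLemmas

variable {G : Type} [Group G]

lemma PGroup.hom_add {A B : Rep ℤ G} (f : A ⟶ B) (x y : A) : f.hom (x + y) = f.hom x + f.hom y :=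
  map_add f.hom.toLinearMap x y

lemma PGroup.hom_sub {A B : Rep ℤ G} (f : A ⟶ B) (x y : A) : f.hom (x - y) = f.hom x - f.hom y :=
  map_sub f.hom.toLinearMap x y

lemma PGroup.hom_zsmul {A B : Rep ℤ G} (f : A ⟶ B) (n : ℤ) (x : A) : f.hom (n • x) = n • f.hom x :=
  map_zsmul f.hom.toLinearMap n x

/-- A morphism maps the kernel of the coinvariants into the kernel of the coinvariants. -/
lemma hom_mem_coinvariantsKer {A B : Rep ℤ G} (f : A ⟶ B) {x : A}
    (hx : x ∈ Representation.Coinvariants.ker A.ρ) :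
    f.hom x ∈ Representation.Coinvariants.ker B.ρ := by
  have : Representation.Coinvariants.ker A.ρ ≤
      (Representation.Coinvariants.ker B.ρ).comap f.hom.toLinearMap := by
    refine Submodule.span_le.2 ?_
    rintro _ ⟨⟨g, y⟩, rfl⟩
    change f.hom (A.ρ g y - y) ∈ Representation.Coinvariants.ker B.ρ
    rw [PGroup.hom_sub, Rep.hom_comm_apply]
    exact Representation.Coinvariants.sub_mem_ker g _
  exact this hx

end homLemmas

section free

variable {G : Type} [Group G] {ι : Type}

lemma PGroup.free_induction {P : (ι →₀ MonoidAlgebra ℤ G) → Prop} (h0 : P 0)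
    (hadd : ∀ x y, P x → P y → P (x + y))
    (hs : ∀ (i : ι) (g : G) (n : ℤ), P (Finsupp.single i (MonoidAlgebra.single g n))) :
    ∀ x, P x := by
  intro x
  induction x using Finsupp.induction_linear with
  | zero => exact h0
  | add x y hx hy => exact hadd x y hx hy
  | single i f =>
    induction f using MonoidAlgebra.induction_linear with
    | zero => simpa using h0
    | add f g hf hg => rw [Finsupp.single_add]; exact hadd _ _ hf hg
    | single g n => exact hs i g n

variable (G ι) in
/-- The coordinatewise augmentation `ℤ[G]^(ι) → ℤ^(ι)`. -/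
noncomputable def PGroup.aug : (ι →₀ MonoidAlgebra ℤ G) →+ (ι →₀ ℤ) :=
  Finsupp.mapRange.addMonoidHom
    ((Finsupp.liftAddHom (fun _ : G => AddMonoidHom.id ℤ)).comp
      (MonoidAlgebra.coeffAddEquiv (R := ℤ) (M := G)).toAddMonoidHom)

lemma PGroup.aug_single_single (i : ι) (g : G) (n : ℤ) :
    PGroup.aug G ι (Finsupp.single i (MonoidAlgebra.single g n)) = Finsupp.single i n := by
  simp [PGroup.aug, MonoidAlgebra.coeffAddEquiv]

variable (G ι) in
/-- The section `ℤ^(ι) → ℤ[G]^(ι)` of the augmentation, `eᵢ ↦ 1·eᵢ`. -/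
noncomputable def PGroup.unitLift : (ι →₀ ℤ) →+ (ι →₀ MonoidAlgebra ℤ G) :=
  Finsupp.mapRange.addMonoidHom
    ((MonoidAlgebra.coeffAddEquiv (R := ℤ) (M := G)).symm.toAddMonoidHom.comp
      (Finsupp.singleAddHom (1 : G)))

lemma PGroup.unitLift_single (i : ι) (n : ℤ) :
    PGroup.unitLift G ι (Finsupp.single i n) = Finsupp.single i (MonoidAlgebra.single 1 n) := by
  simp [PGroup.unitLift, MonoidAlgebra.coeffAddEquiv]

section freeLift

variable (A : Rep ℤ G) (a : ι → A)

/-- The integral combination `∑ cᵢ aᵢ` as an additive map. -/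
noncomputable def PGroup.comb : (ι →₀ ℤ) →+ A.V :=
  Finsupp.liftAddHom (fun i => (zmultiplesHom A.V) (a i))

lemma PGroup.comb_apply (c : ι →₀ ℤ) : PGroup.comb A a c = c.sum fun i n => n • a i := by
  simp only [PGroup.comb, Finsupp.liftAddHom_apply]
  rfl

lemma PGroup.comb_single (i : ι) (n : ℤ) : PGroup.comb A a (Finsupp.single i n) = n • a i := by
  simp [PGroup.comb]

lemma PGroup.freeLift_single_single' (i : ι) (g : G) (n : ℤ) :
    (Rep.freeLift ℤ G A a).hom (Finsupp.single i (MonoidAlgebra.single g n)) =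
      n • A.ρ g (a i) := by
  have h := Representation.freeLift_single_single A.ρ i g n a
  exact h.trans (int_smul_eq_zsmul A.hV2 n _)

/-- `φ(x) ≡ ∑ εᵢ(x) aᵢ` modulo `I_G A`. -/
lemma PGroup.freeLift_sub_comb_aug_mem (x : ι →₀ MonoidAlgebra ℤ G) :
    (Rep.freeLift ℤ G A a).hom x - PGroup.comb A a (PGroup.aug G ι x) ∈
      Representation.Coinvariants.ker A.ρ := by
  induction x using PGroup.free_induction with
  | h0 =>
    rw [PGroup.hom_zero, map_zero, map_zero, sub_zero]
    exact Submodule.zero_mem _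
  | hadd x y hx hy =>
    have : (Rep.freeLift ℤ G A a).hom (x + y) - PGroup.comb A a (PGroup.aug G ι (x + y)) =
        ((Rep.freeLift ℤ G A a).hom x - PGroup.comb A a (PGroup.aug G ι x)) +
        ((Rep.freeLift ℤ G A a).hom y - PGroup.comb A a (PGroup.aug G ι y)) := by
      rw [PGroup.hom_add, map_add, map_add]
      abel
    rw [this]
    exact Submodule.add_mem _ hx hy
  | hs i g n =>
    rw [PGroup.freeLift_single_single', PGroup.aug_single_single, PGroup.comb_single, ← zsmul_sub]
    exact zsmul_mem (Representation.Coinvariants.sub_mem_ker g (a i)) n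

/-- `x ≡ ∑ εᵢ(x)·eᵢ` modulo `I_G F`. -/
lemma PGroup.sub_unitLift_aug_mem (x : ι →₀ MonoidAlgebra ℤ G) :
    x - PGroup.unitLift G ι (PGroup.aug G ι x) ∈
      Representation.Coinvariants.ker (Rep.free ℤ G ι).ρ := by
  induction x using PGroup.free_induction with
  | h0 =>
    rw [map_zero, map_zero, sub_zero]
    exact Submodule.zero_mem _
  | hadd x y hx hy =>
    have : x + y - PGroup.unitLift G ι (PGroup.aug G ι (x + y)) =
        (x - PGroup.unitLift G ι (PGroup.aug G ι x)) + (y - PGroup.unitLift G ι (PGroup.aug G ι y)) := by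
      rw [map_add, map_add]
      abel
    rw [this]
    exact Submodule.add_mem _ hx hy
  | hs i g n =>
    rw [PGroup.aug_single_single, PGroup.unitLift_single]
    refine Representation.Coinvariants.mem_ker_of_eq g
      (Finsupp.single i (MonoidAlgebra.single 1 n)) _ ?_
    change (Representation.free ℤ G ι) g (Finsupp.single i (MonoidAlgebra.single 1 n)) - _ = _
    rw [Representation.free_single_single, mul_one]

lemma PGroup.freeLift_unitLift (c : ι →₀ ℤ) :
    (Rep.freeLift ℤ G A a).hom (PGroup.unitLift G ι c) = PGroup.comb A a c := by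
  induction c using Finsupp.induction_linear with
  | zero => rw [map_zero, map_zero]; exact PGroup.hom_zero (Rep.freeLift ℤ G A a)
  | add x y hx hy => rw [map_add, map_add, map_add, hx, hy]
  | single i n =>
    rw [PGroup.unitLift_single, PGroup.comb_single, PGroup.freeLift_single_single', map_one]
    rfl

end freeLift

end free

section core

variable {G : Type} [Group G]

lemma PGroup.H0π_eq_zero_iff (A : Rep ℤ G) (y : A) :
    groupHomology.H0π A y = 0 ↔ y ∈ Representation.Coinvariants.ker A.ρ := by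
  rw [← Representation.Coinvariants.mk_eq_zero]
  have h := groupHomology.H0π_comp_H0Iso_hom_apply A y
  constructor
  · intro h0
    rw [h0, map_zero] at h
    exact h.symm
  · intro h0
    have h1 : (groupHomology.H0Iso A).hom (groupHomology.H0π A y) = 0 := h.trans h0
    have h2 := congrArg (groupHomology.H0Iso A).inv h1
    simpa using h2

/-- If `H₁(G, X₃) = 0` for a short exact sequence, then `I_G X₂ ∩ X₁ = I_G X₁`. -/
lemma mem_coinvariantsKer_of_shortExact {X : ShortComplex (Rep ℤ G)} (hX : X.ShortExact)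
    (hH1 : IsZero (groupHomology X.X₃ 1)) (r : X.X₁)
    (hr : X.f.hom r ∈ Representation.Coinvariants.ker X.X₂.ρ) :
    r ∈ Representation.Coinvariants.ker X.X₁.ρ := by
  have hmono : Mono (groupHomology.map (MonoidHom.id G) X.f 0) :=
    (groupHomology.mapShortComplex₁_exact hX (i := 1) (j := 0) rfl).mono_g (hH1.eq_of_src _ _)
  have hinj := (ModuleCat.mono_iff_injective _).1 hmono
  rw [← PGroup.H0π_eq_zero_iff]
  apply hinj
  rw [map_zero]
  have h := groupHomology.H0π_comp_map_apply (MonoidHom.id G) X.f r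
  rw [h]
  exact (PGroup.H0π_eq_zero_iff X.X₂ _).2 hr

lemma PGroup.nsmul_id_hom_apply (A : Rep ℤ G) (m : ℕ) (x : A) : (m • 𝟙 A : A ⟶ A).hom x = m • x := rfl

/-- The kernel of a morphism as a subrepresentation, with its short exact sequence. -/
lemma exists_kernel_shortExact {F A : Rep ℤ G} (φ : F ⟶ A) (hφ : Function.Surjective φ.hom) :
    ∃ (R : Rep ℤ G) (j : R ⟶ F) (w : j ≫ φ = 0), (ShortComplex.mk j φ w).ShortExact ∧
      (∀ x : F, φ.hom x = 0 → ∃ r : R, j.hom r = x) ∧ Function.Injective j.hom := by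
  have hW : ∀ g, LinearMap.ker φ.hom.toLinearMap ≤
      (LinearMap.ker φ.hom.toLinearMap).comap (F.ρ g) := by
    intro g x hx
    rw [Submodule.mem_comap, LinearMap.mem_ker]
    rw [LinearMap.mem_ker] at hx
    change φ.hom (F.ρ g x) = 0
    rw [Rep.hom_comm_apply]
    change A.ρ g (φ.hom.toLinearMap x) = 0
    rw [hx, map_zero]
  refine ⟨F.subrepresentation _ hW, F.subtype _ hW, ?_, ?_, ?_, ?_⟩
  · refine Rep.hom_ext (DFunLike.ext _ _ fun x => ?_)
    exact x.2
  · apply shortExact_of_hom
    · exact Subtype.val_injective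
    · intro x hx
      exact ⟨⟨x, hx⟩, rfl⟩
    · exact hφ
  · intro x hx
    exact ⟨⟨x, hx⟩, rfl⟩
  · exact Subtype.val_injective

/-- Nakayama, subgroup form: a `G`-stable subgroup `W ⊇ pA` with `W + I_G A = A` is everything
(`G` a `p`-group). -/
lemma mem_of_forall_exists_sub_mem {p : ℕ} [Fact p.Prime] [Finite G] (hG : IsPGroup p G)
    (A : Rep ℤ G) (W : AddSubgroup A.V) (hpW : ∀ a : A, p • a ∈ W)
    (hW : ∀ (g : G) (x : A), x ∈ W → A.ρ g x ∈ W)
    (h : ∀ x : A, ∃ w ∈ W, x - w ∈ Representation.Coinvariants.ker A.ρ) :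
    ∀ x : A, x ∈ W := by
  let W' : Submodule ℤ A.V :=
    { carrier := W
      add_mem' := W.add_mem
      zero_mem' := W.zero_mem
      smul_mem' := fun c x hx => by
        have h1 := int_smul_eq_zsmul A.hV2 c x
        have h2 : c • x ∈ W := W.zsmul_mem hx c
        rw [← h1] at h2
        exact h2 }
  have hW' : ∀ g, W' ≤ W'.comap (A.ρ g) := fun g x hx => hW g x hx
  have hsurj : Function.Surjective (A.mkQ W' hW').hom := Submodule.Quotient.mk_surjective W'
  have hker : ∀ x : A, (A.mkQ W' hW').hom x = 0 ↔ x ∈ W :=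
    fun x => Submodule.Quotient.mk_eq_zero W'
  have key := eq_zero_of_forall_mem_coinvariantsKer hG (A.quotient W' hW') (fun b => by
      obtain ⟨x, rfl⟩ := hsurj b
      have h1 := PGroup.hom_nsmul (A.mkQ W' hW') p x
      rw [← h1]
      exact (hker _).2 (hpW x)) (fun b => by
      obtain ⟨x, rfl⟩ := hsurj b
      obtain ⟨w, hw, hxw⟩ := h x
      have h1 : (A.mkQ W' hW').hom x = (A.mkQ W' hW').hom (x - w) := by
        rw [PGroup.hom_sub, (hker w).2 hw, sub_zero]
      rw [h1]
      exact hom_mem_coinvariantsKer _ hxw)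
  intro x
  exact (hker x).1 (key _)

lemma PGroup.free_nsmul_injective (ι : Type) (p : ℕ) (hp : p ≠ 0) :
    Function.Injective (fun y : ι →₀ MonoidAlgebra ℤ G => p • y) := by
  intro y y' h
  let e : (ι →₀ MonoidAlgebra ℤ G) ≃+ (ι →₀ G →₀ ℤ) :=
    Finsupp.mapRange.addEquiv (MonoidAlgebra.coeffAddEquiv (R := ℤ) (M := G))
  have h1 : p • e y = p • e y' := by
    rw [← map_nsmul, ← map_nsmul]
    exact congrArg e h
  exact e.injective (nsmul_right_injective hp h1)

/-- The range of a morphism as an additive subgroup. -/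
def PGroup.homRange {A B : Rep ℤ G} (f : A ⟶ B) : AddSubgroup B.V where
  carrier := Set.range f.hom
  add_mem' := by
    rintro _ _ ⟨x, rfl⟩ ⟨y, rfl⟩
    exact ⟨x + y, PGroup.hom_add f x y⟩
  zero_mem' := ⟨0, PGroup.hom_zero f⟩
  neg_mem' := by
    rintro _ ⟨x, rfl⟩
    exact ⟨-x, by rw [← sub_zero (-x), ← zero_sub, sub_zero, ← zero_sub, PGroup.hom_sub, PGroup.hom_zero]⟩

/-- Core step (Serre, Local Fields IX §5, Lemma 4 / Thm 5): for a `p`-group `G`, a `G`-module
killed by `p` with `H₁(G, A) = 0` is the quotient `F/pF` of a free module, hence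
cohomologically trivial. -/
theorem isCohTrivial_of_isZero_H1 (hS : ShiftStmt) {p : ℕ} [Fact p.Prime] [Fintype G]
    (hG : IsPGroup p G) (A : Rep.{0} ℤ G) (hpA : ∀ a : A, p • a = 0)
    (hH1 : IsZero (groupHomology A 1)) : IsCohTrivial A := by
  have hp0 : p ≠ 0 := (Fact.out : p.Prime).ne_zero
  -- (a) lift an `𝔽_p`-basis of the coinvariants
  let π : A.V →+ A.V ⧸ Representation.Coinvariants.ker A.ρ :=
    (Submodule.mkQ (Representation.Coinvariants.ker A.ρ)).toAddMonoidHom
  have hπ : Function.Surjective π := Submodule.Quotient.mk_surjective _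
  have hQ : ∀ y : A.V ⧸ Representation.Coinvariants.ker A.ρ, p • y = 0 := by
    intro y
    obtain ⟨x, rfl⟩ := hπ y
    rw [← map_nsmul, hpA x, map_zero]
  obtain ⟨ι, a, ha1, ha2⟩ := @PGroup.exists_lift_basis p _ _ _ (AddCommGroup.zmodModule hQ) A.V _ π hπ
  have ha1' : ∀ x : A, ∃ c : ι →₀ ℤ, x - PGroup.comb A a c ∈ Representation.Coinvariants.ker A.ρ := by
    intro x
    obtain ⟨c, hc⟩ := ha1 x
    exact ⟨c, by rw [PGroup.comb_apply]; exact (Submodule.Quotient.eq _).1 hc⟩
  have ha2' : ∀ c : ι →₀ ℤ, PGroup.comb A a c ∈ Representation.Coinvariants.ker A.ρ →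
      ∀ i, (p : ℤ) ∣ c i := by
    intro c hc
    refine ha2 c ?_
    rw [← PGroup.comb_apply]
    exact (Submodule.Quotient.mk_eq_zero _).2 hc
  -- (b), (c): the free cover is surjective
  have hφsurj : Function.Surjective (Rep.freeLift ℤ G A a).hom := by
    have := mem_of_forall_exists_sub_mem hG A (PGroup.homRange (Rep.freeLift ℤ G A a))
      (fun x => by rw [hpA x]; exact AddSubgroup.zero_mem _)
      (fun g x hx => by
        obtain ⟨y, rfl⟩ := hx
        exact ⟨(Rep.free ℤ G ι).ρ g y, Rep.hom_comm_apply _ g y⟩)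
      (fun x => by
        obtain ⟨c, hc⟩ := ha1' x
        exact ⟨PGroup.comb A a c, ⟨PGroup.unitLift G ι c, PGroup.freeLift_unitLift A a c⟩, hc⟩)
    exact this
  -- (d) the kernel
  obtain ⟨R, j, w, hSE, hjex, hjinj⟩ := exists_kernel_shortExact (Rep.freeLift ℤ G A a) hφsurj
  have hjφ : ∀ r : R, (Rep.freeLift ℤ G A a).hom (j.hom r) = 0 := fun r => by
    have := congrArg (fun f : R ⟶ A => f.hom r) w
    exact this
  have hd1 : ∀ r : R, j.hom r ∈ Representation.Coinvariants.ker (Rep.free ℤ G ι).ρ →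
      r ∈ Representation.Coinvariants.ker R.ρ :=
    fun r hr => mem_coinvariantsKer_of_shortExact hSE hH1 r hr
  -- (e) the kernel is `pF`
  have he : ∀ r : R, ∃ y : Rep.free ℤ G ι, j.hom r = p • y := by
    let W' : AddSubgroup R.V :=
      { carrier := {r | ∃ y : Rep.free ℤ G ι, j.hom r = p • y}
        add_mem' := by
          rintro r r' ⟨y, hy⟩ ⟨y', hy'⟩
          exact ⟨y + y', by rw [PGroup.hom_add, hy, hy', nsmul_add]⟩
        zero_mem' := ⟨0, by rw [PGroup.hom_zero, nsmul_zero]⟩
        neg_mem' := by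
          rintro r ⟨y, hy⟩
          refine ⟨-y, ?_⟩
          have h0 : j.hom (-r) = -j.hom r := by
            rw [← zero_sub, PGroup.hom_sub, PGroup.hom_zero, zero_sub]
          rw [h0, hy, neg_nsmul] }
    refine mem_of_forall_exists_sub_mem hG R W' (fun r => ⟨j.hom r, PGroup.hom_nsmul j p r⟩)
      (fun g r hr => ?_) (fun r => ?_)
    · obtain ⟨y, hy⟩ := hr
      refine ⟨(Rep.free ℤ G ι).ρ g y, ?_⟩
      rw [Rep.hom_comm_apply, hy, map_nsmul]
    · have hx0 := hjφ r
      have hb1 := PGroup.freeLift_sub_comb_aug_mem A a (j.hom r)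
      rw [hx0, zero_sub, neg_mem_iff] at hb1
      have hdiv := ha2' _ hb1
      let m₀ : ι →₀ ℤ := (PGroup.aug G ι (j.hom r)).mapRange (· / (p : ℤ)) (Int.zero_ediv _)
      have hm₀ : p • m₀ = PGroup.aug G ι (j.hom r) := by
        ext i
        rw [Finsupp.smul_apply, Finsupp.mapRange_apply, nsmul_eq_mul]
        exact Int.mul_ediv_cancel' (hdiv i)
      have hy₀ : p • PGroup.unitLift G ι m₀ = PGroup.unitLift G ι (PGroup.aug G ι (j.hom r)) := by
        rw [← map_nsmul, hm₀]
      have hb2 := PGroup.sub_unitLift_aug_mem (j.hom r)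
      rw [← hy₀] at hb2
      have hφ0 : (Rep.freeLift ℤ G A a).hom (p • PGroup.unitLift G ι m₀) = 0 := by
        rw [PGroup.hom_nsmul, hpA]
      obtain ⟨r₀, hr₀⟩ := hjex _ hφ0
      refine ⟨r₀, ⟨PGroup.unitLift G ι m₀, hr₀⟩, hd1 _ ?_⟩
      rw [PGroup.hom_sub, hr₀]
      exact hb2
  -- (f) conclusion
  have hF : IsCohTrivial (Rep.free ℤ G ι) := isCohTrivial_of_projective hS _
  have hzero : (p • 𝟙 (Rep.free ℤ G ι)) ≫ Rep.freeLift ℤ G A a = 0 := by
    refine Rep.hom_ext (DFunLike.ext _ _ fun y => ?_)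
    change (Rep.freeLift ℤ G A a).hom (p • y) = 0
    rw [PGroup.hom_nsmul, hpA]
  have hSE' : (ShortComplex.mk _ _ hzero).ShortExact := by
    apply shortExact_of_hom
    · exact PGroup.free_nsmul_injective ι p hp0
    · intro x hx
      obtain ⟨r, rfl⟩ := hjex x hx
      obtain ⟨y, hy⟩ := he r
      exact ⟨y, hy.symm⟩
    · exact hφsurj
  have h3 := IsCohTrivial.X₃_of_shortExact hSE' hF hF
  exact h3

end core

section main

variable {p : ℕ} [Fact p.Prime] {G : Type} [Group G] [Fintype G]

/-- **Serre, Local Fields IX §5 Thm 5.** For a `p`-group `G` and a `G`-module `A` killed by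
`p`: if one Tate cohomology group `Ĥ^q(G, A)` vanishes, then `A` is cohomologically trivial. -/
theorem isCohTrivial_of_pGroup_of_torsion (hS : ShiftStmt) (hG : IsPGroup p G) (A : Rep ℤ G)
    (hA : ∀ a : A, p • a = 0) (q : ℤ) (hq : IsZero (tateCohomology A q)) : IsCohTrivial A := by
  obtain ⟨B, hB, hBA⟩ := exists_shift hS A p hA (q + 2)
  obtain ⟨e⟩ := hBA G (MonoidHom.id G) Function.injective_id (-2) q (by ring)
  have h1 : IsZero (tateCohomology B (-2)) := hq.of_iso e
  have h2 : IsZero (groupHomology B 1) :=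
    h1.of_iso ((TateCohomology.isoGroupHomology (-2) 1 (by norm_num)).app B).symm
  exact hBA.isCohTrivial (isCohTrivial_of_isZero_H1 hS hG B hB h2)

lemma PGroup.mono_tate_map_f_of_shortExact {H : Type} [Group H] [Fintype H]
    {S : ShortComplex (Rep ℤ H)} (hS : S.ShortExact) (m n : ℤ) (hn : n = m + 1)
    (h3 : IsZero (tateCohomology S.X₃ m)) : Mono ((tateCohomologyFunctor n).map S.f) := by
  subst hn
  exact (TateCohomology.exact₁ hS m).mono_g (h3.eq_of_src _ _)

instance PGroup.tateCohomologyFunctor_additive {H : Type} [Group H] [Fintype H] (n : ℤ) :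
    (tateCohomologyFunctor (R := ℤ) (G := H) n).Additive := by
  unfold tateCohomologyFunctor
  infer_instance

/-- **Serre, Local Fields IX §5 Thm 6.** For a `p`-group `G` and a `G`-module `A` without
`p`-torsion: if two consecutive Tate cohomology groups vanish, `A` is cohomologically
trivial. -/
theorem isCohTrivial_of_pGroup_of_torsionFree (hS : ShiftStmt) (hG : IsPGroup p G) (A : Rep ℤ G)
    (hA : ∀ a : A, p • a = 0 → a = 0) (q : ℤ) (hq : IsZero (tateCohomology A q))
    (hq' : IsZero (tateCohomology A (q + 1))) : IsCohTrivial A := by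
  have hmono : Mono (p • 𝟙 A) := by
    rw [Rep.mono_iff_injective]
    intro x y hxy
    have h1 : p • (x - y) = 0 := by
      rw [nsmul_sub, sub_eq_zero]
      exact hxy
    exact sub_eq_zero.1 (hA _ h1)
  have hSE : (ShortComplex.mk (p • 𝟙 A) (cokernel.π (p • 𝟙 A))
      (cokernel.condition (p • 𝟙 A))).ShortExact :=
    { exact := ShortComplex.exact_cokernel (p • 𝟙 A) }
  -- the quotient `A/pA` is killed by `p`
  have hbar : ∀ b : (cokernel (p • 𝟙 A) : Rep ℤ G), p • b = 0 := by
    intro b
    obtain ⟨x, rfl⟩ := (Rep.epi_iff_surjective (cokernel.π (p • 𝟙 A))).1 inferInstance b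
    have h1 := PGroup.hom_nsmul (cokernel.π (p • 𝟙 A)) p x
    rw [← h1]
    have h2 := congrArg (fun f : A ⟶ cokernel (p • 𝟙 A) => f.hom x)
      (cokernel.condition (p • 𝟙 A))
    exact h2
  have h0 : IsZero (tateCohomology (cokernel (p • 𝟙 A)) q) :=
    isZero_tate_X₃_of_shortExact hSE q hq hq'
  have hct := isCohTrivial_of_pGroup_of_torsion hS hG _ hbar q h0
  intro H _ _ f hf n
  have hSE' : ((ShortComplex.mk (p • 𝟙 A) (cokernel.π (p • 𝟙 A))
      (cokernel.condition (p • 𝟙 A))).map (Rep.resFunctor f)).ShortExact :=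
    (Rep.shortExact_res f).2 hSE
  -- multiplication by `p` is injective on `Ĥⁿ(H, A)`
  have hm : Mono ((tateCohomologyFunctor n).map ((Rep.resFunctor f).map (p • 𝟙 A))) :=
    PGroup.mono_tate_map_f_of_shortExact hSE' (n - 1) n (by ring) (hct H f hf (n - 1))
  have hmap : (tateCohomologyFunctor n).map ((Rep.resFunctor f).map (p • 𝟙 A)) =
      p • 𝟙 (tateCohomology (Rep.res f A) n) := by
    rw [CategoryTheory.Functor.map_nsmul, CategoryTheory.Functor.map_nsmul,
      CategoryTheory.Functor.map_id, CategoryTheory.Functor.map_id]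
  rw [hmap] at hm
  have hinj : ∀ x : tateCohomology (Rep.res f A) n, p • x = 0 → x = 0 := by
    intro x hx
    have := (ModuleCat.mono_iff_injective _).1 hm
    apply this
    rw [map_zero]
    exact hx
  obtain ⟨k, hk⟩ := (hG.of_injective f hf).exists_card_eq
  have hkill : ∀ x : tateCohomology (Rep.res f A) n, p ^ k • x = 0 := by
    intro x
    have := card_nsmul_tate_eq_zero hS (Rep.res f A) n x
    rwa [← Nat.card_eq_fintype_card, hk] at this
  have hall : ∀ x : tateCohomology (Rep.res f A) n, x = 0 := by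
    intro x
    have : ∀ m : ℕ, p ^ m • x = 0 → x = 0 := by
      intro m
      induction m with
      | zero => intro h; simpa using h
      | succ m ih =>
        intro h
        apply ih
        apply hinj
        rw [← mul_nsmul', ← pow_succ']
        exact h
    exact this k (hkill x)
  haveI : Subsingleton (tateCohomology (Rep.res f A) n) := ⟨fun x y => by rw [hall x, hall y]⟩
  exact ModuleCat.isZero_of_subsingleton _

/-- **Twin criterion for `p`-groups (Serre, Local Fields IX §5 Thm 6 + 8).** For a `p`-group `G`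
and an arbitrary `G`-module `A`: if two consecutive Tate cohomology groups of `G` vanish, then
`A` is cohomologically trivial. -/
theorem isCohTrivial_of_pGroup (hS : ShiftStmt) (hG : IsPGroup p G) (A : Rep ℤ G) (q : ℤ)
    (hq : IsZero (tateCohomology A q)) (hq' : IsZero (tateCohomology A (q + 1))) :
    IsCohTrivial A := by
  have hp0 : p ≠ 0 := (Fact.out : p.Prime).ne_zero
  have hφsurj : Function.Surjective (Rep.freeLift ℤ G A (id : A.V → A.V)).hom := by
    intro x
    refine ⟨Finsupp.single x (MonoidAlgebra.single 1 1), ?_⟩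
    rw [PGroup.freeLift_single_single', one_zsmul, map_one]
    rfl
  obtain ⟨R, j, w, hSE, hjex, hjinj⟩ :=
    exists_kernel_shortExact (Rep.freeLift ℤ G A (id : A.V → A.V)) hφsurj
  have hF := isCohTrivial_of_projective hS (Rep.free ℤ G A.V)
  have hRtf : ∀ r : R, p • r = 0 → r = 0 := by
    intro r hr
    apply hjinj
    apply PGroup.free_nsmul_injective A.V p hp0
    change p • j.hom r = p • j.hom 0
    rw [← PGroup.hom_nsmul, hr, PGroup.hom_zero, nsmul_zero]
  have hshift := IsShift.of_shortExact hSE hF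
  obtain ⟨e1⟩ := hshift G (MonoidHom.id G) Function.injective_id q (q + 1) rfl
  obtain ⟨e2⟩ := hshift G (MonoidHom.id G) Function.injective_id (q + 1) (q + 1 + 1) rfl
  have hR : IsCohTrivial R :=
    isCohTrivial_of_pGroup_of_torsionFree hS hG R hRtf (q + 1) (hq.of_iso e1.symm)
      (hq'.of_iso e2.symm)
  have h3 := IsCohTrivial.X₃_of_shortExact hSE hR hF
  exact h3

end main

section unconditional

variable {p : ℕ} [Fact p.Prime] {G : Type} [Group G] [Fintype G]

/-- Unconditional form of `isCohTrivial_of_pGroup_of_torsion`. -/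
theorem isCohTrivial_of_pGroup_of_torsion' (hG : IsPGroup p G) (A : Rep ℤ G)
    (hA : ∀ a : A, p • a = 0) (q : ℤ) (hq : IsZero (tateCohomology A q)) : IsCohTrivial A :=
  isCohTrivial_of_pGroup_of_torsion shiftStmt hG A hA q hq

/-- Unconditional form of `isCohTrivial_of_pGroup_of_torsionFree`. -/
theorem isCohTrivial_of_pGroup_of_torsionFree' (hG : IsPGroup p G) (A : Rep ℤ G)
    (hA : ∀ a : A, p • a = 0 → a = 0) (q : ℤ) (hq : IsZero (tateCohomology A q))
    (hq' : IsZero (tateCohomology A (q + 1))) : IsCohTrivial A :=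
  isCohTrivial_of_pGroup_of_torsionFree shiftStmt hG A hA q hq hq'

/-- **Twin criterion for `p`-groups**, unconditional form of `isCohTrivial_of_pGroup`. -/
theorem isCohTrivial_of_pGroup' (hG : IsPGroup p G) (A : Rep ℤ G) (q : ℤ)
    (hq : IsZero (tateCohomology A q)) (hq' : IsZero (tateCohomology A (q + 1))) :
    IsCohTrivial A :=
  isCohTrivial_of_pGroup shiftStmt hG A q hq hq'

omit [Fact p.Prime] in
/-- Projective objects are cohomologically trivial. -/
theorem isCohTrivial_of_projective' (P : Rep ℤ G) [Projective P] : IsCohTrivial P :=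
  isCohTrivial_of_projective shiftStmt P

omit [Fact p.Prime] in
/-- Tate cohomology of a finite group is killed by the order of the group. -/
theorem card_nsmul_tate_eq_zero' (A : Rep ℤ G) (n : ℤ) (x : tateCohomology A n) :
    Fintype.card G • x = 0 :=
  card_nsmul_tate_eq_zero shiftStmt A n x

omit [Fact p.Prime] in
/-- Degree shifting by any `r : ℤ`, preserving `m`-torsion. -/
theorem exists_shift' (A : Rep ℤ G) (m : ℕ) (hm : ∀ a : A, m • a = 0) (r : ℤ) :
    ∃ B : Rep ℤ G, (∀ b : B, m • b = 0) ∧ IsShift B A r :=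
  exists_shift shiftStmt A m hm r

end unconditional


end Fermat.Agent.CFT.Triv
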