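/-
P3 / CFT program, layer L3 (`Triv`): the splitting module of a 2-cocycle (definitions).
Owner: helper37.  Mathlib only.

Contents (all in universe `0`, coefficients `ℤ`)
* `regRep G` : `ℤ[G]` as a representation, on the carrier `G →₀ ℤ` with left translation `regRho`.
* `augRep G` : the augmentation ideal `I_G`, on the carrier `LinearMap.ker (augMap G)`.
* `augIncl G : augRep G ⟶ regRep G`, `augEps G : regRep G ⟶ Rep.trivial ℤ G ℤ`,
  `augSES G`, `aug_shortExact G : (augSES G).ShortExact`.
* `splitMod C σ` : the splitting module of `σ : cocycles₂ C`, on the carrier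
  `C.V × LinearMap.ker (augMap G)` with `g • (c, y) = (g • c + φ_g y, g • y)`,
  `φ_g = splitPhi C σ g : (G →₀ ℤ) →ₗ[ℤ] C.V`, `φ_g (δ_h) = σ (g, h)`
  (`splitMod_ρ_apply`, a `rfl`-lemma).
* `splitIncl C σ : C ⟶ splitMod C σ`, `splitProj C σ : splitMod C σ ⟶ augRep G`,
  `splitSES C σ`, `split_shortExact C σ : (splitSES C σ).ShortExact`.
* `ℤ`-splitting: `splitFst C σ : (splitMod C σ).V →+ C.V`, `splitInr C σ : I_G →+ splitMod C σ`.

Note on the `ℤ`-module diamond: for `C : Rep ℤ G` instance search finds
`AddCommGroup.toIntModule C.V`, not `C.hV2`.  `splitPhi C σ g` is linear for the former; every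
`n • x` written here is the canonical `zsmul`.
-/
import Mathlib

set_option autoImplicit false

open CategoryTheory groupCohomology Limits

namespace Fermat.Agent.CFT.Triv

/-! ### The regular representation `ℤ[G]` and its augmentation ideal -/

section Reg

variable (G : Type) [Group G]

/-- Left translation on `G →₀ ℤ`. -/
noncomputable def regRho : Representation ℤ G (G →₀ ℤ) where
  toFun g := Finsupp.lmapDomain ℤ ℤ (g * ·)
  map_one' := by ext; simp
  map_mul' g h := by ext; simp [mul_assoc]

@[simp] lemma regRho_single (g x : G) (n : ℤ) :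
    regRho G g (Finsupp.single x n) = Finsupp.single (g * x) n := by
  simp [regRho]

/-- The augmentation `ℤ[G] → ℤ`. -/
noncomputable def augMap : (G →₀ ℤ) →ₗ[ℤ] ℤ := Finsupp.linearCombination ℤ (fun _ => (1 : ℤ))

omit [Group G] in
@[simp] lemma augMap_single (x : G) (n : ℤ) : augMap G (Finsupp.single x n) = n := by
  simp [augMap]

lemma augMap_regRho (g : G) (y : G →₀ ℤ) : augMap G (regRho G g y) = augMap G y := by
  induction y using Finsupp.induction_linear with
  | zero => simp
  | add a b ha hb => simp [map_add, ha, hb]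
  | single x n => simp

/-- `ℤ[G]` as a representation (on `G →₀ ℤ`, left translation). -/
noncomputable abbrev regRep : Rep.{0} ℤ G := Rep.of (regRho G)

/-- The augmentation ideal as a representation. -/
noncomputable def augRho : Representation ℤ G (LinearMap.ker (augMap G)) :=
  (regRho G).subrepresentation (LinearMap.ker (augMap G)) (fun g y hy => by
    simp only [Submodule.mem_comap, LinearMap.mem_ker] at hy ⊢
    rw [augMap_regRho]; exact hy)

/-- The augmentation ideal `I_G` of `ℤ[G]` as a representation. -/
noncomputable abbrev augRep : Rep.{0} ℤ G := Rep.of (augRho G)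

variable {G}

@[simp] lemma augRho_coe (g : G) (y : LinearMap.ker (augMap G)) :
    ((augRho G g y : LinearMap.ker (augMap G)) : G →₀ ℤ) = regRho G g y := rfl

end Reg

/-! ### The splitting module -/

section Split

/-- Any additive map between `ℤ`-modules is `ℤ`-linear, for arbitrary `Module ℤ` instances
(needed because `Module ℤ C.V` for `C : Rep ℤ G` is not the canonical instance by `rfl`). -/
def intLinOfAdd {M N : Type} [AddCommGroup M] [AddCommGroup N] [iM : Module ℤ M]
    [iN : Module ℤ N]
    (f : M →+ N) : M →ₗ[ℤ] N where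
  toFun := f
  map_add' := f.map_add
  map_smul' n x := by simpa using map_intCast_smul f ℤ ℤ n x

@[simp] lemma intLinOfAdd_apply {M N : Type} [AddCommGroup M] [AddCommGroup N] [iM : Module ℤ M]
    [iN : Module ℤ N] (f : M →+ N) (x : M) : intLinOfAdd f x = f x := rfl

variable {G : Type} [Group G] (C : Rep.{0} ℤ G) (σ : cocycles₂ C)

/-- `φ_g : ℤ[G] → C`, `δ_h ↦ σ(g, h)`. -/
noncomputable def splitPhi (g : G) : (G →₀ ℤ) →ₗ[ℤ] C.V :=
  Finsupp.linearCombination ℤ (fun h => σ (g, h))

@[simp] lemma splitPhi_single (g h : G) (n : ℤ) :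
    splitPhi C σ g (Finsupp.single h n) = n • σ (g, h) := by
  simp [splitPhi]

lemma splitPhi_one (y : G →₀ ℤ) : splitPhi C σ 1 y = augMap G y • σ (1, 1) := by
  induction y using Finsupp.induction_linear with
  | zero => simp
  | add a b ha hb => rw [map_add, map_add, ha, hb, add_smul]
  | single x n => simp [cocycles₂_map_one_fst]

lemma splitPhi_mul (g k : G) (y : G →₀ ℤ) :
    splitPhi C σ (g * k) y + augMap G y • σ (g, k) =
      C.ρ g (splitPhi C σ k y) + splitPhi C σ g (regRho G k y) := by
  induction y using Finsupp.induction_linear with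
  | zero => simp
  | add a b ha hb =>
    simp only [map_add, add_smul]
    rw [add_add_add_comm, ha, hb]
    abel
  | single x n =>
    simp only [splitPhi_single, augMap_single, regRho_single, map_zsmul]
    rw [← smul_add, ← smul_add, (mem_cocycles₂_iff σ).mp σ.2 g k x]

lemma splitPhi_augRho (g k : G) (y : LinearMap.ker (augMap G)) :
    splitPhi C σ g (regRho G k (y : G →₀ ℤ)) =
      splitPhi C σ (g * k) y - C.ρ g (splitPhi C σ k y) := by
  have h1 := splitPhi_mul C σ g k (y : G →₀ ℤ)
  have hy : augMap G (y : G →₀ ℤ) = 0 := y.2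
  rw [hy, zero_smul, add_zero] at h1
  rw [h1]; abel

/-- The action on the splitting module `C × I_G`:
`g • (c, y) = (g • c + φ_g y, g • y)`. -/
noncomputable def splitRho : Representation ℤ G (C.V × LinearMap.ker (augMap G)) where
  toFun g := intLinOfAdd
    { toFun := fun p => (C.ρ g p.1 + splitPhi C σ g (p.2 : G →₀ ℤ), augRho G g p.2)
      map_zero' := by simp
      map_add' := fun p q => by
        refine Prod.ext ?_ ?_
        · simp only [Prod.fst_add, Prod.snd_add, map_add, Submodule.coe_add]; abel
        · simp }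
  map_one' := by
    apply LinearMap.ext
    rintro ⟨c, y⟩
    have hy : augMap G (y : G →₀ ℤ) = 0 := y.2
    refine Prod.ext ?_ ?_
    · simp [splitPhi_one]
    · simp
  map_mul' g k := by
    apply LinearMap.ext
    rintro ⟨c, y⟩
    refine Prod.ext ?_ ?_
    · simp [splitPhi_augRho, add_assoc]
    · simp

lemma splitRho_apply (g : G) (p : C.V × LinearMap.ker (augMap G)) :
    splitRho C σ g p = (C.ρ g p.1 + splitPhi C σ g (p.2 : G →₀ ℤ), augRho G g p.2) := rfl

/-- The splitting module of the 2-cocycle `σ`. -/
noncomputable abbrev splitMod : Rep.{0} ℤ G := Rep.of (splitRho C σ)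

@[simp] lemma splitMod_ρ_apply (g : G) (p : C.V × LinearMap.ker (augMap G)) :
    (splitMod C σ).ρ g p = (C.ρ g p.1 + splitPhi C σ g (p.2 : G →₀ ℤ), augRho G g p.2) := rfl

lemma splitMod_ρ_fst (g : G) (p : C.V × LinearMap.ker (augMap G)) :
    ((splitMod C σ).ρ g p).1 = C.ρ g p.1 + splitPhi C σ g (p.2 : G →₀ ℤ) := rfl

lemma splitMod_ρ_snd (g : G) (p : C.V × LinearMap.ker (augMap G)) :
    ((splitMod C σ).ρ g p).2 = augRho G g p.2 := rfl

section

attribute [local instance 1100] Rep.hV2

/-- The inclusion `C → splitMod C σ`, `c ↦ (c, 0)`. -/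
noncomputable def splitIncl : C ⟶ splitMod C σ :=
  Rep.ofHom (ρ := C.ρ) (σ := splitRho C σ)
    ((intLinOfAdd
      (AddMonoidHom.inl C.V (LinearMap.ker (augMap G)))).intertwiningMap_of_isIntertwiningMap
      C.ρ (splitRho C σ) (fun g c => by
        refine Prod.ext ?_ ?_
        · simp [splitRho_apply]
        · simp [splitRho_apply]))

/-- The projection `splitMod C σ → I_G`, `(c, y) ↦ y`. -/
noncomputable def splitProj : splitMod C σ ⟶ augRep G :=
  Rep.ofHom (ρ := splitRho C σ) (σ := augRho G)
    ((intLinOfAdd (AddMonoidHom.snd C.V (LinearMap.ker (augMap G)))).intertwiningMap_of_isIntertwiningMap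
      (splitRho C σ) (augRho G) (fun g p => by
        simp [splitRho_apply]))

/-- The short complex `0 → C → splitMod C σ → I_G → 0`. -/
noncomputable def splitSES : ShortComplex (Rep.{0} ℤ G) :=
  ShortComplex.mk (splitIncl C σ) (splitProj C σ) (by
    apply Rep.hom_ext
    apply Representation.IntertwiningMap.ext
    apply LinearMap.ext
    intro c
    rfl)

end

lemma splitIncl_apply (c : C.V) : (splitIncl C σ).hom c = (c, 0) := rfl

lemma splitProj_apply (p : C.V × LinearMap.ker (augMap G)) : (splitProj C σ).hom p = p.2 := rfl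

/-- `ℤ`-splitting of `0 → C → splitMod C σ → I_G → 0`: the additive retraction onto `C`. -/
noncomputable def splitFst : (splitMod C σ).V →+ C.V := AddMonoidHom.fst C.V (LinearMap.ker (augMap G))

/-- `ℤ`-splitting of `0 → C → splitMod C σ → I_G → 0`: the additive section of `splitProj`. -/
noncomputable def splitInr : (augRep G).V →+ (splitMod C σ).V := AddMonoidHom.inr C.V (LinearMap.ker (augMap G))

@[simp] lemma splitFst_apply (p : C.V × LinearMap.ker (augMap G)) : splitFst C σ p = p.1 := rfl

@[simp] lemma splitInr_apply (y : LinearMap.ker (augMap G)) : splitInr C σ y = (0, y) := rfl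

lemma splitFst_splitIncl (c : C.V) : splitFst C σ ((splitIncl C σ).hom c) = c := rfl

lemma splitProj_splitInr (y : LinearMap.ker (augMap G)) :
    (splitProj C σ).hom (splitInr C σ y) = y := rfl

lemma splitIncl_splitFst_add_splitInr_splitProj (p : C.V × LinearMap.ker (augMap G)) :
    (splitIncl C σ).hom (splitFst C σ p) + splitInr C σ ((splitProj C σ).hom p) = p := by
  rw [splitIncl_apply, splitProj_apply, splitFst_apply, splitInr_apply]
  exact Prod.ext (by simp) (by simp)

theorem split_shortExact : (splitSES C σ).ShortExact where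
  exact := by
    refine (ShortComplex.exact_map_iff_of_faithful (splitSES C σ)
      (Rep.hasForgetToModuleCat.forget₂)).mp ?_
    rw [ShortComplex.moduleCat_exact_iff]
    rintro ⟨c, y⟩ hx
    have hy : y = 0 := hx
    subst hy
    exact ⟨c, rfl⟩
  mono_f := by
    change Mono (splitIncl C σ)
    rw [Rep.mono_iff_injective]
    intro a b hab
    exact congrArg Prod.fst hab
  epi_g := by
    change Epi (splitProj C σ)
    rw [Rep.epi_iff_surjective]
    intro y
    exact ⟨(0, y), rfl⟩

variable (G) in
/-- The inclusion `I_G → ℤ[G]`. -/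
noncomputable def augIncl : augRep G ⟶ regRep G :=
  Rep.ofHom (ρ := augRho G) (σ := regRho G)
    ((LinearMap.ker (augMap G)).subtype.intertwiningMap_of_isIntertwiningMap (augRho G) (regRho G)
      (fun _ _ => rfl))

variable (G) in
/-- The augmentation `ℤ[G] → ℤ` as a morphism of representations. -/
noncomputable def augEps : regRep G ⟶ Rep.trivial ℤ G ℤ :=
  Rep.ofHom (ρ := regRho G) (σ := Representation.trivial ℤ G ℤ)
    ((augMap G).intertwiningMap_of_isIntertwiningMap (regRho G) (Representation.trivial ℤ G ℤ)
      (fun g y => by simp [augMap_regRho]))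

variable (G) in
/-- The short complex `0 → I_G → ℤ[G] → ℤ → 0`. -/
noncomputable def augSES : ShortComplex (Rep.{0} ℤ G) :=
  ShortComplex.mk (augIncl G) (augEps G) (by
    apply Rep.hom_ext
    ext y
    exact y.2)

variable (G) in
theorem aug_shortExact : (augSES G).ShortExact where
  exact := by
    refine (ShortComplex.exact_map_iff_of_faithful (augSES G)
      (Rep.hasForgetToModuleCat.forget₂)).mp ?_
    rw [ShortComplex.moduleCat_exact_iff]
    intro y hy
    exact ⟨⟨y, hy⟩, rfl⟩
  mono_f := by
    change Mono (augIncl G)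
    rw [Rep.mono_iff_injective]
    intro a b hab
    exact Subtype.ext hab
  epi_g := by
    change Epi (augEps G)
    rw [Rep.epi_iff_surjective]
    intro n
    exact ⟨Finsupp.single 1 n, augMap_single G 1 n⟩

end Split

end Fermat.Agent.CFT.Triv
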