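/-
P3 / CFT program, layer L3 (`Triv`): Tate's theorem via the splitting module.
Owner: helper37.  Imports `Triv/SplitMod` (definitions) and `Triv/ClassAt` (the shared predicate
`IsClassAt`); otherwise Mathlib only.

Contents
* `IsRelProj` : relatively projective representations of a finite group; their `H¹`, `H²` vanish
  (explicit averaging formulas on Mathlib's low-degree cocycles); `ℤ[G]` is relatively projective
  on every subgroup.
* `H¹(H, I_G)` is generated by the canonical cocycle `augCocycle`, killed by `|H|`;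
  `H²(H, I_G) = 0`.
* `IsClassAt.h1_pt / gen_pt / ord_pt / of_pt` : pointwise forms of the class-module axioms;
  `IsClassAt.of_H1_H2`, `IsClassAt.of_card_of_addOrderOf`, `IsClassAt.of_addEquiv_zmod` :
  constructors from statements about Mathlib's `H1`, `H2`.
* `splitMod_exists_eq_d₀₁`, `splitMod_exists_eq_d₁₂` : Tate's theorem in cocycle form.
* `isZero_H1_res_splitMod`, `isZero_H2_res_splitMod`, `isZero_tate_one_res_splitMod`,
  `isZero_tate_two_res_splitMod`, `splitVanish` : `H¹ = H² = 0` for the splitting module on every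
  subgroup at which the class axioms hold.
-/
import Fermat.Agent.CFT.Triv.SplitMod
import Fermat.Agent.CFT.Triv.ClassAt

set_option autoImplicit false

open CategoryTheory groupCohomology Limits

namespace Fermat.Agent.CFT.Triv

/-! ### Relatively projective representations -/

section RelProj

variable {H : Type} [Group H] [Fintype H]

/-- `A` is relatively projective: the identity of `A` is the `H`-norm of an additive
endomorphism `π`, i.e. `∑ h, h π h⁻¹ = id`. -/
def IsRelProj (A : Rep.{0} ℤ H) : Prop :=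
  ∃ π : A.V →+ A.V, ∀ a : A.V, ∑ h : H, A.ρ h (π (A.ρ h⁻¹ a)) = a

/-- Every 1-cocycle of a relatively projective representation is a coboundary. -/
theorem mem_coboundaries₁_of_isRelProj {A : Rep.{0} ℤ H} (hA : IsRelProj A) {c : H → A.V}
    (hc : c ∈ cocycles₁ A) : c ∈ coboundaries₁ A := by
  obtain ⟨π, hπ⟩ := hA
  rw [mem_cocycles₁_iff] at hc
  refine ⟨∑ x : H, A.ρ x (π (c x⁻¹)), ?_⟩
  funext g
  rw [d₀₁_hom_apply, map_sum]
  have h1 : ∑ x : H, A.ρ g (A.ρ x (π (c x⁻¹))) = ∑ y : H, A.ρ y (π (c (y⁻¹ * g))) := by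
    rw [← Equiv.sum_comp (Equiv.mulLeft g) (fun y => A.ρ y (π (c (y⁻¹ * g))))]
    refine Finset.sum_congr rfl fun x _ => ?_
    simp [mul_inv_rev]
  rw [h1]
  have h2 : ∀ y : H, A.ρ y (π (c (y⁻¹ * g))) =
      A.ρ y (π (A.ρ y⁻¹ (c g))) + A.ρ y (π (c y⁻¹)) := by
    intro y
    rw [hc, map_add, map_add]
  rw [Finset.sum_congr rfl fun y _ => h2 y, Finset.sum_add_distrib, hπ]
  abel

/-- Every 2-cocycle of a relatively projective representation is a coboundary. -/
theorem mem_coboundaries₂_of_isRelProj {A : Rep.{0} ℤ H} (hA : IsRelProj A) {s : H × H → A.V}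
    (hs : s ∈ cocycles₂ A) : s ∈ coboundaries₂ A := by
  obtain ⟨π, hπ⟩ := hA
  rw [mem_cocycles₂_iff] at hs
  refine ⟨fun h => ∑ x : H, A.ρ x (π (s (x⁻¹, h))), ?_⟩
  funext ⟨g, h⟩
  rw [d₁₂_hom_apply]
  dsimp only
  rw [map_sum]
  have h1 : ∑ x : H, A.ρ g (A.ρ x (π (s (x⁻¹, h)))) =
      ∑ y : H, A.ρ y (π (s (y⁻¹ * g, h))) := by
    rw [← Equiv.sum_comp (Equiv.mulLeft g) (fun y => A.ρ y (π (s (y⁻¹ * g, h))))]
    refine Finset.sum_congr rfl fun x _ => ?_
    simp [mul_inv_rev]
  rw [h1, ← Finset.sum_sub_distrib, ← Finset.sum_add_distrib]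
  have h2 : ∀ y : H, A.ρ y (π (s (y⁻¹ * g, h))) - A.ρ y (π (s (y⁻¹, g * h))) +
      A.ρ y (π (s (y⁻¹, g))) = A.ρ y (π (A.ρ y⁻¹ (s (g, h)))) := by
    intro y
    have := hs y⁻¹ g h
    rw [← map_sub, ← map_sub, ← map_add, ← map_add]
    congr 2
    rw [sub_add_eq_add_sub, this]
    abel
  rw [Finset.sum_congr rfl fun y _ => h2 y, hπ]

/-- Explicit form of `mem_coboundaries₁_of_isRelProj`. -/
theorem IsRelProj.exists_eq_d₀₁ {A : Rep.{0} ℤ H} (hA : IsRelProj A) {c : H → A.V}
    (hc : ∀ g h : H, c (g * h) = A.ρ g (c h) + c g) :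
    ∃ b : A.V, ∀ g : H, c g = A.ρ g b - b := by
  obtain ⟨b, hb⟩ := mem_coboundaries₁_of_isRelProj hA ((mem_cocycles₁_iff c).mpr hc)
  exact ⟨b, fun g => (congrFun hb g).symm⟩

/-- Explicit form of `mem_coboundaries₂_of_isRelProj`. -/
theorem IsRelProj.exists_eq_d₁₂ {A : Rep.{0} ℤ H} (hA : IsRelProj A) {s : H × H → A.V}
    (hs : ∀ g h j : H, s (g * h, j) + s (g, h) = A.ρ g (s (h, j)) + s (g, h * j)) :
    ∃ b : H → A.V, ∀ g h : H, s (g, h) = A.ρ g (b h) - b (g * h) + b g := by
  obtain ⟨b, hb⟩ := mem_coboundaries₂_of_isRelProj hA ((mem_cocycles₂_iff s).mpr hs)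
  exact ⟨b, fun g h => (congrFun hb (g, h)).symm⟩

end RelProj

/-! ### `ℤ[G]` is relatively projective on every subgroup -/

section RegRel

variable {G : Type} [Group G] {H : Type} [Group H] [Fintype H]

/-- `ℤ[G]` restricted along an injective `f : H →* G` is relatively projective. -/
theorem isRelProj_res_regRep (f : H →* G) (hf : Function.Injective f) :
    IsRelProj (Rep.res f (regRep G)) := by
  classical
  obtain ⟨T, hT⟩ := Subgroup.exists_isComplement_right f.range 1
  replace hT := hT.1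
  refine ⟨Finsupp.filterAddHom (· ∈ T), fun y => ?_⟩
  change ∑ h : H, regRho G (f h) (Finsupp.filterAddHom (· ∈ T) (regRho G (f h⁻¹) y)) = y
  induction y using Finsupp.induction_linear with
  | zero => simp
  | add a b ha hb =>
    simp only [map_add, Finset.sum_add_distrib, ha, hb]
  | single x n =>
    obtain ⟨⟨⟨k₀, hk₀⟩, ⟨t₀, ht₀⟩⟩, hx, huniq⟩ := (Subgroup.isComplement_iff_existsUnique.mp hT) x
    obtain ⟨h₀, rfl⟩ := hk₀
    simp only at hx
    have key : ∀ h : H, regRho G (f h) (Finsupp.filterAddHom (· ∈ T)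
        (regRho G (f h⁻¹) (Finsupp.single x n))) = if h = h₀ then Finsupp.single x n else 0 := by
      intro h
      rw [regRho_single]
      change regRho G (f h) (Finsupp.filter (· ∈ T) (Finsupp.single (f h⁻¹ * x) n)) = _
      by_cases hh : h = h₀
      · subst hh
        have : f h⁻¹ * x = t₀ := by rw [← hx]; simp
        rw [if_pos rfl, Finsupp.filter_single_of_pos _ (by rw [this]; exact ht₀), regRho_single]
        simp
      · rw [if_neg hh]
        have : f h⁻¹ * x ∉ T := by
          intro hmem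
          have := huniq ⟨⟨f h, ⟨h, rfl⟩⟩, ⟨f h⁻¹ * x, hmem⟩⟩ (by simp)
          have h2 : f h = f h₀ := by
            have := congrArg (fun z => (z.1 : G)) this
            simpa using this
          exact hh (hf h2)
        rw [Finsupp.filter_single_of_neg _ this, map_zero]
    rw [Finset.sum_congr rfl fun h _ => key h]
    simp

/-- `H¹(H, ℤ[G]) = 0`, explicit form. -/
theorem regRep_exists_eq_d₀₁ (f : H →* G) (hf : Function.Injective f) {c : H → (G →₀ ℤ)}
    (hc : ∀ g h : H, c (g * h) = regRho G (f g) (c h) + c g) :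
    ∃ b : G →₀ ℤ, ∀ g : H, c g = regRho G (f g) b - b :=
  IsRelProj.exists_eq_d₀₁ (A := Rep.res f (regRep G)) (isRelProj_res_regRep f hf) hc

/-- `H²(H, ℤ[G]) = 0`, explicit form. -/
theorem regRep_exists_eq_d₁₂ (f : H →* G) (hf : Function.Injective f)
    {s : H × H → (G →₀ ℤ)}
    (hs : ∀ g h j : H, s (g * h, j) + s (g, h) = regRho G (f g) (s (h, j)) + s (g, h * j)) :
    ∃ b : H → (G →₀ ℤ), ∀ g h : H, s (g, h) = regRho G (f g) (b h) - b (g * h) + b g :=
  IsRelProj.exists_eq_d₁₂ (A := Rep.res f (regRep G)) (isRelProj_res_regRep f hf) hs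

end RegRel

/-! ### Low-degree cohomology of the augmentation ideal on a subgroup -/

section Aug

variable {G : Type} [Group G] {H : Type} [Group H]

/-- The canonical 1-cochain `h ↦ f(h)·e - e` with values in the augmentation ideal. -/
noncomputable def augCocycle (f : H →* G) (h : H) : LinearMap.ker (augMap G) :=
  ⟨Finsupp.single (f h) 1 - Finsupp.single 1 1, by simp [LinearMap.mem_ker]⟩

@[simp] lemma augCocycle_coe (f : H →* G) (h : H) :
    ((augCocycle f h : LinearMap.ker (augMap G)) : G →₀ ℤ) =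
      Finsupp.single (f h) 1 - Finsupp.single 1 1 := rfl

lemma augCocycle_mul (f : H →* G) (g h : H) :
    augCocycle f (g * h) = augRho G (f g) (augCocycle f h) + augCocycle f g := by
  apply Subtype.ext
  simp [map_sub]

lemma mem_cocycles₁_res_augRep_iff (f : H →* G) (c : H → LinearMap.ker (augMap G)) :
    c ∈ cocycles₁ (Rep.res f (augRep G)) ↔
      ∀ g h : H, c (g * h) = augRho G (f g) (c h) + c g :=
  mem_cocycles₁_iff (A := Rep.res f (augRep G)) c

lemma mem_cocycles₂_res_augRep_iff (f : H →* G) (s : H × H → LinearMap.ker (augMap G)) :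
    s ∈ cocycles₂ (Rep.res f (augRep G)) ↔
      ∀ g h j : H, s (g * h, j) + s (g, h) = augRho G (f g) (s (h, j)) + s (g, h * j) :=
  mem_cocycles₂_iff (A := Rep.res f (augRep G)) s

lemma augCocycle_mem (f : H →* G) : augCocycle f ∈ cocycles₁ (Rep.res f (augRep G)) :=
  (mem_cocycles₁_res_augRep_iff f _).mpr (augCocycle_mul f)

variable [Fintype H]

/-- `H¹(H, I_G)` is generated by the class of the canonical cocycle. -/
theorem exists_augCocycle_decomp (f : H →* G) (hf : Function.Injective f)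
    {c : H → LinearMap.ker (augMap G)} (hc : c ∈ cocycles₁ (Rep.res f (augRep G))) :
    ∃ (k : ℤ) (y : LinearMap.ker (augMap G)),
      ∀ h : H, c h = k • augCocycle f h + (augRho G (f h) y - y) := by
  rw [mem_cocycles₁_res_augRep_iff] at hc
  have hc' : ∀ g h : H, ((c (g * h) : LinearMap.ker (augMap G)) : G →₀ ℤ) =
      regRho G (f g) (c h : G →₀ ℤ) + (c g : G →₀ ℤ) := by
    intro g h
    have := congrArg (fun z : LinearMap.ker (augMap G) => (z : G →₀ ℤ)) (hc g h)
    simpa using this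
  obtain ⟨b, hb⟩ := regRep_exists_eq_d₀₁ f hf (c := fun h => (c h : G →₀ ℤ)) hc'
  have hb' : ∀ h : H, regRho G (f h) b - b = (c h : G →₀ ℤ) := fun h => (hb h).symm
  have hy : b - augMap G b • Finsupp.single (1 : G) (1 : ℤ) ∈ LinearMap.ker (augMap G) := by
    simp [LinearMap.mem_ker]
  refine ⟨augMap G b, ⟨_, hy⟩, fun h => ?_⟩
  apply Subtype.ext
  simp only [Submodule.coe_add, Submodule.coe_smul, augCocycle_coe, Submodule.coe_sub,
    augRho_coe, map_sub, map_smul, regRho_single, mul_one]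
  rw [← hb' h]
  module

/-- `H²(H, I_G) = 0`. -/
theorem exists_d₁₂_eq_of_augRep (f : H →* G) (hf : Function.Injective f)
    {s : H × H → LinearMap.ker (augMap G)} (hs : s ∈ cocycles₂ (Rep.res f (augRep G))) :
    ∃ b : H → LinearMap.ker (augMap G),
      ∀ g h : H, s (g, h) = augRho G (f g) (b h) - b (g * h) + b g := by
  rw [mem_cocycles₂_res_augRep_iff] at hs
  have hs' : ∀ g h j : H, ((s (g * h, j) : LinearMap.ker (augMap G)) : G →₀ ℤ) + (s (g, h) : G →₀ ℤ)
      = regRho G (f g) (s (h, j) : G →₀ ℤ) + (s (g, h * j) : G →₀ ℤ) := by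
    intro g h j
    have := congrArg (fun z : LinearMap.ker (augMap G) => (z : G →₀ ℤ)) (hs g h j)
    simpa using this
  obtain ⟨b, hb⟩ := regRep_exists_eq_d₁₂ f hf (s := fun p => (s p : G →₀ ℤ)) hs'
  have hb' : ∀ g h : H, regRho G (f g) (b h) - b (g * h) + b g = (s (g, h) : G →₀ ℤ) :=
    fun g h => (hb g h).symm
  -- `β := ε ∘ b` is additive, hence zero
  have hβ : ∀ g h : H, augMap G (b (g * h)) = augMap G (b g) + augMap G (b h) := by
    intro g h
    have h1 := congrArg (augMap G) (hb' g h)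
    have h2 : augMap G (s (g, h) : G →₀ ℤ) = 0 := (s (g, h)).2
    rw [h2, map_add, map_sub, augMap_regRho] at h1
    linarith
  have hβ1 : augMap G (b 1) = 0 := by
    have := hβ 1 1
    rw [mul_one] at this
    linarith
  have hβpow : ∀ (h : H) (n : ℕ), augMap G (b (h ^ n)) = n * augMap G (b h) := by
    intro h n
    induction n with
    | zero => simp [hβ1]
    | succ n ih => rw [pow_succ, hβ, ih]; push_cast; ring
  have hβ0 : ∀ h : H, augMap G (b h) = 0 := by
    intro h
    have h1 := hβpow h (Fintype.card H)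
    rw [pow_card_eq_one, hβ1] at h1
    have h2 : (Fintype.card H : ℤ) ≠ 0 := by exact_mod_cast Fintype.card_ne_zero
    rcases mul_eq_zero.mp h1.symm with h3 | h3
    · exact absurd h3 h2
    · exact h3
  refine ⟨fun h => ⟨b h, hβ0 h⟩, fun g h => ?_⟩
  apply Subtype.ext
  simp only [Submodule.coe_add, Submodule.coe_sub, augRho_coe]
  exact (hb' g h).symm

/-- `|H|` times the canonical cocycle is a coboundary. -/
theorem card_smul_augCocycle (f : H →* G) :
    ∃ z : LinearMap.ker (augMap G),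
      ∀ h : H, (Fintype.card H : ℤ) • augCocycle f h = augRho G (f h) z - z := by
  refine ⟨-∑ h' : H, augCocycle f h', fun h => ?_⟩
  have h1 : augRho G (f h) (∑ h' : H, augCocycle f h') =
      ∑ h' : H, augCocycle f h' - (Fintype.card H : ℤ) • augCocycle f h := by
    rw [map_sum]
    have : ∀ h' : H, augRho G (f h) (augCocycle f h') = augCocycle f (h * h') - augCocycle f h := by
      intro h'
      rw [augCocycle_mul]; abel
    have e : ∑ x : H, augCocycle f (h * x) = ∑ x : H, augCocycle f x :=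
      Equiv.sum_comp (Equiv.mulLeft h) (fun x => augCocycle f x)
    rw [Finset.sum_congr rfl fun h' _ => this h', Finset.sum_sub_distrib, e]
    simp
  rw [map_neg, h1]
  abel

end Aug

/-! ### Tate's theorem in cocycle form -/

section Main

variable {G : Type} [Group G] (C : Rep.{0} ℤ G) (σ : cocycles₂ C)

lemma splitPhi_augCocycle {H : Type} [Group H] (f : H →* G) (g : G) (h : H) :
    splitPhi C σ g (augCocycle f h : G →₀ ℤ) = σ (g, f h) - C.ρ g (σ (1, 1)) := by
  rw [augCocycle_coe, map_sub, splitPhi_single, splitPhi_single, one_smul, one_smul,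
    cocycles₂_map_one_snd]


variable {C σ}

/-- Pointwise form of `IsClassAt.h1`: every 1-cocycle of `H` in `C` is a coboundary. -/
theorem IsClassAt.h1_pt {H : Type} [Group H] {f : H →* G} (hcl : IsClassAt C σ f)
    (c : H → C.V) (hc : ∀ g h : H, c (g * h) = C.ρ (f g) (c h) + c g) :
    ∃ a : C.V, ∀ h : H, c h = C.ρ (f h) a - a := by
  have hc' : c ∈ cocycles₁ (Rep.res f C) := (mem_cocycles₁_iff (A := Rep.res f C) c).mpr hc
  obtain ⟨a, ha⟩ := hcl.h1 ⟨c, hc'⟩
  exact ⟨a, fun h => (congrFun ha h).symm⟩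

/-- Pointwise form of `IsClassAt.gen`: every 2-cocycle of `H` in `C` is cohomologous to a
multiple of the restriction of `σ`.  (Here `k • x` on `C` is the canonical `zsmul`.) -/
theorem IsClassAt.gen_pt {H : Type} [Group H] {f : H →* G} (hcl : IsClassAt C σ f)
    (τ : H × H → C.V)
    (hτ : ∀ g h j : H, τ (g * h, j) + τ (g, h) = C.ρ (f g) (τ (h, j)) + τ (g, h * j)) :
    ∃ (k : ℤ) (b : H → C.V), ∀ g h : H,
      τ (g, h) = k • σ (f g, f h) + (C.ρ (f g) (b h) - b (g * h) + b g) := by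
  have hτ' : τ ∈ cocycles₂ (Rep.res f C) := (mem_cocycles₂_iff (A := Rep.res f C) τ).mpr hτ
  obtain ⟨k, b, hb⟩ := hcl.gen ⟨τ, hτ'⟩
  exact ⟨k, b, fun g h => congrFun hb (g, h)⟩

/-- Pointwise form of `IsClassAt.ord`. -/
theorem IsClassAt.ord_pt {H : Type} [Group H] {f : H →* G} (hcl : IsClassAt C σ f)
    (k : ℤ) (b : H → C.V)
    (hb : ∀ g h : H, k • σ (f g, f h) = C.ρ (f g) (b h) - b (g * h) + b g) :
    (Nat.card H : ℤ) ∣ k :=
  hcl.ord k ⟨b, funext fun p => hb p.1 p.2⟩

/-- `IsClassAt` from its pointwise form. -/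
theorem IsClassAt.of_pt {H : Type} [Group H] {f : H →* G}
    (h1 : ∀ c : H → C.V, (∀ g h : H, c (g * h) = C.ρ (f g) (c h) + c g) →
      ∃ a : C.V, ∀ h : H, c h = C.ρ (f h) a - a)
    (gen : ∀ τ : H × H → C.V,
      (∀ g h j : H, τ (g * h, j) + τ (g, h) = C.ρ (f g) (τ (h, j)) + τ (g, h * j)) →
      ∃ (k : ℤ) (b : H → C.V), ∀ g h : H,
        τ (g, h) = k • σ (f g, f h) + (C.ρ (f g) (b h) - b (g * h) + b g))
    (ord : ∀ (k : ℤ) (b : H → C.V),
      (∀ g h : H, k • σ (f g, f h) = C.ρ (f g) (b h) - b (g * h) + b g) →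
        (Nat.card H : ℤ) ∣ k) :
    IsClassAt C σ f where
  h1 c := by
    obtain ⟨a, ha⟩ := h1 (⇑c) ((mem_cocycles₁_iff (A := Rep.res f C) c).mp c.2)
    exact ⟨a, funext fun h => (ha h).symm⟩
  gen τ := by
    obtain ⟨k, b, hb⟩ := gen (⇑τ) ((mem_cocycles₂_iff (A := Rep.res f C) τ).mp τ.2)
    exact ⟨k, b, funext fun p => hb p.1 p.2⟩
  ord k := by
    rintro ⟨b, hb⟩
    exact ord k b (fun g h => congrFun hb (g, h))

variable {H : Type} [Group H] [Fintype H]

/-- `H¹(H, splitMod C σ) = 0`, explicit cocycle form. -/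
theorem splitMod_exists_eq_d₀₁ (f : H →* G) (hf : Function.Injective f) (hcl : IsClassAt C σ f)
    (c : H → C.V × LinearMap.ker (augMap G))
    (hc : ∀ g h : H, c (g * h) = splitRho C σ (f g) (c h) + c g) :
    ∃ a : C.V × LinearMap.ker (augMap G), ∀ h : H, c h = splitRho C σ (f h) a - a := by
  have hc1 : ∀ g h : H, (c (g * h)).2 = augRho G (f g) (c h).2 + (c g).2 := fun g h => by
    have := congrArg Prod.snd (hc g h)
    simpa [splitRho_apply] using this
  have hc0 : ∀ g h : H, (c (g * h)).1 =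
      C.ρ (f g) (c h).1 + splitPhi C σ (f g) ((c h).2 : G →₀ ℤ) + (c g).1 := fun g h => by
    have := congrArg Prod.fst (hc g h)
    simpa [splitRho_apply] using this
  obtain ⟨k, y, hky⟩ := exists_augCocycle_decomp f hf (c := fun h => (c h).2)
    ((mem_cocycles₁_res_augRep_iff f _).mpr hc1)
  -- `|H| ∣ k`
  have hdiv : (Nat.card H : ℤ) ∣ k := by
    refine hcl.ord_pt k (fun h => k • σ (1, 1) - (c h).1 + splitPhi C σ (f h) (y : G →₀ ℤ))
      (fun g h => ?_)
    have h0 := hc0 g h
    have e1 : splitPhi C σ (f g) ((c h).2 : G →₀ ℤ) =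
        k • (σ (f g, f h) - C.ρ (f g) (σ (1, 1))) +
          (splitPhi C σ (f g * f h) y - C.ρ (f g) (splitPhi C σ (f h) y)) -
          splitPhi C σ (f g) y := by
      rw [hky h]
      simp only [Submodule.coe_add, Submodule.coe_smul, Submodule.coe_sub, augRho_coe, map_add,
        map_sub, map_zsmul, splitPhi_augCocycle, splitPhi_augRho]
      abel
    rw [e1] at h0
    simp only [map_add, map_sub, map_zsmul, map_mul]
    rw [h0, smul_sub]
    abel
  obtain ⟨m, rfl⟩ := hdiv
  obtain ⟨z, hz⟩ := card_smul_augCocycle (G := G) f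
  have hw : ∀ h : H, (c h).2 = augRho G (f h) (y + m • z) - (y + m • z) := by
    intro h
    rw [hky h, mul_comm, mul_smul, Nat.card_eq_fintype_card, hz h]
    simp only [map_add, map_zsmul, smul_sub]
    abel
  have hu : ∀ g h : H, (c (g * h)).1 - splitPhi C σ (f (g * h)) ((y + m • z : _) : G →₀ ℤ) =
      C.ρ (f g) ((c h).1 - splitPhi C σ (f h) ((y + m • z : _) : G →₀ ℤ)) +
        ((c g).1 - splitPhi C σ (f g) ((y + m • z : _) : G →₀ ℤ)) := by
    intro g h
    have h0 := hc0 g h
    have e1 : splitPhi C σ (f g) ((c h).2 : G →₀ ℤ) =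
        splitPhi C σ (f g * f h) ((y + m • z : _) : G →₀ ℤ) -
          C.ρ (f g) (splitPhi C σ (f h) ((y + m • z : _) : G →₀ ℤ)) -
          splitPhi C σ (f g) ((y + m • z : _) : G →₀ ℤ) := by
      rw [hw h, Submodule.coe_sub, augRho_coe, map_sub, splitPhi_augRho]
    rw [h0, e1, map_mul, map_sub]
    abel
  obtain ⟨a, ha⟩ := hcl.h1_pt
    (fun h => (c h).1 - splitPhi C σ (f h) ((y + m • z : _) : G →₀ ℤ)) hu
  refine ⟨(a, y + m • z), fun h => ?_⟩
  refine Prod.ext ?_ ?_
  · have h1 := ha h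
    rw [sub_eq_iff_eq_add] at h1
    simp only [splitRho_apply, Prod.fst_sub]
    rw [h1]
    abel
  · simp only [splitRho_apply, Prod.snd_sub]
    exact hw h

/-- `H²(H, splitMod C σ) = 0`, explicit cocycle form. -/
theorem splitMod_exists_eq_d₁₂ (f : H →* G) (hf : Function.Injective f) (hcl : IsClassAt C σ f)
    (τ : H × H → C.V × LinearMap.ker (augMap G))
    (hτ : ∀ g h j : H,
      τ (g * h, j) + τ (g, h) = splitRho C σ (f g) (τ (h, j)) + τ (g, h * j)) :
    ∃ b : H → C.V × LinearMap.ker (augMap G),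
      ∀ g h : H, τ (g, h) = splitRho C σ (f g) (b h) - b (g * h) + b g := by
  have hτ1 : ∀ g h j : H, (τ (g * h, j)).2 + (τ (g, h)).2 =
      augRho G (f g) (τ (h, j)).2 + (τ (g, h * j)).2 := fun g h j => by
    have := congrArg Prod.snd (hτ g h j)
    simpa [splitRho_apply] using this
  have hτ0 : ∀ g h j : H, (τ (g * h, j)).1 + (τ (g, h)).1 =
      C.ρ (f g) (τ (h, j)).1 + splitPhi C σ (f g) ((τ (h, j)).2 : G →₀ ℤ) + (τ (g, h * j)).1 :=
    fun g h j => by
      have := congrArg Prod.fst (hτ g h j)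
      simpa [splitRho_apply] using this
  obtain ⟨b, hb⟩ := exists_d₁₂_eq_of_augRep f hf (s := fun p => (τ p).2)
    ((mem_cocycles₂_res_augRep_iff f _).mpr hτ1)
  have ht : ∀ g h j : H,
      ((τ (g * h, j)).1 - splitPhi C σ (f (g * h)) (b j : G →₀ ℤ)) +
        ((τ (g, h)).1 - splitPhi C σ (f g) (b h : G →₀ ℤ)) =
      C.ρ (f g) ((τ (h, j)).1 - splitPhi C σ (f h) (b j : G →₀ ℤ)) +
        ((τ (g, h * j)).1 - splitPhi C σ (f g) (b (h * j) : G →₀ ℤ)) := by
    intro g h j
    have h0 := hτ0 g h j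
    have e1 : splitPhi C σ (f g) ((τ (h, j)).2 : G →₀ ℤ) =
        (splitPhi C σ (f g * f h) (b j : G →₀ ℤ) -
            C.ρ (f g) (splitPhi C σ (f h) (b j : G →₀ ℤ))) -
          splitPhi C σ (f g) (b (h * j) : G →₀ ℤ) + splitPhi C σ (f g) (b h : G →₀ ℤ) := by
      rw [hb h j]
      simp only [Submodule.coe_add, Submodule.coe_sub, augRho_coe, map_add, map_sub,
        splitPhi_augRho]
    rw [e1] at h0
    rw [map_mul, map_sub, sub_add_sub_comm, h0]
    abel
  obtain ⟨k, c₁, hk⟩ := hcl.gen_pt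
    (fun p => (τ p).1 - splitPhi C σ (f p.1) (b p.2 : G →₀ ℤ)) ht
  refine ⟨fun h => (c₁ h + k • σ (1, 1), b h + k • augCocycle f h), fun g h => ?_⟩
  refine Prod.ext ?_ ?_
  · have h1 := hk g h
    simp only at h1
    rw [sub_eq_iff_eq_add] at h1
    simp only [splitRho_apply, Prod.fst_sub, Prod.fst_add, Submodule.coe_add, Submodule.coe_smul,
      map_add, map_zsmul, splitPhi_augCocycle]
    rw [h1, smul_sub]
    abel
  · simp only [splitRho_apply, Prod.snd_sub, Prod.snd_add, map_add, map_zsmul]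
    rw [hb g h, augCocycle_mul]
    simp only [smul_add]
    abel

end Main

/-! ### Tate's theorem for Mathlib's `H1`, `H2` and Tate cohomology -/

section Wrap

variable {G : Type} [Group G] {C : Rep.{0} ℤ G} {σ : cocycles₂ C} {H : Type} [Group H]

/-- **Tate's theorem**, degree 1: `H¹(H, splitMod C σ) = 0`. -/
theorem isZero_H1_res_splitMod [Finite H] (f : H →* G) (hf : Function.Injective f)
    (hcl : IsClassAt C σ f) : IsZero (H1 (Rep.res f (splitMod C σ))) := by
  let _ := Fintype.ofFinite H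
  have key : ∀ x : H1 (Rep.res f (splitMod C σ)), x = 0 := by
    intro x
    induction x using H1_induction_on with
    | h c =>
      rw [H1π_eq_zero_iff]
      obtain ⟨a, ha⟩ := splitMod_exists_eq_d₀₁ f hf hcl (⇑c)
        ((mem_cocycles₁_iff (A := Rep.res f (splitMod C σ)) c).mp c.2)
      exact ⟨a, funext fun h => (ha h).symm⟩
  have : Subsingleton (H1 (Rep.res f (splitMod C σ))) := ⟨fun x y => by rw [key x, key y]⟩
  exact ModuleCat.isZero_of_subsingleton _

/-- **Tate's theorem**, degree 2: `H²(H, splitMod C σ) = 0`. -/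
theorem isZero_H2_res_splitMod [Finite H] (f : H →* G) (hf : Function.Injective f)
    (hcl : IsClassAt C σ f) : IsZero (H2 (Rep.res f (splitMod C σ))) := by
  let _ := Fintype.ofFinite H
  have key : ∀ x : H2 (Rep.res f (splitMod C σ)), x = 0 := by
    intro x
    induction x using H2_induction_on with
    | h τ =>
      rw [H2π_eq_zero_iff]
      obtain ⟨b, hb⟩ := splitMod_exists_eq_d₁₂ f hf hcl (⇑τ)
        ((mem_cocycles₂_iff (A := Rep.res f (splitMod C σ)) τ).mp τ.2)
      exact ⟨b, funext fun p => (hb p.1 p.2).symm⟩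
  have : Subsingleton (H2 (Rep.res f (splitMod C σ))) := ⟨fun x y => by rw [key x, key y]⟩
  exact ModuleCat.isZero_of_subsingleton _

/-- **Tate's theorem**, Tate degree 1. -/
theorem isZero_tate_one_res_splitMod [Fintype H] (f : H →* G) (hf : Function.Injective f)
    (hcl : IsClassAt C σ f) : IsZero (tateCohomology (Rep.res f (splitMod C σ)) 1) :=
  (isZero_H1_res_splitMod f hf hcl).of_iso
    ((TateCohomology.isoGroupCohomology 1).app (Rep.res f (splitMod C σ)))

/-- **Tate's theorem**, Tate degree 2. -/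
theorem isZero_tate_two_res_splitMod [Fintype H] (f : H →* G) (hf : Function.Injective f)
    (hcl : IsClassAt C σ f) : IsZero (tateCohomology (Rep.res f (splitMod C σ)) 2) :=
  (isZero_H2_res_splitMod f hf hcl).of_iso
    ((TateCohomology.isoGroupCohomology 2).app (Rep.res f (splitMod C σ)))

/-! ### Producing `IsClassAt` from statements about Mathlib's `H1`, `H2` -/

/-- The restriction of a 2-cocycle along `f : H →* G`. -/
def resCocycle₂ (f : H →* G) (σ : cocycles₂ C) : cocycles₂ (Rep.res f C) :=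
  ⟨fun p => σ (f p.1, f p.2), (mem_cocycles₂_iff (A := Rep.res f C) _).mpr (fun g h j => by
    have := (mem_cocycles₂_iff σ).mp σ.2 (f g) (f h) (f j)
    simpa [map_mul] using this)⟩

@[simp] lemma resCocycle₂_apply (f : H →* G) (σ : cocycles₂ C) (g h : H) :
    resCocycle₂ f σ (g, h) = σ (f g, f h) := rfl

/-- `IsClassAt` from: `H¹(H, C) = 0`, and `H²(H, C)` is generated by the class `u` of the
restriction of `σ`, which has order (a multiple of) `|H|`. -/
theorem IsClassAt.of_H1_H2 (f : H →* G)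
    (h1 : ∀ x : H1 (Rep.res f C), x = 0)
    (gen : ∀ x : H2 (Rep.res f C), ∃ k : ℤ, x = k • H2π (Rep.res f C) (resCocycle₂ f σ))
    (ord : ∀ k : ℤ, k • H2π (Rep.res f C) (resCocycle₂ f σ) = 0 → (Nat.card H : ℤ) ∣ k) :
    IsClassAt C σ f := by
  refine IsClassAt.of_pt (fun c hc => ?_) (fun τ hτ => ?_) (fun k b hb => ?_)
  · have hc' : c ∈ cocycles₁ (Rep.res f C) := (mem_cocycles₁_iff (A := Rep.res f C) c).mpr hc
    obtain ⟨a, ha⟩ := (H1π_eq_zero_iff (⟨c, hc'⟩ : cocycles₁ (Rep.res f C))).mp (h1 _)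
    exact ⟨a, fun h => (congrFun ha h).symm⟩
  · have hτ' : τ ∈ cocycles₂ (Rep.res f C) := (mem_cocycles₂_iff (A := Rep.res f C) τ).mpr hτ
    obtain ⟨k, hk⟩ := gen (H2π (Rep.res f C) ⟨τ, hτ'⟩)
    rw [← map_zsmul, H2π_eq_iff] at hk
    obtain ⟨b, hb⟩ := hk
    refine ⟨k, b, fun g h => ?_⟩
    have h3 := congrFun hb (g, h)
    have h2 : (⇑(k • resCocycle₂ f σ) : H × H → C.V) (g, h) = k • σ (f g, f h) := rfl
    rw [Pi.sub_apply, h2, d₁₂_hom_apply] at h3
    change C.ρ (f g) (b h) - b (g * h) + b g = τ (g, h) - k • σ (f g, f h) at h3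
    rw [h3]
    abel
  · apply ord
    rw [← map_zsmul, H2π_eq_zero_iff]
    refine ⟨b, funext fun p => ?_⟩
    have h2 : (⇑(k • resCocycle₂ f σ) : H × H → C.V) p = k • σ (f p.1, f p.2) := rfl
    rw [h2, hb p.1 p.2, d₁₂_hom_apply]
    rfl

/-- `IsClassAt` from: `H¹(H, C) = 0`, `|H²(H, C)| = |H|`, and the class of the restriction of
`σ` has order `|H|`. -/
theorem IsClassAt.of_card_of_addOrderOf [Finite H] (f : H →* G)
    (h1 : ∀ x : H1 (Rep.res f C), x = 0)
    (hcard : Nat.card (H2 (Rep.res f C)) = Nat.card H)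
    (hord : addOrderOf (H2π (Rep.res f C) (resCocycle₂ f σ)) = Nat.card H) :
    IsClassAt C σ f := by
  have hfin : Finite (H2 (Rep.res f C)) :=
    Nat.finite_of_card_ne_zero (by rw [hcard]; exact Nat.card_pos.ne')
  have htop : AddSubgroup.zmultiples (H2π (Rep.res f C) (resCocycle₂ f σ)) = ⊤ :=
    AddSubgroup.eq_top_of_card_eq _ (by rw [Nat.card_zmultiples, hord, hcard])
  refine IsClassAt.of_H1_H2 f h1 (fun x => ?_) (fun k hk => ?_)
  · have hx : x ∈ AddSubgroup.zmultiples (H2π (Rep.res f C) (resCocycle₂ f σ)) := by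
      rw [htop]; trivial
    obtain ⟨k, hk⟩ := AddSubgroup.mem_zmultiples_iff.mp hx
    exact ⟨k, hk.symm⟩
  · rw [← hord]
    exact addOrderOf_dvd_iff_zsmul_eq_zero.mpr hk

/-- `IsClassAt` from: `H¹(H, C) = 0` and an "invariant" isomorphism `H²(H, C) ≃+ ℤ/|H|` sending
the class of the restriction of `σ` to `1`. -/
theorem IsClassAt.of_addEquiv_zmod (f : H →* G)
    (h1 : ∀ x : H1 (Rep.res f C), x = 0)
    (e : H2 (Rep.res f C) ≃+ ZMod (Nat.card H))
    (he : e (H2π (Rep.res f C) (resCocycle₂ f σ)) = 1) :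
    IsClassAt C σ f := by
  refine IsClassAt.of_H1_H2 f h1 (fun x => ?_) (fun k hk => ?_)
  · refine ⟨ZMod.cast (e x), e.injective ?_⟩
    rw [map_zsmul, he, zsmul_one, ZMod.intCast_zmod_cast]
  · have := congrArg e hk
    rw [map_zsmul, he, zsmul_one, map_zero] at this
    exact (ZMod.intCast_zmod_eq_zero_iff_dvd k _).mp this

/-- The statement `Triv.Plan.SplitVanish` (verbatim body). -/
theorem splitVanish : ∀ (G : Type) [Group G] [Finite G] (C : Rep.{0} ℤ G) (σ : cocycles₂ C)
    (H : Type) [Group H] [Finite H] (f : H →* G), Function.Injective f → IsClassAt C σ f →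
    Limits.IsZero (groupCohomology.H1 (Rep.res f (splitMod C σ))) ∧
      Limits.IsZero (groupCohomology.H2 (Rep.res f (splitMod C σ))) :=
  fun _ _ _ _ _ _ _ _ f hf hcl =>
    ⟨isZero_H1_res_splitMod f hf hcl, isZero_H2_res_splitMod f hf hcl⟩

end Wrap

end Fermat.Agent.CFT.Triv
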