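import Fermat.Agent.CFT.Triv.HomSplit
import Fermat.Agent.CFT.Triv.PGroup
import Fermat.Agent.CFT.Triv.TateThm
import Fermat.Agent.CFT.Triv.HomTriv
import Fermat.Agent.CFT.Coh.TateInduced

/-!
# CFT program, layer Triv: the contracts of `Triv/Plan.lean`, proved

One import for consumers: every `Plan.X` of the Triv layer that is proved on main, under the
name `Provide.x`.

* `shiftStmt`    (helper90, `Coh/TateInduced.lean`)
* `twinPGroup`   (helper80, `Triv/PGroup.lean`)
* `splitVanish`  (helper37, `Triv/TateThm.lean`)
* `homTrivP`     (helper33, `Triv/HomTriv.lean`)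
* `homSplitTrivP` : **the export `Plan.HomSplitTrivP` of the layer, unconditional**
  (assembly `Triv/HomSplit.lean`).
-/

set_option autoImplicit false

namespace Fermat.Agent.CFT.Triv.Provide

open CategoryTheory groupCohomology Fermat.Agent.CFT.Triv

theorem shiftStmt : Plan.ShiftStmt := Fermat.Agent.CFT.TateInduced.shiftStmt_holds

theorem twinPGroup : Plan.TwinPGroup :=
  fun _ _ _ _ _ hG A q hq hq' => isCohTrivial_of_pGroup' hG A q hq hq'

theorem splitVanish : Plan.SplitVanish := Fermat.Agent.CFT.Triv.splitVanish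

theorem homSplitTrivP_of_homTrivP (h : Plan.HomTrivP) : Plan.HomSplitTrivP :=
  Fermat.Agent.CFT.Triv.homSplitTrivP twinPGroup splitVanish h

theorem homTrivP : Plan.HomTrivP :=
  fun _ _ _ _ _ _ Λ B hfree hfin hB => HomTriv.isCohTrivial_ihom Λ B hfree hfin hB

/-- **The export of the layer Triv, unconditional.** -/
theorem homSplitTrivP : Plan.HomSplitTrivP := homSplitTrivP_of_homTrivP homTrivP

end Fermat.Agent.CFT.Triv.Provide
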