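/-
# CFT program, layer Triv (L3): the Sylow criterion for cohomological triviality

* `index_nsmul_tate_eq_zero` : if `Ĥⁿ(P, A) = 0` for a subgroup `P ≤ G` (an injective
  `f : P →* G`), then the index `[G : P]` kills `Ĥⁿ(G, A)` (all `n : ℤ`; no corestriction:
  shift to degree `0`, where `N_G = ∑_{cosets} t · N_P`).
* `isCohTrivial_of_forall_pGroup` : Serre, *Local Fields*, IX §5 Thm 8, (i) ⇒ (ii): a `G`-module
  is cohomologically trivial as soon as, for every `p`-subgroup `P`, two consecutive Tate groups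
  of `P` vanish.
* `isCohTrivial_of_forall_one_two` : the form used by Tate's theorem
  (`Ĥ¹ = Ĥ² = 0` on all subgroups).
-/
import Fermat.Agent.CFT.Triv.PGroup

set_option autoImplicit false
set_option linter.style.haveILetI false

open CategoryTheory Limits

namespace Fermat.Agent.CFT.Triv

attribute [local instance 10000] Rep.hV2

section index

variable {G : Type} [Group G] [Fintype G]

/-- The norm of `G` in terms of the norm of a subgroup: `N_G c = ∑_{q ∈ G/P} q · N_P c`. -/
lemma Sylow.norm_eq_sum_out (B : Rep ℤ G) {P : Type} [Group P] [Fintype P] (f : P →* G)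
    (hf : Function.Injective f) [Fintype (G ⧸ f.range)] (c : B.V) :
    B.ρ.norm c = ∑ q : G ⧸ f.range, B.ρ q.out ((Rep.res f B).ρ.norm c) := by
  have h1 : B.ρ.norm c = ∑ g : G, B.ρ g c := by
    simp [Representation.norm]
  have h2 : ∀ q : G ⧸ f.range, B.ρ q.out ((Rep.res f B).ρ.norm c) =
      ∑ h : P, B.ρ (q.out * f h) c := by
    intro q
    have : (Rep.res f B).ρ.norm c = ∑ h : P, B.ρ (f h) c := by
      simp [Representation.norm]
    rw [this, map_sum]
    refine Finset.sum_congr rfl (fun h _ => ?_)
    rw [map_mul]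
    rfl
  rw [h1, ← (TateInduced.transEquiv f hf).sum_comp, Fintype.sum_prod_type, Finset.sum_comm]
  refine Finset.sum_congr rfl (fun q _ => ?_)
  rw [h2]
  rfl

/-- Degree `0`: if `Ĥ⁰(P, B) = 0` then `[G : P]` kills `Ĥ⁰(G, B)`. -/
lemma index_nsmul_tate_zero_eq_zero (B : Rep ℤ G) {P : Type} [Group P] [Fintype P]
    (f : P →* G) (hf : Function.Injective f)
    (h : IsZero (tateCohomology (Rep.res f B) 0)) (y : tateCohomology B 0) :
    f.range.index • y = 0 := by
  obtain ⟨⟨b, hb⟩, rfl⟩ := TateLow.tateZeroMk_surjective B y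
  rw [← map_nsmul, TateLow.tateZeroMk_eq_zero_iff]
  have hbP : b ∈ (Rep.res f B).ρ.invariants := fun h' => hb (f h')
  obtain ⟨c, hc⟩ := (TateLow.isZero_tateCohomology_zero_iff (Rep.res f B)).1 h b hbP
  refine ⟨c, ?_⟩
  letI : Fintype (G ⧸ f.range) := Fintype.ofFinite _
  rw [Sylow.norm_eq_sum_out B f hf c, hc]
  have h3 : ∀ q : G ⧸ f.range, B.ρ q.out b = b := fun q => hb q.out
  rw [Finset.sum_congr rfl (fun q _ => h3 q), Finset.sum_const, Finset.card_univ,
    Subgroup.index, Nat.card_eq_fintype_card]
  rfl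

/-- If `Ĥⁿ(P, A) = 0` for a subgroup `P` of `G`, then the index `[G : P]` kills `Ĥⁿ(G, A)`. -/
theorem index_nsmul_tate_eq_zero (A : Rep ℤ G) {P : Type} [Group P] [Fintype P]
    (f : P →* G) (hf : Function.Injective f) (n : ℤ)
    (h : IsZero (tateCohomology (Rep.res f A) n)) (x : tateCohomology A n) :
    f.range.index • x = 0 := by
  obtain ⟨B, -, hBA⟩ := exists_shift' A 0 (fun a => zero_smul _ a) n
  obtain ⟨eP⟩ := hBA P f hf 0 n (by ring)
  obtain ⟨eG⟩ := hBA G (MonoidHom.id G) Function.injective_id 0 n (by ring)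
  have h0 : IsZero (tateCohomology (Rep.res f B) 0) := h.of_iso eP
  have h1 := index_nsmul_tate_zero_eq_zero B f hf h0 (eG.inv.hom x)
  have h2 : eG.hom.hom (f.range.index • eG.inv.hom x) = f.range.index • x := by
    rw [map_nsmul]
    simp
  rw [← h2, h1, map_zero]

end index

section sylow

variable {G : Type} [Group G]

/-- **Sylow criterion (Serre, Local Fields IX §5 Thm 8).** A `G`-module is cohomologically
trivial as soon as, for every `p`-subgroup `P` of `G` (every prime `p`), two consecutive Tate
cohomology groups of `P` vanish. -/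
theorem isCohTrivial_of_forall_pGroup (A : Rep ℤ G)
    (h : ∀ (p : ℕ) [Fact p.Prime] (P : Type) [Group P] [Fintype P] (f : P →* G),
      Function.Injective f → IsPGroup p P →
      ∃ q : ℤ, IsZero (tateCohomology (Rep.res f A) q) ∧
        IsZero (tateCohomology (Rep.res f A) (q + 1))) :
    IsCohTrivial A := by
  intro H _ _ f hf n
  have hall : ∀ x : tateCohomology (Rep.res f A) n, x = 0 := by
    intro x
    by_contra hx
    have hord : addOrderOf x ≠ 1 := fun h1 => hx (AddMonoid.addOrderOf_eq_one_iff.1 h1)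
    obtain ⟨p, hp, hpd⟩ := Nat.exists_prime_and_dvd hord
    haveI := Fact.mk hp
    let S : Sylow p H := Classical.arbitrary _
    letI : Fintype ↥(S : Subgroup H) := Fintype.ofFinite _
    have hS : IsPGroup p ↥(S : Subgroup H) := S.isPGroup'
    obtain ⟨q, hq, hq'⟩ := h p ↥(S : Subgroup H) (f.comp (S : Subgroup H).subtype)
      (hf.comp Subtype.val_injective) hS
    have hct := isCohTrivial_of_pGroup' hS (Rep.res (f.comp (S : Subgroup H).subtype) A) q hq hq'
    have hz : IsZero (tateCohomology (Rep.res (S : Subgroup H).subtype (Rep.res f A)) n) :=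
      hct ↥(S : Subgroup H) (MonoidHom.id _) Function.injective_id n
    have hk := index_nsmul_tate_eq_zero (Rep.res f A) (S : Subgroup H).subtype
      Subtype.val_injective n hz x
    rw [Subgroup.range_subtype] at hk
    exact S.not_dvd_index (hpd.trans (addOrderOf_dvd_of_nsmul_eq_zero hk))
  haveI : Subsingleton (tateCohomology (Rep.res f A) n) := ⟨fun x y => by rw [hall x, hall y]⟩
  exact ModuleCat.isZero_of_subsingleton _

/-- The form used by Tate's theorem: `Ĥ¹` and `Ĥ²` vanish on every subgroup ⇒ cohomologically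
trivial. (Only `p`-subgroups are needed.) -/
theorem isCohTrivial_of_forall_one_two (A : Rep ℤ G)
    (h : ∀ (p : ℕ) [Fact p.Prime] (P : Type) [Group P] [Fintype P] (f : P →* G),
      Function.Injective f → IsPGroup p P →
      IsZero (tateCohomology (Rep.res f A) 1) ∧ IsZero (tateCohomology (Rep.res f A) 2)) :
    IsCohTrivial A :=
  isCohTrivial_of_forall_pGroup A (fun p _ P _ _ f hf hP => ⟨1, (h p P f hf hP).1, (h p P f hf hP).2⟩)

end sylow

end Fermat.Agent.CFT.Triv
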