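import Fermat.Agent.CFT.Triv.Plan

/-!
# CFT program, layer Triv: assembly of the export `HomSplitTrivP`

`TwinPGroup` + `SplitVanish` + `HomTrivP` ⇒ `HomSplitTrivP`.
-/

set_option autoImplicit false

namespace Fermat.Agent.CFT.Triv

open CategoryTheory groupCohomology

/-- Two representations on the same module with equal actions give equal objects of `Rep`
(instance arguments implicit, so that it applies across the `ℤ`-module diamond). -/
theorem rep_of_congr {k G V : Type} [CommRing k] [Group G] {_ : AddCommGroup V} {_ : Module k V}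
    {ρ₁ ρ₂ : Representation k G V} (h : ρ₁ = ρ₂) : Rep.of ρ₁ = Rep.of ρ₂ := by
  rw [h]

section

attribute [local instance 10000] Rep.hV2

/-- Restriction commutes with the internal Hom (on the nose). -/
theorem res_ihom_eq {G H : Type} [Group G] [Group H] (f : H →* G) (A B : Rep.{0} ℤ G) :
    Rep.res f ((Rep.ihom A).obj B) = (Rep.ihom (Rep.res f A)).obj (Rep.res f B) := by
  refine rep_of_congr (MonoidHom.ext fun h => LinearMap.ext fun (φ : A.V →ₗ[ℤ] B.V) =>
    LinearMap.ext fun x => ?_)
  show B.ρ (f h) (φ (A.ρ ((f h)⁻¹) x)) = B.ρ (f h) (φ (A.ρ (f h⁻¹) x))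
  rw [map_inv f h]

/-- The additive-map internal Hom `homRep A B` of `Triv/Defs.lean` is isomorphic to Mathlib's
internal Hom `(Rep.ihom A).obj B` (same maps, viewed as linear for `A.hV2`, `B.hV2`). -/
noncomputable def homRepIsoIhom {G : Type} [Group G] (A B : Rep.{0} ℤ G) :
    homRep A B ≅ (Rep.ihom A).obj B where
  hom := mkHom (A := homRep A B) (B := (Rep.ihom A).obj B)
    { toFun := fun φ => (linOfAdd φ : A.V →ₗ[ℤ] B.V)
      map_zero' := rfl
      map_add' := fun _ _ => rfl }
    (fun g φ => LinearMap.ext fun x => rfl)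
  inv := mkHom (A := (Rep.ihom A).obj B) (B := homRep A B)
    { toFun := fun φ => ((φ : A.V →ₗ[ℤ] B.V).toAddMonoidHom : A.V →+ B.V)
      map_zero' := rfl
      map_add' := fun _ _ => rfl }
    (fun g φ => AddMonoidHom.ext fun x => rfl)
  hom_inv_id := by
    ext φ
    rfl
  inv_hom_id := by
    ext φ
    rfl

end

/-- **Assembly**: the export of the layer Triv. -/
theorem homSplitTrivP (h₁ : Plan.TwinPGroup) (h₂ : Plan.SplitVanish) (h₃ : Plan.HomTrivP) :
    Plan.HomSplitTrivP := by
  intro p _ G _ _ C σ hC R hRfree hRfin H _ _ f hf hH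
  obtain ⟨hH1, hH2⟩ := h₂ G C σ H f hf (hC H f hf hH)
  have ht1 : Limits.IsZero (tateCohomology (Rep.res f (splitMod C σ)) 1) :=
    Limits.IsZero.of_iso hH1 ((TateCohomology.isoGroupCohomology 1).app _)
  have ht2 : Limits.IsZero (tateCohomology (Rep.res f (splitMod C σ)) (1 + 1)) :=
    Limits.IsZero.of_iso hH2 ((TateCohomology.isoGroupCohomology 2).app _)
  have hX : IsCohTrivial (Rep.res f (splitMod C σ)) := h₁ p H hH _ 1 ht1 ht2
  have hY : IsCohTrivial ((Rep.ihom (Rep.res f R)).obj (Rep.res f (splitMod C σ))) :=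
    h₃ p H hH _ _ hRfree hRfin hX
  rw [← res_ihom_eq] at hY
  have key := hY H (MonoidHom.id H) Function.injective_id
  have e : Rep.res f (homRep R (splitMod C σ)) ≅ Rep.res f ((Rep.ihom R).obj (splitMod C σ)) :=
    (Rep.resFunctor f).mapIso (homRepIsoIhom R (splitMod C σ))
  exact ⟨Limits.IsZero.of_iso (key 0) ((tateCohomologyFunctor 0).mapIso e),
    Limits.IsZero.of_iso (key (-1)) ((tateCohomologyFunctor (-1)).mapIso e)⟩

end Fermat.Agent.CFT.Triv
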