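/-
P3 / CFT program, layer L3 (`Triv`): the Nakayama (abstract reciprocity) map
`G^ab → C^G / N_G C`, `h ↦ ∑ g, σ (g, h)`, and its bijectivity for a class module.
Owner: helper37.
-/
import Fermat.Agent.CFT.Triv.TateThm
import Fermat.Agent.CFT.Triv.PGroup
import Fermat.Agent.CFT.Coh.TateLow

set_option autoImplicit false

open CategoryTheory groupCohomology

namespace Fermat.Agent.CFT.Triv

section Nak

variable {G : Type} [Group G] [Fintype G] (C : Rep.{0} ℤ G) (σ : cocycles₂ C)

/-- The Nakayama sum `ν(h) = ∑ g, σ (g, h)`. -/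
noncomputable def nakSum (h : G) : C.V := ∑ g : G, σ (g, h)

/-- The additive extension of `ν` to `ℤ[G]`: `y ↦ ∑ g, φ_g y`. -/
noncomputable def nakLin : (G →₀ ℤ) →+ C.V := ∑ g : G, (splitPhi C σ g).toAddMonoidHom

lemma nakLin_apply (y : G →₀ ℤ) : nakLin C σ y = ∑ g : G, splitPhi C σ g y := by
  simp [nakLin]

lemma nakLin_single (h : G) (n : ℤ) : nakLin C σ (Finsupp.single h n) = n • nakSum C σ h := by
  rw [nakLin_apply, nakSum, Finset.smul_sum]
  exact Finset.sum_congr rfl fun g _ => splitPhi_single C σ g h n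

/-- `ν(1) = N σ(1,1)`. -/
lemma nakSum_one : nakSum C σ 1 = ∑ g : G, C.ρ g (σ (1, 1)) :=
  Finset.sum_congr rfl fun g _ => cocycles₂_map_one_snd σ g

/-- `ν(h h') + N σ(h, h') = ν(h) + ν(h')`. -/
lemma nakSum_mul (h h' : G) :
    nakSum C σ (h * h') + ∑ g : G, C.ρ g (σ (h, h')) = nakSum C σ h + nakSum C σ h' := by
  have e : ∑ g : G, σ (g * h, h') = ∑ g : G, σ (g, h') :=
    Equiv.sum_comp (Equiv.mulRight h) (fun g => σ (g, h'))
  have key : ∀ g : G, σ (g, h * h') + C.ρ g (σ (h, h')) = σ (g * h, h') + σ (g, h) := by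
    intro g
    rw [(mem_cocycles₂_iff σ).mp σ.2 g h h']
    abel
  unfold nakSum
  rw [← Finset.sum_add_distrib, Finset.sum_congr rfl fun g _ => key g, Finset.sum_add_distrib, e]
  abel

/-- `ν(h)` is `G`-invariant. -/
lemma nakSum_invariant (k h : G) : C.ρ k (nakSum C σ h) = nakSum C σ h := by
  have e1 : ∑ g : G, σ (k * g, h) = ∑ g : G, σ (g, h) :=
    Equiv.sum_comp (Equiv.mulLeft k) (fun g => σ (g, h))
  have e2 : ∑ g : G, σ (k, g * h) = ∑ g : G, σ (k, g) :=
    Equiv.sum_comp (Equiv.mulRight h) (fun g => σ (k, g))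
  have key : ∀ g : G, C.ρ k (σ (g, h)) = σ (k * g, h) + σ (k, g) - σ (k, g * h) := by
    intro g
    rw [(mem_cocycles₂_iff σ).mp σ.2 k g h]
    abel
  unfold nakSum
  rw [map_sum, Finset.sum_congr rfl fun g _ => key g, Finset.sum_sub_distrib,
    Finset.sum_add_distrib, e1, e2]
  abel

/-- The norm of `G` kills the augmentation ideal. -/
lemma sum_regRho_eq (y : G →₀ ℤ) :
    ∑ g : G, regRho G g y = augMap G y • ∑ g : G, Finsupp.single g (1 : ℤ) := by
  induction y using Finsupp.induction_linear with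
  | zero => simp
  | add a b ha hb => simp only [map_add, Finset.sum_add_distrib, ha, hb, add_smul]
  | single x n =>
    simp only [regRho_single, augMap_single, Finset.smul_sum, Finsupp.smul_single, smul_eq_mul,
      mul_one]
    exact Equiv.sum_comp (Equiv.mulRight x) (fun g => Finsupp.single g n)

lemma sum_augRho_eq_zero (y : LinearMap.ker (augMap G)) : ∑ g : G, augRho G g y = 0 := by
  apply Subtype.ext
  have hy : augMap G (y : G →₀ ℤ) = 0 := y.2
  rw [AddSubmonoidClass.coe_finsetSum]
  simp only [augRho_coe]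
  rw [sum_regRho_eq, hy, zero_smul]
  rfl

/-- The norm on the splitting module: `N (c, y) = (N c + ν̃ y, 0)`. -/
lemma sum_splitMod_ρ (p : C.V × LinearMap.ker (augMap G)) :
    ∑ g : G, (splitMod C σ).ρ g p =
      ((∑ g : G, C.ρ g p.1 + nakLin C σ (p.2 : G →₀ ℤ), 0) : C.V × LinearMap.ker (augMap G)) := by
  refine Prod.ext ?_ ?_
  · rw [Prod.fst_sum, nakLin_apply, ← Finset.sum_add_distrib]
    rfl
  · rw [Prod.snd_sum]
    exact sum_augRho_eq_zero p.2

omit [Fintype G] in
/-- `C`-invariants embed into invariants of the splitting module. -/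
lemma splitMod_inl_mem_invariants {c : C.V} (hc : ∀ g : G, C.ρ g c = c) :
    ((c, 0) : C.V × LinearMap.ker (augMap G)) ∈ (splitMod C σ).ρ.invariants := by
  intro g
  rw [splitMod_ρ_apply]
  exact Prod.ext (by simp [hc g]) (by simp)

/-- **Surjectivity of the Nakayama map**, elementwise: if every invariant of the splitting
module is a norm (`Ĥ⁰(G, splitMod C σ) = 0`), then every invariant of `C` is, modulo norms,
`ν̃ y` for some `y` in the augmentation ideal. -/
theorem exists_eq_nakLin_add_norm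
    (h0 : ∀ a : (splitMod C σ).V, a ∈ (splitMod C σ).ρ.invariants →
      ∃ b : (splitMod C σ).V, (splitMod C σ).ρ.norm b = a)
    (c : C.V) (hc : ∀ g : G, C.ρ g c = c) :
    ∃ (y : LinearMap.ker (augMap G)) (b : C.V),
      c = nakLin C σ (y : G →₀ ℤ) + ∑ g : G, C.ρ g b := by
  obtain ⟨x, hx⟩ := h0 _ (splitMod_inl_mem_invariants C σ hc)
  have h1 : ∑ g : G, (splitMod C σ).ρ g x = ((c, 0) : C.V × LinearMap.ker (augMap G)) := by
    rw [← hx]
    simp [Representation.norm]
  rw [sum_splitMod_ρ] at h1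
  refine ⟨x.2, x.1, ?_⟩
  have h2 := congrArg Prod.fst h1
  simp only at h2
  rw [← h2]
  abel

/-- `δ_h ↦ h` : the additive map `ℤ[G] → G^ab`. -/
noncomputable def abMap (G : Type) [Group G] : (G →₀ ℤ) →+ Additive (Abelianization G) :=
  Finsupp.liftAddHom (fun h => zmultiplesHom _ (Additive.ofMul (Abelianization.of h)))

omit [Fintype G] in
lemma abMap_single (h : G) (n : ℤ) :
    abMap G (Finsupp.single h n) = n • Additive.ofMul (Abelianization.of h) := by
  simp [abMap]

omit [Fintype G] in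
lemma abMap_regRho (g : G) (y : G →₀ ℤ) :
    abMap G (regRho G g y) = abMap G y + augMap G y • Additive.ofMul (Abelianization.of g) := by
  induction y using Finsupp.induction_linear with
  | zero => simp
  | add a b ha hb =>
    simp only [map_add, ha, hb, add_smul]
    abel
  | single x n =>
    rw [regRho_single, abMap_single, abMap_single, augMap_single, map_mul, ofMul_mul, smul_add]
    abel

omit [Fintype G] in
/-- `abMap` kills `I_G · I_G`. -/
lemma abMap_eq_zero_of_mem_coinvariantsKer (y : LinearMap.ker (augMap G))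
    (hy : y ∈ Representation.Coinvariants.ker (augRho G)) : abMap G (y : G →₀ ℤ) = 0 := by
  induction hy using Submodule.span_induction with
  | mem x hx =>
    obtain ⟨⟨g, v⟩, rfl⟩ := hx
    have hv : augMap G (v : G →₀ ℤ) = 0 := v.2
    simp only [Submodule.coe_sub, augRho_coe, map_sub, abMap_regRho, hv, zero_smul, add_zero,
      sub_self]
  | zero => simp
  | add x y _ _ hx hy => rw [Submodule.coe_add, map_add, hx, hy, add_zero]
  | smul a x _ hx => rw [Submodule.coe_smul, map_zsmul, hx, smul_zero]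

omit [Fintype G] in
/-- The projection `splitMod C σ → I_G` maps `I_G · splitMod` into `I_G · I_G`. -/
lemma snd_mem_coinvariantsKer {x : (splitMod C σ).V}
    (hx : x ∈ Representation.Coinvariants.ker (splitMod C σ).ρ) :
    (x : C.V × LinearMap.ker (augMap G)).2 ∈ Representation.Coinvariants.ker (augRho G) := by
  induction hx using Submodule.span_induction with
  | mem x hx =>
    obtain ⟨⟨g, v⟩, rfl⟩ := hx
    exact Representation.Coinvariants.sub_mem_ker (ρ := augRho G) g
      (v : C.V × LinearMap.ker (augMap G)).2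
  | zero => exact Submodule.zero_mem _
  | add x y _ _ hx hy => exact Submodule.add_mem _ hx hy
  | smul a x _ hx => exact zsmul_mem hx a

/-- **Injectivity of the Nakayama map**, elementwise: if every norm-zero element of the splitting
module lies in `I_G · splitMod` (`Ĥ⁻¹(G, splitMod C σ) = 0`), then `ν̃ y ∈ N_G C` implies
`y ∈ I_G · I_G`. -/
theorem mem_coinvariantsKer_of_nakLin_eq_norm
    (hm1 : ∀ a : (splitMod C σ).V, (splitMod C σ).ρ.norm a = 0 →
      a ∈ Representation.Coinvariants.ker (splitMod C σ).ρ)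
    (y : LinearMap.ker (augMap G)) (b : C.V)
    (h : nakLin C σ (y : G →₀ ℤ) = ∑ g : G, C.ρ g b) :
    y ∈ Representation.Coinvariants.ker (augRho G) := by
  have h1 : (splitMod C σ).ρ.norm ((-b, y) : C.V × LinearMap.ker (augMap G)) = 0 := by
    have h2 : (splitMod C σ).ρ.norm ((-b, y) : C.V × LinearMap.ker (augMap G)) =
        ∑ g : G, (splitMod C σ).ρ g ((-b, y) : C.V × LinearMap.ker (augMap G)) := by
      simp [Representation.norm]
    rw [h2, sum_splitMod_ρ]
    refine Prod.ext ?_ rfl
    simp only [map_neg, Finset.sum_neg_distrib, h]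
    exact neg_add_cancel _
  exact snd_mem_coinvariantsKer C σ (hm1 _ h1)

end Nak

/-! ### The Nakayama map `G^ab → Ĥ⁰(G, C) = C^G / N_G C` -/

section NakMap

attribute [local instance 10000] Rep.hV2

variable {G : Type} [Group G] [Fintype G] (C : Rep.{0} ℤ G) (σ : cocycles₂ C)

/-- `ν(h)` as an element of the invariants. -/
noncomputable def nakInv (h : G) : C.ρ.invariants :=
  ⟨nakSum C σ h, fun k => nakSum_invariant C σ k h⟩

lemma nak_norm_apply_eq_sum (b : C.V) : C.ρ.norm b = ∑ g : G, C.ρ g b := by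
  simp [Representation.norm]

/-- The class of an invariant in `Ĥ⁰(G, C)` vanishes iff it is a norm. -/
lemma nak_tateZeroMk_eq_zero_iff (a : C.ρ.invariants) :
    TateLow.tateZeroMk C a = 0 ↔ ∃ b : C.V, ∑ g : G, C.ρ g b = (a : C.V) := by
  rw [TateLow.tateZeroMk_eq_zero_iff]
  constructor
  · rintro ⟨b, hb⟩
    exact ⟨b, by rw [← nak_norm_apply_eq_sum]; exact hb⟩
  · rintro ⟨b, hb⟩
    exact ⟨b, by rw [nak_norm_apply_eq_sum]; exact hb⟩

/-- Two invariants have the same class in `Ĥ⁰(G, C)` iff they differ by a norm. -/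
lemma nak_tateZeroMk_eq_iff (a a' : C.ρ.invariants) :
    TateLow.tateZeroMk C a = TateLow.tateZeroMk C a' ↔
      ∃ b : C.V, ∑ g : G, C.ρ g b = (a : C.V) - (a' : C.V) := by
  rw [← sub_eq_zero, ← map_sub, nak_tateZeroMk_eq_zero_iff]
  rfl

/-- The Nakayama map on `G`: `h ↦ [∑ g, σ (g, h)] ∈ Ĥ⁰(G, C)`. -/
noncomputable def nakHom : G →* Multiplicative (tateCohomology C 0) where
  toFun h := Multiplicative.ofAdd (TateLow.tateZeroMk C (nakInv C σ h))
  map_one' := by
    rw [← ofAdd_zero]
    congr 1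
    rw [nak_tateZeroMk_eq_zero_iff]
    exact ⟨σ (1, 1), (nakSum_one C σ).symm⟩
  map_mul' h h' := by
    rw [← ofAdd_add]
    congr 1
    rw [← map_add, nak_tateZeroMk_eq_iff]
    refine ⟨-σ (h, h'), ?_⟩
    have := nakSum_mul C σ h h'
    simp only [map_neg, Finset.sum_neg_distrib]
    change _ = nakSum C σ (h * h') - (nakSum C σ h + nakSum C σ h')
    rw [← this]
    abel

lemma nakHom_apply (h : G) :
    nakHom C σ h = Multiplicative.ofAdd (TateLow.tateZeroMk C (nakInv C σ h)) := rfl

/-- **The Nakayama map** `G^ab → Ĥ⁰(G, C) = C^G / N_G C`, induced by `h ↦ ∑ g, σ (g, h)`. -/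
noncomputable def nakayama : Abelianization G →* Multiplicative (tateCohomology C 0) :=
  Abelianization.lift (nakHom C σ)

@[simp] lemma nakayama_of (h : G) : nakayama C σ (Abelianization.of h) = nakHom C σ h := rfl

/-- `ν(h) = N b` iff `h` is in the kernel of `nakHom`. -/
lemma nakHom_eq_one_iff (h : G) :
    nakHom C σ h = 1 ↔ ∃ b : C.V, ∑ g : G, C.ρ g b = nakSum C σ h := by
  rw [nakHom_apply, ← ofAdd_zero, Multiplicative.ofAdd.injective.eq_iff,
    nak_tateZeroMk_eq_zero_iff]
  rfl

/-- `ν(h) ≡ ν(h')` modulo norms iff `nakHom` agrees. -/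
lemma nakHom_eq_iff (h h' : G) :
    nakHom C σ h = nakHom C σ h' ↔
      ∃ b : C.V, ∑ g : G, C.ρ g b = nakSum C σ h - nakSum C σ h' := by
  rw [nakHom_apply, nakHom_apply, Multiplicative.ofAdd.injective.eq_iff, nak_tateZeroMk_eq_iff]
  rfl

/-- `n • ν(x) ≡ ν(x ^ n)` modulo norms. -/
lemma exists_zsmul_nakSum (x : G) (n : ℤ) :
    ∃ b : C.V, n • nakSum C σ x = nakSum C σ (x ^ n) + ∑ g : G, C.ρ g b := by
  induction n using Int.induction_on with
  | zero =>
    refine ⟨-σ (1, 1), ?_⟩
    rw [zero_smul, zpow_zero, nakSum_one]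
    simp
  | succ n ih =>
    obtain ⟨b, hb⟩ := ih
    refine ⟨b + σ (x ^ (n : ℤ), x), ?_⟩
    have := nakSum_mul C σ (x ^ (n : ℤ)) x
    rw [add_zsmul, one_zsmul, hb, zpow_add_one]
    simp only [map_add, Finset.sum_add_distrib]
    rw [add_right_comm, ← this]
    abel
  | pred n ih =>
    obtain ⟨b, hb⟩ := ih
    refine ⟨b - σ (x ^ (-(n : ℤ) - 1), x), ?_⟩
    have := nakSum_mul C σ (x ^ (-(n : ℤ) - 1)) x
    rw [← zpow_add_one, sub_add_cancel] at this
    rw [sub_zsmul, one_zsmul, hb]
    simp only [map_sub, Finset.sum_sub_distrib]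
    rw [eq_sub_of_add_eq this]
    abel

/-- Every `ν̃ y`, `y ∈ ℤ[G]`, is `ν(h)` modulo norms for some `h`. -/
lemma exists_nakLin_eq (y : G →₀ ℤ) :
    ∃ (h : G) (b : C.V), nakLin C σ y = nakSum C σ h + ∑ g : G, C.ρ g b := by
  induction y using Finsupp.induction_linear with
  | zero =>
    refine ⟨1, -σ (1, 1), ?_⟩
    rw [map_zero, nakSum_one]
    simp
  | add y z hy hz =>
    obtain ⟨h, b, hb⟩ := hy
    obtain ⟨h', b', hb'⟩ := hz
    refine ⟨h * h', b + b' + σ (h, h'), ?_⟩
    have := nakSum_mul C σ h h'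
    rw [map_add, hb, hb']
    simp only [map_add, Finset.sum_add_distrib]
    rw [add_add_add_comm, ← this]
    abel
  | single x n =>
    obtain ⟨b, hb⟩ := exists_zsmul_nakSum C σ x n
    exact ⟨x ^ n, b, by rw [nakLin_single, hb]⟩

/-- **Surjectivity, elementwise**: if `Ĥ⁰(G, splitMod C σ) = 0`, every invariant of `C` is
`∑ g, σ (g, h)` for some `h : G`, up to a norm. -/
theorem exists_eq_nakSum_add_norm
    (h0 : ∀ a : (splitMod C σ).V, a ∈ (splitMod C σ).ρ.invariants →
      ∃ b : (splitMod C σ).V, (splitMod C σ).ρ.norm b = a)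
    (c : C.V) (hc : ∀ g : G, C.ρ g c = c) :
    ∃ (h : G) (b : C.V), c = nakSum C σ h + ∑ g : G, C.ρ g b := by
  obtain ⟨y, b, hyb⟩ := exists_eq_nakLin_add_norm C σ h0 c hc
  obtain ⟨h, b', hb'⟩ := exists_nakLin_eq C σ (y : G →₀ ℤ)
  refine ⟨h, b' + b, ?_⟩
  rw [hyb, hb']
  simp only [map_add, Finset.sum_add_distrib]
  abel

/-- **Injectivity, elementwise**: if `Ĥ⁻¹(G, splitMod C σ) = 0` and `∑ g, σ (g, h)` is a norm,
then `h` is trivial in `G^ab`. -/
theorem abelianization_of_eq_one_of_nakSum_eq_norm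
    (hm1 : ∀ a : (splitMod C σ).V, (splitMod C σ).ρ.norm a = 0 →
      a ∈ Representation.Coinvariants.ker (splitMod C σ).ρ)
    (h : G) (b : C.V) (hb : ∑ g : G, C.ρ g b = nakSum C σ h) :
    Abelianization.of h = 1 := by
  have hy := mem_coinvariantsKer_of_nakLin_eq_norm C σ hm1 (augCocycle (MonoidHom.id G) h)
    (b - σ (1, 1)) (by
      rw [augCocycle_coe, map_sub, nakLin_single, nakLin_single, one_smul, one_smul, nakSum_one]
      simp only [MonoidHom.id_apply, map_sub, Finset.sum_sub_distrib, hb])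
  have h2 := abMap_eq_zero_of_mem_coinvariantsKer _ hy
  rw [augCocycle_coe, map_sub, abMap_single, abMap_single, one_smul, one_smul, map_one,
    ofMul_one, sub_zero] at h2
  exact h2

/-- **The Nakayama map is surjective** if `Ĥ⁰(G, splitMod C σ) = 0`. -/
theorem nakayama_surjective
    (h0 : ∀ a : (splitMod C σ).V, a ∈ (splitMod C σ).ρ.invariants →
      ∃ b : (splitMod C σ).V, (splitMod C σ).ρ.norm b = a) :
    Function.Surjective (nakayama C σ) := by
  intro q
  obtain ⟨⟨c, hc⟩, hq⟩ := TateLow.tateZeroMk_surjective C (Multiplicative.toAdd q)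
  obtain ⟨h, b, hb⟩ := exists_eq_nakSum_add_norm C σ h0 c hc
  refine ⟨Abelianization.of h, ?_⟩
  rw [nakayama_of, nakHom_apply]
  apply Multiplicative.toAdd.injective
  rw [toAdd_ofAdd, ← hq, nak_tateZeroMk_eq_iff]
  refine ⟨-b, ?_⟩
  change _ = nakSum C σ h - c
  rw [hb]
  simp only [map_neg, Finset.sum_neg_distrib]
  abel

/-- **The Nakayama map is injective** if `Ĥ⁻¹(G, splitMod C σ) = 0`. -/
theorem nakayama_injective
    (hm1 : ∀ a : (splitMod C σ).V, (splitMod C σ).ρ.norm a = 0 →
      a ∈ Representation.Coinvariants.ker (splitMod C σ).ρ) :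
    Function.Injective (nakayama C σ) := by
  rw [injective_iff_map_eq_one]
  intro x hx
  obtain ⟨h, rfl⟩ := QuotientGroup.mk_surjective x
  change nakHom C σ h = 1 at hx
  obtain ⟨b, hb⟩ := (nakHom_eq_one_iff C σ h).mp hx
  exact abelianization_of_eq_one_of_nakSum_eq_norm C σ hm1 h b hb

end NakMap

/-! ### Class modules: the Nakayama map is an isomorphism -/

section ClassModule

variable {G : Type} [Group G] [Fintype G] {C : Rep.{0} ℤ G} {σ : cocycles₂ C}

/-- The Nakayama map is bijective as soon as `Ĥ⁰` and `Ĥ⁻¹` of the splitting module vanish. -/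
theorem nakayama_bijective_of_isZero
    (h0 : Limits.IsZero (tateCohomology (splitMod C σ) 0))
    (hm1 : Limits.IsZero (tateCohomology (splitMod C σ) (-1))) :
    Function.Bijective (nakayama C σ) :=
  ⟨nakayama_injective C σ ((TateLow.isZero_tateCohomology_negOne_iff _).mp hm1),
    nakayama_surjective C σ ((TateLow.isZero_tateCohomology_zero_iff _).mp h0)⟩

variable {p : ℕ} [Fact p.Prime]

/-- **Tate's theorem for `p`-groups**: the splitting module of a class module is cohomologically
trivial. -/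
theorem isCohTrivial_splitMod_of_pGroup (hG : IsPGroup p G)
    (hcl : IsClassAt C σ (MonoidHom.id G)) : IsCohTrivial (splitMod C σ) :=
  isCohTrivial_of_pGroup' hG (splitMod C σ) 1
    (isZero_tate_one_res_splitMod (MonoidHom.id G) Function.injective_id hcl)
    (isZero_tate_two_res_splitMod (MonoidHom.id G) Function.injective_id hcl)

/-- **Abstract reciprocity for `p`-groups**: for a class module `(C, σ)` of a finite `p`-group `G`
the Nakayama map `G^ab → Ĥ⁰(G, C) = C^G / N_G C`, `h ↦ ∑ g, σ (g, h)`, is bijective. -/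
theorem nakayama_bijective_of_pGroup (hG : IsPGroup p G)
    (hcl : IsClassAt C σ (MonoidHom.id G)) : Function.Bijective (nakayama C σ) :=
  have h := isCohTrivial_splitMod_of_pGroup hG hcl
  nakayama_bijective_of_isZero (h G (MonoidHom.id G) Function.injective_id 0)
    (h G (MonoidHom.id G) Function.injective_id (-1))

/-- The same for a `p`-class module. -/
theorem nakayama_bijective_of_isPClassModule (hG : IsPGroup p G)
    (hcl : IsPClassModule p C σ) : Function.Bijective (nakayama C σ) :=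
  nakayama_bijective_of_pGroup hG (hcl G (MonoidHom.id G) Function.injective_id hG)

/-- `[C^G : N_G C] = |G^ab|`. -/
theorem card_tateCohomology_zero_of_pGroup (hG : IsPGroup p G)
    (hcl : IsClassAt C σ (MonoidHom.id G)) :
    Nat.card (tateCohomology C 0) = Nat.card (Abelianization G) :=
  (Nat.card_congr (Equiv.ofBijective _ (nakayama_bijective_of_pGroup hG hcl))).symm

omit [Fintype G] in
/-- For a commutative group, `|G^ab| = |G|`. -/
lemma nak_card_abelianization_of_comm (hcomm : ∀ a b : G, a * b = b * a) :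
    Nat.card (Abelianization G) = Nat.card G := by
  let _ : CommGroup G := { ‹Group G› with mul_comm := hcomm }
  exact (Nat.card_congr (Abelianization.equivOfComm (H := G)).toEquiv).symm

/-- Elementwise surjectivity for a class module of a `p`-group: every invariant of `C` is
`∑ g, σ (g, h)` up to a norm. -/
theorem exists_eq_nakSum_add_norm_of_pGroup (hG : IsPGroup p G)
    (hcl : IsClassAt C σ (MonoidHom.id G)) (c : C.V) (hc : ∀ g : G, C.ρ g c = c) :
    ∃ (h : G) (b : C.V), c = nakSum C σ h + ∑ g : G, C.ρ g b :=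
  exists_eq_nakSum_add_norm C σ
    ((TateLow.isZero_tateCohomology_zero_iff _).mp
      (isCohTrivial_splitMod_of_pGroup hG hcl G (MonoidHom.id G) Function.injective_id 0)) c hc

/-- Elementwise injectivity for a class module of a `p`-group: if `∑ g, σ (g, h)` is a norm
then `h` is trivial in `G^ab`. -/
theorem abelianization_of_eq_one_of_pGroup (hG : IsPGroup p G)
    (hcl : IsClassAt C σ (MonoidHom.id G)) (h : G) (b : C.V)
    (hb : ∑ g : G, C.ρ g b = nakSum C σ h) : Abelianization.of h = 1 :=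
  abelianization_of_eq_one_of_nakSum_eq_norm C σ
    ((TateLow.isZero_tateCohomology_negOne_iff _).mp
      (isCohTrivial_splitMod_of_pGroup hG hcl G (MonoidHom.id G) Function.injective_id (-1)))
    h b hb

/-- If `G` has exponent dividing `n`, then `n • C^G ⊆ N_G C` (class module of a `p`-group). -/
theorem exists_norm_eq_nsmul_of_pGroup (hG : IsPGroup p G)
    (hcl : IsClassAt C σ (MonoidHom.id G)) (n : ℕ) (hn : ∀ g : G, g ^ n = 1)
    (c : C.V) (hc : ∀ g : G, C.ρ g c = c) : ∃ b : C.V, ∑ g : G, C.ρ g b = n • c := by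
  obtain ⟨h, b, hb⟩ := exists_eq_nakSum_add_norm_of_pGroup hG hcl c hc
  obtain ⟨b', hb'⟩ := exists_zsmul_nakSum C σ h (n : ℤ)
  rw [natCast_zsmul, zpow_natCast, hn h, nakSum_one] at hb'
  refine ⟨σ (1, 1) + b' + n • b, ?_⟩
  rw [hb, smul_add, hb']
  simp only [map_add, map_nsmul, Finset.sum_add_distrib, Finset.smul_sum]

end ClassModule

end Fermat.Agent.CFT.Triv
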