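import Fermat.Agent.CFT.Triv.Defs
import Fermat.Agent.CFT.Triv.SplitMod

/-!
# CFT program, layer Triv (L3): interface statements (Prop-defs)

Every statement of the layer is a `def Name : Prop`.  Providers prove `theorem name : Plan.Name`
(in hypothesis form: the Plan props they use are hypotheses); consumers take `(h : Plan.Name)`.

* `HomSplitTrivP` — the ONE export of the layer (consumer: Formation): for a `p`-class module
  `(C, σ)` of a finite group `G` and a `ℤ`-free f.g. `G`-lattice `R`, the module
  `homRep R (splitMod C σ)` (additive maps `R →+ splitMod C σ` with the conjugation action,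
  `Triv/Defs.lean`) has trivial Tate cohomology in degrees `0` and `-1` on every `p`-subgroup.
* `ShiftStmt` — dimension shifting (proved in `Coh/TateInduced.lean`).
* `TwinPGroup` — Serre, Local Fields IX §5 Thm 8 for `p`-groups (provider: `Triv/PGroup.lean`).
* `SplitVanish` — Tate's computation for the splitting module (provider: `Triv/TateThm.lean`).
* `HomTrivP` — `Hom_ℤ(Λ, B)` is cohomologically trivial for `B` cohomologically trivial and `Λ` a
  lattice, over a `p`-group (providers: `Triv/HomTrivP.lean`, `Triv/HomTriv.lean`).

`Module.Free ℤ R.V` and `Module.Finite ℤ R.V` below are with respect to the `ℤ`-module structure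
found by instance search, i.e. `AddCommGroup.toIntModule R.V` (see the warning in `Triv/Defs.lean`).
-/

set_option autoImplicit false

namespace Fermat.Agent.CFT.Triv.Plan

open CategoryTheory groupCohomology Fermat.Agent.CFT.Triv

/-- **Dimension shifting**: every representation of a finite group embeds into, and is a quotient
of, a cohomologically trivial module (killed by `m` if `A` is). -/
def ShiftStmt : Prop :=
  ∀ (G : Type) [Group G] [Fintype G] (A : Rep.{0} ℤ G),
    ∃ (I : Rep.{0} ℤ G) (i : A ⟶ I) (π : I ⟶ A), Mono i ∧ Epi π ∧ IsCohTrivial I ∧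
      ∀ m : ℕ, (∀ a : A, m • a = 0) → ∀ x : I, m • x = 0

/-- **Twin-number criterion for `p`-groups**: if two consecutive Tate cohomology groups of `A`
vanish (for the whole `p`-group `G` only), then `A` is cohomologically trivial. -/
def TwinPGroup : Prop :=
  ∀ (p : ℕ) [Fact p.Prime] (G : Type) [Group G] [Fintype G], IsPGroup p G →
    ∀ (A : Rep.{0} ℤ G) (q : ℤ), Limits.IsZero (tateCohomology A q) →
      Limits.IsZero (tateCohomology A (q + 1)) → IsCohTrivial A

/-- **Tate's theorem, core**: the splitting module of a class module has trivial `H¹` and `H²`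
at every subgroup where the class-module axioms hold. -/
def SplitVanish : Prop :=
  ∀ (G : Type) [Group G] [Finite G] (C : Rep.{0} ℤ G) (σ : cocycles₂ C)
    (H : Type) [Group H] [Finite H] (f : H →* G), Function.Injective f → IsClassAt C σ f →
      Limits.IsZero (groupCohomology.H1 (Rep.res f (splitMod C σ))) ∧
      Limits.IsZero (groupCohomology.H2 (Rep.res f (splitMod C σ)))

/-- **`Hom` out of a lattice preserves cohomological triviality** (over a `p`-group). -/
def HomTrivP : Prop :=
  ∀ (p : ℕ) [Fact p.Prime] (G : Type) [Group G] [Fintype G], IsPGroup p G →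
    ∀ (Λ B : Rep.{0} ℤ G), Module.Free ℤ Λ.V → Module.Finite ℤ Λ.V → IsCohTrivial B →
      IsCohTrivial ((Rep.ihom Λ).obj B)

/-- **The export of the layer**: for a `p`-class module `(C, σ)` and a lattice `R`,
`homRep R (splitMod C σ)` has trivial `Ĥ⁰` and `Ĥ⁻¹` on every `p`-subgroup. -/
def HomSplitTrivP : Prop :=
  ∀ (p : ℕ) [Fact p.Prime] (G : Type) [Group G] [Fintype G] (C : Rep.{0} ℤ G) (σ : cocycles₂ C),
    IsPClassModule p C σ →
    ∀ (R : Rep.{0} ℤ G), Module.Free ℤ R.V → Module.Finite ℤ R.V →
    ∀ (H : Type) [Group H] [Fintype H] (f : H →* G), Function.Injective f → IsPGroup p H →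
      Limits.IsZero (tateCohomology (Rep.res f (homRep R (splitMod C σ))) 0) ∧
      Limits.IsZero (tateCohomology (Rep.res f (homRep R (splitMod C σ))) (-1))

end Fermat.Agent.CFT.Triv.Plan
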